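import Mathlib

/-!
# The Hesse forms and the pencil of curves with the same 3-torsion

`(c4U x y, c6U x y)` are the invariants of the curve with marked full 3-torsion attached to
`(x, y)`. For invariants `(a, b)` the pencil `(c4L l m a b, c6L l m a b)` consists of the invariants
at `l • (x, y) + m • cov (x, y)`, and depends only on `(a, b)`.

Main results: `exists_hesse_param`, `not_dL_c4L_eq_zero` and `exists_no_root_param`.
-/

set_option autoImplicit false

open Polynomial

namespace Fermat.Agent.SwitchThree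

section Ring

variable {R : Type*} [CommRing R]

/-- The Hesse form of degree 4 giving `c₄`. -/
def c4U (x y : R) : R := x * (x ^ 3 + 8 * y ^ 3)

/-- The Hesse form of degree 6 giving `c₆`. -/
def c6U (x y : R) : R := -x ^ 6 + 20 * x ^ 3 * y ^ 3 + 8 * y ^ 6

/-- The tetrahedral form vanishing at the cusps. -/
def dU (x y : R) : R := y * (x ^ 3 - y ^ 3)

/-- First coordinate of `l • u + m • cov u`. -/
def moveX (l m x y : R) : R := l * x - m * (x ^ 3 - 4 * y ^ 3)

/-- Second coordinate of `l • u + m • cov u`. -/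
def moveY (l m x y : R) : R := l * y + 3 * m * x ^ 2 * y

/-- `c₄` along the pencil. -/
def c4L (l m a b : R) : R :=
  a * l ^ 4 + 4 * b * l ^ 3 * m + 6 * a ^ 2 * l ^ 2 * m ^ 2 + 4 * a * b * l * m ^ 3
    + (-3 * a ^ 3 + 4 * b ^ 2) * m ^ 4

/-- `c₆` along the pencil. -/
def c6L (l m a b : R) : R :=
  b * l ^ 6 + 6 * a ^ 2 * l ^ 5 * m + 15 * a * b * l ^ 4 * m ^ 2 + 20 * b ^ 2 * l ^ 3 * m ^ 3
    + 15 * a ^ 2 * b * l ^ 2 * m ^ 4 + 6 * (3 * a ^ 4 - 2 * a * b ^ 2) * l * m ^ 5
    + (9 * a ^ 3 * b - 8 * b ^ 3) * m ^ 6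

/-- The cusp form of the pencil; its roots at `m = 1` are a third of the 3-torsion abscissae. -/
def dL (l m a b : R) : R :=
  l ^ 4 - 6 * a * l ^ 2 * m ^ 2 - 8 * b * l * m ^ 3 - 3 * a ^ 2 * m ^ 4

/-- The map induced on a third of the 3-torsion abscissae by the pencil. -/
def xMove (l m a b r : R) : R :=
  r * l ^ 2 + (r ^ 2 - 3 * a) * l * m + (r ^ 3 - 6 * a * r - 6 * b) * m ^ 2

/-- The factor by which the pencil multiplies the 3-torsion ordinates. -/
def yMove (l m a b r : R) : R :=
  l ^ 3 + r * l ^ 2 * m + (r ^ 2 - 6 * a) * l * m ^ 2 + (r ^ 3 - 6 * a * r - 8 * b) * m ^ 3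

theorem cube_sub_sq_pencil (l m a b : R) :
    c4L l m a b ^ 3 - c6L l m a b ^ 2 = (a ^ 3 - b ^ 2) * dL l m a b ^ 3 := by
  simp only [c4L, c6L, dL]; ring

theorem cube_sub_sq_hesse (x y : R) : c4U x y ^ 3 - c6U x y ^ 2 = 64 * dU x y ^ 3 := by
  simp only [c4U, c6U, dU]; ring

theorem c4L_hesse (l m x y : R) :
    c4L l m (c4U x y) (c6U x y) = c4U (moveX l m x y) (moveY l m x y) := by
  simp only [c4L, c4U, c6U, moveX, moveY]; ring

theorem c6L_hesse (l m x y : R) :
    c6L l m (c4U x y) (c6U x y) = c6U (moveX l m x y) (moveY l m x y) := by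
  simp only [c6L, c4U, c6U, moveX, moveY]; ring

theorem dU_move (l m x y : R) :
    dU (moveX l m x y) (moveY l m x y) = dU x y * dL l m (c4U x y) (c6U x y) := by
  simp only [dL, dU, c4U, c6U, moveX, moveY]; ring

theorem map_c4L {S : Type*} [CommRing S] (f : R →+* S) (l m a b : R) :
    f (c4L l m a b) = c4L (f l) (f m) (f a) (f b) := by
  simp [c4L, map_ofNat]

theorem map_c6L {S : Type*} [CommRing S] (f : R →+* S) (l m a b : R) :
    f (c6L l m a b) = c6L (f l) (f m) (f a) (f b) := by
  simp [c6L, map_ofNat]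

theorem map_dL {S : Type*} [CommRing S] (f : R →+* S) (l m a b : R) :
    f (dL l m a b) = dL (f l) (f m) (f a) (f b) := by
  simp [dL, map_ofNat]

theorem map_xMove {S : Type*} [CommRing S] (f : R →+* S) (l m a b r : R) :
    f (xMove l m a b r) = xMove (f l) (f m) (f a) (f b) (f r) := by
  simp [xMove, map_ofNat]

theorem map_yMove {S : Type*} [CommRing S] (f : R →+* S) (l m a b r : R) :
    f (yMove l m a b r) = yMove (f l) (f m) (f a) (f b) (f r) := by
  simp [yMove, map_ofNat]

end Ring

section Field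

variable {k : Type*} [Field k] (h2 : (2 : k) ≠ 0) (h3 : (3 : k) ≠ 0)

theorem dU_ne_zero_of_invariants {x y : k} (h : c4U x y ^ 3 ≠ c6U x y ^ 2) : dU x y ≠ 0 := by
  intro hd
  apply h
  rw [← sub_eq_zero, cube_sub_sq_hesse, hd]
  ring

include h2 h3 in
/-- Over an algebraically closed field every nondegenerate pair of invariants comes from a Hesse
parameter. -/
theorem exists_hesse_param [IsAlgClosed k] {a b : k} (hab : a ^ 3 ≠ b ^ 2) :
    ∃ x y : k, c4U x y = a ∧ c6U x y = b := by
  obtain ⟨r, hr0, hr⟩ : ∃ r : k, r ≠ 0 ∧ dL r 1 a b = 0 := by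
    have h8 : (8 : k) ≠ 0 := by
      have : (8 : k) = 2 ^ 3 := by norm_num
      rw [this]; exact pow_ne_zero 3 h2
    rcases eq_or_ne a 0 with rfl | ha
    · have hb : b ≠ 0 := fun hb => hab (by rw [hb]; ring)
      obtain ⟨r, hr⟩ := IsAlgClosed.exists_pow_nat_eq (8 * b) (show 0 < 3 by norm_num)
      refine ⟨r, fun h => ?_, ?_⟩
      · rw [h, zero_pow (by norm_num)] at hr
        exact mul_ne_zero h8 hb hr.symm
      · simp only [dL]
        linear_combination r * hr
    · obtain ⟨r, hr⟩ := IsAlgClosed.exists_root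
        (X ^ 4 + C (-6 * a) * X ^ 2 + C (-8 * b) * X + C (-3 * a ^ 2) : k[X])
        (by
          rw [show (X ^ 4 + C (-6 * a) * X ^ 2 + C (-8 * b) * X + C (-3 * a ^ 2) : k[X]).degree = 4
            by compute_degree!]
          norm_num)
      simp only [IsRoot, eval_add, eval_mul, eval_pow, eval_X, eval_C] at hr
      refine ⟨r, fun h => ?_, ?_⟩
      · subst h
        refine mul_ne_zero h3 (pow_ne_zero 2 ha) ?_
        linear_combination -hr
      · simp only [dL]
        linear_combination hr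
  obtain ⟨x, hx⟩ := IsAlgClosed.exists_pow_nat_eq (-r / 3) (show 0 < 2 by norm_num)
  have hx' : r = -3 * x ^ 2 := by rw [hx]; field_simp
  have hx0 : x ≠ 0 := fun h => hr0 (by rw [hx', h]; ring)
  have h8 : (8 : k) * x ≠ 0 := by
    refine mul_ne_zero ?_ hx0
    rw [show (8 : k) = 2 ^ 3 by norm_num]; exact pow_ne_zero 3 h2
  obtain ⟨y, hy⟩ := IsAlgClosed.exists_pow_nat_eq ((a - x ^ 4) / (8 * x)) (show 0 < 3 by norm_num)
  have h4 : c4U x y = a := by
    rw [eq_div_iff h8] at hy
    simp only [c4U]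
    linear_combination hy
  refine ⟨x, y, h4, ?_⟩
  have h6 : dL (-3 * x ^ 2) 1 (c4U x y) (c6U x y) = 0 := by
    simp only [dL, c4U, c6U]; ring
  rw [← hx', h4] at h6
  have h24 : (8 : k) * r ≠ 0 := by
    refine mul_ne_zero ?_ hr0
    rw [show (8 : k) = 2 ^ 3 by norm_num]; exact pow_ne_zero 3 h2
  refine mul_left_cancel₀ h24 ?_
  simp only [dL] at h6 hr
  linear_combination hr - h6

include h2 in
/-- `u` and `cov u` form a basis, so every point is `l • u + m • cov u`. -/
theorem exists_move_eq {x y : k} (hu : dU x y ≠ 0) (x' y' : k) :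
    ∃ l m : k, moveX l m x y = x' ∧ moveY l m x y = y' := by
  have hd : 4 * dU x y ≠ 0 := by
    refine mul_ne_zero ?_ hu
    rw [show (4 : k) = 2 ^ 2 by norm_num]; exact pow_ne_zero 2 h2
  refine ⟨(3 * x ^ 2 * y * x' + (x ^ 3 - 4 * y ^ 3) * y') / (4 * dU x y),
    (x * y' - y * x') / (4 * dU x y), ?_, ?_⟩
  · refine mul_left_cancel₀ hd ?_
    simp only [moveX, mul_sub, ← mul_assoc, mul_div_cancel₀ _ hd]
    simp only [dU]; ring
  · refine mul_left_cancel₀ hd ?_
    simp only [moveY, mul_add, ← mul_assoc]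
    rw [mul_div_cancel₀ _ hd, show ∀ q : k, 4 * dU x y * 3 * q = 3 * (4 * dU x y * q) from
      fun q => by ring, mul_div_cancel₀ _ hd]
    simp only [dU]; ring

include h2 in
theorem eq_zero_of_move_eq_zero {l m x y : k} (hu : dU x y ≠ 0) (hx : moveX l m x y = 0)
    (hy : moveY l m x y = 0) : l = 0 ∧ m = 0 := by
  have hd : 4 * dU x y ≠ 0 := by
    refine mul_ne_zero ?_ hu
    rw [show (4 : k) = 2 ^ 2 by norm_num]; exact pow_ne_zero 2 h2
  simp only [moveX, moveY] at hx hy
  have e1 : 4 * dU x y * m = 0 := by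
    simp only [dU]; linear_combination x * hy - y * hx
  have e2 : 4 * dU x y * l = 0 := by
    simp only [dU]; linear_combination 3 * x ^ 2 * y * hx + (x ^ 3 - 4 * y ^ 3) * hy
  exact ⟨(mul_eq_zero.1 e2).resolve_left hd, (mul_eq_zero.1 e1).resolve_left hd⟩

include h2 h3 in
/-- The cusps of the pencil are not base points: `dL` and `c4L` have no common zero. -/
theorem not_dL_c4L_eq_zero [IsAlgClosed k] {a b : k} (hab : a ^ 3 ≠ b ^ 2) {l m : k}
    (hlm : ¬ (l = 0 ∧ m = 0)) : ¬ (dL l m a b = 0 ∧ c4L l m a b = 0) := by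
  obtain ⟨x, y, rfl, rfl⟩ := exists_hesse_param h2 h3 hab
  rintro ⟨hd, hc⟩
  have hu := dU_ne_zero_of_invariants hab
  rw [c4L_hesse] at hc
  have hd' : dU (moveX l m x y) (moveY l m x y) = 0 := by rw [dU_move, hd, mul_zero]
  refine hlm (eq_zero_of_move_eq_zero h2 hu ?_ ?_) <;>
    generalize moveX l m x y = p at * <;> generalize moveY l m x y = q at *
  all_goals
    simp only [c4U, dU, mul_eq_zero] at hc hd'
  · rcases hd' with hq | hq
    · rcases hc with hp | hp
      · exact hp
      · exact (pow_eq_zero_iff three_ne_zero).1 (by linear_combination hp - 8 * q ^ 2 * hq)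
    · rcases hc with hp | hp
      · exact hp
      · refine (pow_eq_zero_iff three_ne_zero).1 ?_
        have : 9 * p ^ 3 = 0 := by linear_combination hp + 8 * hq
        exact (mul_eq_zero.1 this).resolve_left (by
          rw [show (9 : k) = 3 ^ 2 by norm_num]; exact pow_ne_zero 2 h3)
  · rcases hd' with hq | hq
    · exact hq
    · rcases hc with hp | hp
      · exact (pow_eq_zero_iff three_ne_zero).1 (by linear_combination p ^ 2 * hp - hq)
      · refine (pow_eq_zero_iff three_ne_zero).1 ?_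
        have : 9 * q ^ 3 = 0 := by linear_combination hp - hq
        exact (mul_eq_zero.1 this).resolve_left (by
          rw [show (9 : k) = 3 ^ 2 by norm_num]; exact pow_ne_zero 2 h3)

/-- Rational inverse of the degree 3 parametrisation of the roots of the 2-division cubic. -/
theorem division_cubic_inverse (e A : k) :
    (12 * e * A - 6) ^ 3 - 27 * c4U 1 e * (12 * e * A - 6) - 54 * c6U 1 e =
      -108 * e * ((4 * e ^ 2 * A + e) ^ 2
        + e * (4 * e ^ 2 * A + e) * (4 * e * (A + e ^ 2) - 3)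
        - A * (4 * e * (A + e ^ 2) - 3) ^ 2) := by
  simp only [c4U, c6U]; ring

include h2 h3 in
/-- A root of the 2-division cubic at `(1 : e)` forces `e` into the image of the parametrisation. -/
theorem exists_param_of_root {e X₀ : k} (he : e ≠ 0) (he3 : e ^ 3 ≠ 1)
    (h : X₀ ^ 3 - 27 * c4U 1 e * X₀ - 54 * c6U 1 e = 0) :
    ∃ S : k, 4 * e * S ^ 3 - 3 * S - e = 0 := by
  have h4 : (4 : k) ≠ 0 := by
    rw [show (4 : k) = 2 ^ 2 by norm_num]; exact pow_ne_zero 2 h2
  have h12 : (12 : k) * e ≠ 0 := by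
    refine mul_ne_zero ?_ he
    rw [show (12 : k) = 2 ^ 2 * 3 by norm_num]; exact mul_ne_zero (pow_ne_zero 2 h2) h3
  set A := (X₀ + 6) / (12 * e)
  have hA : 12 * e * A - 6 = X₀ := by
    simp only [A]; rw [mul_div_cancel₀ _ h12]; ring
  set den := 4 * e * (A + e ^ 2) - 3 with hden
  set num := 4 * e ^ 2 * A + e with hnum
  have hE : num ^ 2 + e * num * den - A * den ^ 2 = 0 := by
    have := division_cubic_inverse e A
    rw [hA, h] at this
    refine (mul_eq_zero.1 this.symm).resolve_left (mul_ne_zero ?_ he)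
    rw [neg_ne_zero, show (108 : k) = 2 ^ 2 * 3 ^ 3 by norm_num]
    exact mul_ne_zero (pow_ne_zero 2 h2) (pow_ne_zero 3 h3)
  have hd : den ≠ 0 := by
    intro hd0
    have hn0 : num = 0 := by
      refine (pow_eq_zero_iff two_ne_zero).1 ?_
      rw [hd0] at hE; linear_combination hE
    apply he3
    rw [hden] at hd0
    rw [hnum] at hn0
    refine mul_left_cancel₀ (mul_ne_zero h4 he) ?_
    linear_combination e * hd0 - hn0
  refine ⟨num / den, ?_⟩
  clear_value num den
  field_simp
  linear_combination (4 * e * num - 4 * e ^ 2 * den) * hE - den ^ 2 * num * hden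
    + den ^ 3 * hnum

include h2 h3 in
/-- Over a finite field some member of the pencil has irreducible 2-division cubic. -/
theorem exists_no_root_param [Fintype k] :
    ∃ e : k, e ≠ 0 ∧ e ^ 3 ≠ 1 ∧ ∀ X₀ : k, X₀ ^ 3 - 27 * c4U 1 e * X₀ - 54 * c6U 1 e ≠ 0 := by
  classical
  set Z : Finset k := Finset.univ.filter (fun e => e ^ 3 = 1) with hZ
  set f : k → k := fun S => 3 * S / (4 * S ^ 3 - 1) with hf
  set B : Finset k := insert 0 (Z ∪ Z.image (fun z => -z / 2)) with hB
  set P : Finset k := Finset.univ \ B with hP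
  set T : Finset k := Finset.univ \ insert 0 Z with hT
  have hZ0 : ∀ z ∈ Z, z ≠ 0 := fun z hz h0 => by
    simp [hZ, h0] at hz
  have hdisj : Disjoint Z (Z.image (fun z => -z / 2)) := by
    rw [Finset.disjoint_left]
    intro z hz hz'
    obtain ⟨w, hw, rfl⟩ := Finset.mem_image.1 hz'
    simp only [hZ, Finset.mem_filter, Finset.mem_univ, true_and] at hz hw
    have h9 : (3 : k) * 3 = 0 := by
      field_simp at hz
      linear_combination -hz - hw
    simp [h3] at h9
  have hBcard : B.card = 1 + 2 * Z.card := by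
    rw [hB, Finset.card_insert_of_notMem, Finset.card_union_of_disjoint hdisj,
      Finset.card_image_of_injective]
    · ring
    · intro u v huv
      simpa [h2] using huv
    · simp only [Finset.mem_union, Finset.mem_image, not_or, not_exists, not_and]
      exact ⟨fun h => hZ0 0 h rfl, fun z hz h => hZ0 z hz (by simpa [h2] using h)⟩
  have hlt : (P.image f).card < T.card := by
    refine lt_of_le_of_lt Finset.card_image_le ?_
    rw [hP, hT, Finset.card_univ_sdiff, Finset.card_univ_sdiff, hBcard,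
      Finset.card_insert_of_notMem (fun h => hZ0 0 h rfl)]
    have h1 : 1 ≤ Z.card := Finset.card_pos.2 ⟨1, by simp [hZ]⟩
    have h2' : B.card ≤ Fintype.card k := Finset.card_le_univ B
    omega
  obtain ⟨e, heT, heP⟩ := Finset.not_subset.1 fun hsub => (Finset.card_le_card hsub).not_gt hlt
  simp only [hT, hZ, Finset.mem_sdiff, Finset.mem_univ, true_and, Finset.mem_insert,
    Finset.mem_filter, not_or] at heT
  refine ⟨e, heT.1, heT.2, fun X₀ hX => ?_⟩
  obtain ⟨S, hS⟩ := exists_param_of_root h2 h3 heT.1 heT.2 hX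
  have hS0 : S ≠ 0 := fun h0 => heT.1 (by rw [h0] at hS; linear_combination -hS)
  have hden : 4 * S ^ 3 - 1 ≠ 0 := fun h0 => mul_ne_zero h3 hS0 (by linear_combination e * h0 - hS)
  have he : f S = e := by
    simp only [hf]; rw [div_eq_iff hden]; linear_combination -hS
  refine heP (Finset.mem_image.2 ⟨S, ?_, he⟩)
  simp only [hP, hB, hZ, Finset.mem_sdiff, Finset.mem_univ, true_and, Finset.mem_insert,
    Finset.mem_union, Finset.mem_filter, Finset.mem_image, not_or, not_exists, not_and]
  refine ⟨hS0, fun hS1 => heT.2 ?_, fun z hz hzS => heT.2 ?_⟩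
  · have : e = S := mul_left_cancel₀ h3 (by linear_combination hS - 4 * e * hS1)
    rw [this, hS1]
  · subst hzS
    have : e = z := by
      refine mul_left_cancel₀ h3 ?_
      field_simp at hS
      grobner
    rw [this, hz]

end Field

end Fermat.Agent.SwitchThree
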