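import Mathlib
import Fermat.Prelude.Def_FLTPrelim_GaloisRep
import Fermat.Agent.EC.Torsion.Main
import Fermat.Agent.SwitchThree.Hesse

/-!
# The 3-torsion along the Hesse pencil

An explicit formula on points, with coefficients in the base field, restricts to an isomorphism of
3-torsion between `y² = x³ - 27 a x - 54 b` and the members of its pencil.

Main result: `exists_equiv_pencil`.
-/

set_option autoImplicit false

open Polynomial
open scoped WeierstrassCurve.Affine

namespace Fermat.Agent.SwitchThree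

open WeierstrassCurve.Affine (Point)

/-- The short Weierstrass curve with invariants `(a, b)`. -/
def hesseE {K : Type*} [Field K] (a b : K) : WeierstrassCurve.Affine K :=
  ⟨0, 0, 0, -27 * a, -54 * b⟩

variable {K k : Type*} [Field K] [Field k] [Algebra K k]

local notation "κ" => algebraMap K k

section Basic

variable (a b : K)

theorem hesseE_Δ : (hesseE a b).Δ = 1259712 * (a ^ 3 - b ^ 2) := by
  simp only [hesseE, WeierstrassCurve.Δ, WeierstrassCurve.b₂, WeierstrassCurve.b₄,
    WeierstrassCurve.b₆, WeierstrassCurve.b₈]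
  ring

theorem hesseE_isElliptic [CharZero K] (hab : a ^ 3 ≠ b ^ 2) : (hesseE a b).IsElliptic := by
  rw [WeierstrassCurve.isElliptic_iff, hesseE_Δ, isUnit_iff_ne_zero]
  exact mul_ne_zero (by norm_num) (sub_ne_zero.2 hab)

theorem hesseE_baseChange : (hesseE a b)⁄k = hesseE (κ a) (κ b) := by
  apply WeierstrassCurve.ext <;>
    simp [hesseE, WeierstrassCurve.baseChange, map_ofNat]

theorem hesseE_equation (x y : k) :
    ((hesseE a b)⁄k).Equation x y ↔ y ^ 2 = x ^ 3 - 27 * κ a * x - 54 * κ b := by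
  rw [hesseE_baseChange, WeierstrassCurve.Affine.equation_iff]
  simp only [hesseE]
  ring_nf

theorem hesseE_negY (x y : k) : ((hesseE a b)⁄k).negY x y = -y := by
  rw [hesseE_baseChange]
  simp [hesseE, WeierstrassCurve.Affine.negY]

open scoped Classical in
/-- The point with the given coordinates, or `0` if they are not on the curve. -/
noncomputable def ptE (x y : k) : ((hesseE a b)⁄k).Point :=
  if h : ((hesseE a b)⁄k).Nonsingular x y then Point.some x y h else 0

theorem ptE_some {x y : k} (h : ((hesseE a b)⁄k).Nonsingular x y) :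
    ptE a b x y = Point.some x y h := dif_pos h

variable [CharZero K]

theorem hesseE_nonsingular (hab : a ^ 3 ≠ b ^ 2) {x y : k}
    (h : y ^ 2 = x ^ 3 - 27 * κ a * x - 54 * κ b) : ((hesseE a b)⁄k).Nonsingular x y := by
  have := hesseE_isElliptic a b hab
  have : ((hesseE a b)⁄k).IsElliptic :=
    inferInstanceAs (((hesseE a b).map κ).IsElliptic)
  exact WeierstrassCurve.Affine.equation_iff_nonsingular.mp ((hesseE_equation a b x y).2 h)

theorem ptE_neg (hab : a ^ 3 ≠ b ^ 2) {x y : k}
    (h : y ^ 2 = x ^ 3 - 27 * κ a * x - 54 * κ b) : ptE a b x (-y) = -ptE a b x y := by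
  rw [ptE_some a b (hesseE_nonsingular a b hab (by rw [neg_sq, h])),
    ptE_some a b (hesseE_nonsingular a b hab h), Point.neg_some]
  simp only [hesseE_negY]

end Basic

section Points

/-- Abscissa of the basic point attached to a cube root of unity `z`. -/
def cornerX (z x y : k) : k := 3 * (x + 2 * z * y) ^ 2

/-- Ordinate of the basic point attached to a cube root of unity `z`. -/
def cornerY (z x y : k) : k := 36 * z * y * (x ^ 2 + z * x * y + z ^ 2 * y ^ 2)

theorem corner_curve {z : k} (hz : z ^ 3 = 1) (x y : k) :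
    cornerY z x y ^ 2 =
      cornerX z x y ^ 3 - 27 * c4U x y * cornerX z x y - 54 * c6U x y := by
  simp only [cornerX, cornerY, c4U, c6U]
  grobner

theorem corner_psi {z : k} (hz : z ^ 3 = 1) (x y : k) :
    dL ((x + 2 * z * y) ^ 2) 1 (c4U x y) (c6U x y) = 0 := by
  simp only [dL, c4U, c6U]
  grobner

theorem third_curve {w : k} (hw : w ^ 2 + w + 1 = 0) (x y : k) :
    (12 * (1 + 2 * w) * (x ^ 3 - y ^ 3)) ^ 2 =
      (-9 * x ^ 2) ^ 3 - 27 * c4U x y * (-9 * x ^ 2) - 54 * c6U x y := by
  simp only [c4U, c6U]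
  linear_combination 576 * (x ^ 3 - y ^ 3) ^ 2 * hw

theorem corner_move {z : k} (hz : z ^ 3 = 1) (l m x y : k) :
    3 * xMove l m (c4U x y) (c6U x y) ((x + 2 * z * y) ^ 2) =
        cornerX z (moveX l m x y) (moveY l m x y) ∧
      cornerY z x y * yMove l m (c4U x y) (c6U x y) ((x + 2 * z * y) ^ 2) =
        cornerY z (moveX l m x y) (moveY l m x y) := by
  simp only [cornerX, cornerY, xMove, yMove, moveX, moveY, c4U, c6U]
  constructor <;> grobner

theorem third_move (w l m x y : k) :
    3 * xMove l m (c4U x y) (c6U x y) (-3 * x ^ 2) = -9 * moveX l m x y ^ 2 ∧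
      12 * (1 + 2 * w) * (x ^ 3 - y ^ 3) * yMove l m (c4U x y) (c6U x y) (-3 * x ^ 2) =
        12 * (1 + 2 * w) * (moveX l m x y ^ 3 - moveY l m x y ^ 3) := by
  simp only [xMove, yMove, moveX, moveY, c4U, c6U]
  constructor <;> ring

end Points

section Basis

variable [CharZero K] [CharZero k] [DecidableEq k]
  {a b : K} (hab : a ^ 3 ≠ b ^ 2) {w x y : k} (hw : w ^ 2 + w + 1 = 0)
  (ha : c4U x y = algebraMap K k a) (hb : c6U x y = algebraMap K k b)

variable (a b w x y) in
/-- The nine 3-torsion points, `(i, j) ↦ i P₀ + j P₁`. -/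
noncomputable def nine : ZMod 3 × ZMod 3 → ((hesseE a b)⁄k).Point
  | (0, 0) => 0
  | (1, 0) => ptE a b (cornerX 1 x y) (cornerY 1 x y)
  | (2, 0) => -ptE a b (cornerX 1 x y) (cornerY 1 x y)
  | (0, 1) => ptE a b (cornerX w x y) (cornerY w x y)
  | (0, 2) => -ptE a b (cornerX w x y) (cornerY w x y)
  | (2, 2) => ptE a b (cornerX (w ^ 2) x y) (cornerY (w ^ 2) x y)
  | (1, 1) => -ptE a b (cornerX (w ^ 2) x y) (cornerY (w ^ 2) x y)
  | (1, 2) => ptE a b (-9 * x ^ 2) (12 * (1 + 2 * w) * (x ^ 3 - y ^ 3))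
  | (2, 1) => -ptE a b (-9 * x ^ 2) (12 * (1 + 2 * w) * (x ^ 3 - y ^ 3))

include hab ha hb

omit [CharZero K] [CharZero k] [DecidableEq k] in
theorem hesse_dU_ne_zero : dU x y ≠ 0 := by
  refine dU_ne_zero_of_invariants ?_
  rw [ha, hb, ← map_pow, ← map_pow]
  exact fun e => hab ((algebraMap K k).injective e)

omit [CharZero k] [DecidableEq k] in
theorem nonsingular_corner {z : k} (hz : z ^ 3 = 1) :
    ((hesseE a b)⁄k).Nonsingular (cornerX z x y) (cornerY z x y) := by
  refine hesseE_nonsingular a b hab ?_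
  rw [← ha, ← hb]; exact corner_curve hz x y

omit [CharZero k] [DecidableEq k] in
include hw in
theorem nonsingular_third :
    ((hesseE a b)⁄k).Nonsingular (-9 * x ^ 2) (12 * (1 + 2 * w) * (x ^ 3 - y ^ 3)) := by
  refine hesseE_nonsingular a b hab ?_
  rw [← ha, ← hb]; exact third_curve hw x y

omit [CharZero k] in
theorem three_nsmul_corner {z : k} (hz : z ^ 3 = 1) :
    3 • ptE a b (cornerX z x y) (cornerY z x y) = 0 := by
  have := hesseE_isElliptic a b hab
  have : ((hesseE a b)⁄k).IsElliptic :=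
    inferInstanceAs (((hesseE a b).map κ).IsElliptic)
  rw [ptE_some a b (nonsingular_corner hab ha hb hz),
    EC.Torsion.nsmul_some_eq_zero_iff_of_odd (by decide), WeierstrassCurve.preΨ'_three,
    hesseE_baseChange, ← ha, ← hb]
  simp only [hesseE, WeierstrassCurve.Ψ₃, eval_add, eval_mul, eval_pow, eval_C, eval_X,
    eval_ofNat, WeierstrassCurve.b₂, WeierstrassCurve.b₄, WeierstrassCurve.b₆,
    WeierstrassCurve.b₈]
  have := corner_psi hz x y
  simp only [dL, cornerX] at this ⊢
  linear_combination 243 * this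

include hw

omit [CharZero K] [DecidableEq k] in
theorem cornerX_ne : cornerX 1 x y ≠ cornerX w x y := by
  have hu := hesse_dU_ne_zero hab ha hb
  simp only [dU, mul_ne_zero_iff] at hu
  intro he
  simp only [cornerX] at he
  have h' : (12 : k) * y * (1 - w) * (x - w ^ 2 * y) = 0 := by grobner
  simp only [mul_eq_zero] at h'
  rcases h' with ((h12 | hy) | h1) | hx
  · norm_num at h12
  · exact hu.1 hy
  · exact absurd (show (3 : k) = 0 by linear_combination hw + (w + 2) * h1) (by norm_num)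
  · refine hu.2 ?_
    grobner

theorem corner_add_corner :
    ptE a b (cornerX 1 x y) (cornerY 1 x y) + ptE a b (cornerX w x y) (cornerY w x y) =
      -ptE a b (cornerX (w ^ 2) x y) (cornerY (w ^ 2) x y) := by
  have hw3 : w ^ 3 = 1 := by linear_combination (w - 1) * hw
  have n1 := nonsingular_corner hab ha hb (one_pow 3 : (1 : k) ^ 3 = 1)
  have nw := nonsingular_corner hab ha hb hw3
  have n2 := nonsingular_corner hab ha hb (show (w ^ 2) ^ 3 = 1 by
    linear_combination (w ^ 3 + 1) * hw3)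
  have hne := cornerX_ne hab hw ha hb
  rw [ptE_some a b n1, ptE_some a b nw, ptE_some a b n2, Point.add_of_X_ne hne, Point.neg_some,
    Point.some.injEq]
  have hs : ((hesseE a b)⁄k).slope (cornerX 1 x y) (cornerX w x y) (cornerY 1 x y) (cornerY w x y)
      = 3 * x := by
    rw [WeierstrassCurve.Affine.slope_of_X_ne hne, div_eq_iff (sub_ne_zero.2 hne)]
    simp only [cornerX, cornerY]
    grobner
  rw [hs, hesseE_baseChange]
  simp only [WeierstrassCurve.Affine.addX, WeierstrassCurve.Affine.addY,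
    WeierstrassCurve.Affine.negAddY, WeierstrassCurve.Affine.negY, hesseE, cornerX, cornerY]
  constructor <;> grobner

theorem corner_sub_corner :
    ptE a b (cornerX 1 x y) (cornerY 1 x y) - ptE a b (cornerX w x y) (cornerY w x y) =
      ptE a b (-9 * x ^ 2) (12 * (1 + 2 * w) * (x ^ 3 - y ^ 3)) := by
  have hw3 : w ^ 3 = 1 := by linear_combination (w - 1) * hw
  have n1 := nonsingular_corner hab ha hb (one_pow 3 : (1 : k) ^ 3 = 1)
  have nw := nonsingular_corner hab ha hb hw3
  have n3 := nonsingular_third hab hw ha hb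
  have hne := cornerX_ne hab hw ha hb
  rw [ptE_some a b n1, ptE_some a b nw, ptE_some a b n3, sub_eq_add_neg, Point.neg_some,
    Point.add_of_X_ne hne, Point.some.injEq]
  have h1w : 1 - w ≠ 0 := fun h0 =>
    absurd (show (3 : k) = 0 by linear_combination hw + (w + 2) * h0) (by norm_num)
  have hs : (1 - w) * ((hesseE a b)⁄k).slope (cornerX 1 x y) (cornerX w x y) (cornerY 1 x y)
      (-cornerY w x y) = -3 * w * (w * x + 2 * y) := by
    rw [WeierstrassCurve.Affine.slope_of_X_ne hne, mul_div_assoc',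
      div_eq_iff (sub_ne_zero.2 hne)]
    simp only [cornerX, cornerY]
    grobner
  simp only [hesseE_negY]
  generalize ((hesseE a b)⁄k).slope (cornerX 1 x y) (cornerX w x y) (cornerY 1 x y)
      (-cornerY w x y) = sl at hs ⊢
  have hsl : sl = (2 + w) * (-w * (w * x + 2 * y)) := by
    refine mul_left_cancel₀ h1w ?_
    linear_combination hs - w * (w * x + 2 * y) * hw
  rw [hesseE_baseChange]
  simp only [WeierstrassCurve.Affine.addX, WeierstrassCurve.Affine.addY,
    WeierstrassCurve.Affine.negAddY, WeierstrassCurve.Affine.negY, hesseE, cornerX, cornerY, hsl]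
  constructor <;> grobner

omit hw in
/-- The nine points form a subgroup isomorphic to `(ℤ/3)²`. -/
theorem exists_nineHom (hw : w ^ 2 + w + 1 = 0) :
    ∃ ψ : ZMod 3 × ZMod 3 →+ ((hesseE a b)⁄k).Point,
      Function.Injective ψ ∧ ⇑ψ = nine a b w x y := by
  have hw3 : w ^ 3 = 1 := by linear_combination (w - 1) * hw
  set P := ptE a b (cornerX 1 x y) (cornerY 1 x y) with hP
  set Q := ptE a b (cornerX w x y) (cornerY w x y) with hQ
  have hP3 : 3 • P = 0 := three_nsmul_corner hab ha hb (one_pow 3)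
  have hQ3 : 3 • Q = 0 := three_nsmul_corner hab ha hb hw3
  let ψ : ZMod 3 × ZMod 3 →+ ((hesseE a b)⁄k).Point :=
    (ZMod.lift 3 ⟨zmultiplesHom _ P, (natCast_zsmul P 3).trans hP3⟩).coprod
      (ZMod.lift 3 ⟨zmultiplesHom _ Q, (natCast_zsmul Q 3).trans hQ3⟩)
  have hψ : ∀ i j : ℤ, ψ (i, j) = i • P + j • Q := fun i j => by
    simp [ψ, AddMonoidHom.coprod_apply]
  have h10 : ψ (1, 0) = P := by simpa using hψ 1 0
  have h01 : ψ (0, 1) = Q := by simpa using hψ 0 1
  have hs := corner_add_corner hab hw ha hb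
  have hd := corner_sub_corner hab hw ha hb
  rw [← hP, ← hQ] at hs hd
  have h11 : ψ (1, 1) = -ptE a b (cornerX (w ^ 2) x y) (cornerY (w ^ 2) x y) := by
    rw [← hs, ← h10, ← h01, ← map_add]; rfl
  have h12 : ψ (1, 2) = ptE a b (-9 * x ^ 2) (12 * (1 + 2 * w) * (x ^ 3 - y ^ 3)) := by
    rw [← hd, ← h10, ← h01, ← map_sub]; congr 1
  have hneg : ∀ z z' : ZMod 3 × ZMod 3, z = -z' → ψ z = -ψ z' := fun z z' h => by
    rw [h, map_neg]
  have heq : ⇑ψ = nine a b w x y := by
    funext z
    obtain ⟨i, j⟩ := z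
    fin_cases i <;> fin_cases j
    · exact map_zero ψ
    · exact h01
    · exact (hneg (0, 2) (0, 1) (by decide)).trans (congrArg Neg.neg h01)
    · exact h10
    · exact h11
    · exact h12
    · exact (hneg (2, 0) (1, 0) (by decide)).trans (congrArg Neg.neg h10)
    · exact (hneg (2, 1) (1, 2) (by decide)).trans (congrArg Neg.neg h12)
    · exact (hneg (2, 2) (1, 1) (by decide)).trans ((congrArg Neg.neg h11).trans (neg_neg _))
  refine ⟨ψ, (injective_iff_map_eq_zero ψ).2 fun z hz => ?_, heq⟩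
  rw [heq] at hz
  have e1 := ptE_some a b (nonsingular_corner hab ha hb (one_pow 3 : (1 : k) ^ 3 = 1))
  have e2 := ptE_some a b (nonsingular_corner hab ha hb hw3)
  have e3 := ptE_some a b (nonsingular_corner hab ha hb (show (w ^ 2) ^ 3 = 1 by
    linear_combination (w ^ 3 + 1) * hw3))
  have e4 := ptE_some a b (nonsingular_third hab hw ha hb)
  obtain ⟨i, j⟩ := z
  fin_cases i <;> fin_cases j <;> first
    | rfl
    | (exfalso
       simp only [nine, e1, e2, e3, e4, neg_eq_zero] at hz
       exact Point.some_ne_zero _ hz)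

end Basis

section Transport

variable (l m a b : K)

/-- The formula on points inducing the isomorphism of 3-torsion. -/
noncomputable def pencilMap :
    ((hesseE a b)⁄k).Point → ((hesseE (c4L l m a b) (c6L l m a b))⁄k).Point
  | .zero => 0
  | .some x y _ => ptE _ _ (3 * xMove (κ l) (κ m) (κ a) (κ b) (x / 3))
      (y * yMove (κ l) (κ m) (κ a) (κ b) (x / 3))

variable [CharZero K] [CharZero k] [DecidableEq k]

omit [CharZero K] [CharZero k] in
theorem pencilMap_smul (σ : k ≃ₐ[K] k) (P : ((hesseE a b)⁄k).Point) :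
    pencilMap l m a b (σ • P) = σ • pencilMap l m a b P := by
  match P with
  | .zero => rfl
  | .some x y h =>
    simp only [Point.algEquiv_smul_def, Point.map_some, pencilMap]
    have ex : ∀ r : k, σ (xMove (κ l) (κ m) (κ a) (κ b) r) =
        xMove (κ l) (κ m) (κ a) (κ b) (σ r) := fun r => by
      simpa using map_xMove (σ : k →+* k) (κ l) (κ m) (κ a) (κ b) r
    have ey : ∀ r : k, σ (yMove (κ l) (κ m) (κ a) (κ b) r) =
        yMove (κ l) (κ m) (κ a) (κ b) (σ r) := fun r => by
      simpa using map_yMove (σ : k →+* k) (κ l) (κ m) (κ a) (κ b) r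
    have e3 : σ x / 3 = σ (x / 3) := by rw [map_div₀, map_ofNat]
    generalize hX : 3 * xMove (κ l) (κ m) (κ a) (κ b) (x / 3) = X
    generalize hY : y * yMove (κ l) (κ m) (κ a) (κ b) (x / 3) = Y
    simp only [AlgEquiv.coe_toAlgHom]
    rw [e3, ← ex, ← ey]
    rw [show (3 : k) * σ (xMove (κ l) (κ m) (κ a) (κ b) (x / 3)) = σ X by
      rw [← hX, map_mul, map_ofNat], ← map_mul, hY]
    have hiff := ((hesseE (c4L l m a b) (c6L l m a b))).baseChange_nonsingular
      (f := (σ : k →ₐ[K] k)) σ.injective X Y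
    by_cases hn : ((hesseE (c4L l m a b) (c6L l m a b))⁄k).Nonsingular X Y
    · rw [ptE_some _ _ hn, Point.map_some]
      exact ptE_some _ _ (hiff.mpr hn)
    · simp only [ptE]
      rw [dif_neg hn, map_zero]
      exact dif_neg (fun h' => hn (hiff.mp h'))

/-- The members of the pencil have Galois-equivariantly isomorphic 3-torsion. -/
theorem exists_equiv_pencil [IsAlgClosed k] (hab : a ^ 3 ≠ b ^ 2) (hd : dL l m a b ≠ 0) :
    ∃ Φ : Submodule.torsionBy ℤ ((hesseE a b)⁄k).Point (3 : ℕ) ≃+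
        Submodule.torsionBy ℤ ((hesseE (c4L l m a b) (c6L l m a b))⁄k).Point (3 : ℕ),
      ∀ (σ : k ≃ₐ[K] k) (P : Submodule.torsionBy ℤ ((hesseE a b)⁄k).Point (3 : ℕ)),
        Φ (σ • P) = σ • Φ P := by
  have h2 : (2 : k) ≠ 0 := two_ne_zero
  have h3 : (3 : k) ≠ 0 := three_ne_zero
  have hab' : c4L l m a b ^ 3 ≠ c6L l m a b ^ 2 := by
    rw [← sub_ne_zero, cube_sub_sq_pencil]
    exact mul_ne_zero (sub_ne_zero.2 hab) (pow_ne_zero 3 hd)
  have := hesseE_isElliptic a b hab
  have : ((hesseE a b)⁄k).IsElliptic :=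
    inferInstanceAs (((hesseE a b).map κ).IsElliptic)
  have := hesseE_isElliptic _ _ hab'
  have : ((hesseE (c4L l m a b) (c6L l m a b))⁄k).IsElliptic :=
    inferInstanceAs (((hesseE (c4L l m a b) (c6L l m a b)).map κ).IsElliptic)
  obtain ⟨x, y, ha, hb⟩ := exists_hesse_param h2 h3 (a := κ a) (b := κ b)
    (fun e => hab ((algebraMap K k).injective (by simpa using e)))
  obtain ⟨w, hw⟩ : ∃ w : k, w ^ 2 + w + 1 = 0 := by
    obtain ⟨w, hw⟩ := IsAlgClosed.exists_root (C (1 : k) * X ^ 2 + C 1 * X + C 1)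
      (by rw [degree_quadratic one_ne_zero]; exact two_ne_zero)
    exact ⟨w, by simpa using hw⟩
  have hw3 : w ^ 3 = 1 := by linear_combination (w - 1) * hw
  set x' := moveX (κ l) (κ m) x y with hx'
  set y' := moveY (κ l) (κ m) x y with hy'
  have ha' : c4U x' y' = κ (c4L l m a b) := by rw [map_c4L, ← ha, ← hb, c4L_hesse]
  have hb' : c6U x' y' = κ (c6L l m a b) := by rw [map_c6L, ← ha, ← hb, c6L_hesse]
  obtain ⟨ψ, hψi, hψ⟩ := exists_nineHom hab ha hb hw
  obtain ⟨ψ', hψi', hψ'⟩ := exists_nineHom hab' ha' hb' hw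
  -- the formula carries the nine points to the nine points
  have hcorner : ∀ z : k, z ^ 3 = 1 →
      pencilMap l m a b (ptE a b (cornerX z x y) (cornerY z x y)) =
        ptE _ _ (cornerX z x' y') (cornerY z x' y') ∧
      pencilMap l m a b (-ptE a b (cornerX z x y) (cornerY z x y)) =
        -ptE _ _ (cornerX z x' y') (cornerY z x' y') := fun z hz => by
    obtain ⟨e1, e2⟩ := corner_move hz (κ l) (κ m) x y
    rw [ha, hb] at e1 e2
    have e0 : cornerX z x y / 3 = (x + 2 * z * y) ^ 2 := by simp [cornerX]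
    have hn := nonsingular_corner hab ha hb hz
    refine ⟨?_, ?_⟩
    · rw [ptE_some a b hn]
      simp only [pencilMap, e0, e1, e2]
      rfl
    · rw [ptE_some a b hn, Point.neg_some]
      simp only [pencilMap, hesseE_negY, e0, e1, neg_mul, e2]
      exact ptE_neg _ _ hab' (by rw [← ha', ← hb']; exact corner_curve hz _ _)
  have hthird :
      pencilMap l m a b (ptE a b (-9 * x ^ 2) (12 * (1 + 2 * w) * (x ^ 3 - y ^ 3))) =
        ptE _ _ (-9 * x' ^ 2) (12 * (1 + 2 * w) * (x' ^ 3 - y' ^ 3)) ∧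
      pencilMap l m a b (-ptE a b (-9 * x ^ 2) (12 * (1 + 2 * w) * (x ^ 3 - y ^ 3))) =
        -ptE _ _ (-9 * x' ^ 2) (12 * (1 + 2 * w) * (x' ^ 3 - y' ^ 3)) := by
    obtain ⟨e1, e2⟩ := third_move w (κ l) (κ m) x y
    rw [ha, hb] at e1 e2
    have e0 : -9 * x ^ 2 / 3 = -3 * x ^ 2 := by ring
    have hn := nonsingular_third hab hw ha hb
    refine ⟨?_, ?_⟩
    · rw [ptE_some a b hn]
      simp only [pencilMap, e0, e1, e2]
      rfl
    · rw [ptE_some a b hn, Point.neg_some]
      simp only [pencilMap, hesseE_negY, e0, e1, neg_mul (12 * (1 + 2 * w) * (x ^ 3 - y ^ 3)), e2]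
      exact ptE_neg _ _ hab' (by rw [← ha', ← hb']; exact third_curve hw _ _)
  have hmap : ∀ z, pencilMap l m a b (ψ z) = ψ' z := by
    rintro ⟨i, j⟩
    rw [hψ, hψ']
    fin_cases i <;> fin_cases j <;> simp only [nine] <;> first
      | rfl
      | exact (hcorner 1 (one_pow 3)).1
      | exact (hcorner 1 (one_pow 3)).2
      | exact (hcorner w hw3).1
      | exact (hcorner w hw3).2
      | exact (hcorner _ (show (w ^ 2) ^ 3 = 1 by linear_combination (w ^ 3 + 1) * hw3)).1
      | exact (hcorner _ (show (w ^ 2) ^ 3 = 1 by linear_combination (w ^ 3 + 1) * hw3)).2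
      | exact hthird.1
      | exact hthird.2
  have memψ : ∀ {A B : K} (f : ZMod 3 × ZMod 3 →+ ((hesseE A B)⁄k).Point) (z),
      f z ∈ Submodule.torsionBy ℤ ((hesseE A B)⁄k).Point (3 : ℕ) := fun f z => by
    rw [Submodule.mem_torsionBy_iff, natCast_zsmul, ← map_nsmul,
      show 3 • z = 0 by
        rw [← Nat.cast_smul_eq_nsmul (ZMod 3), show ((3 : ℕ) : ZMod 3) = 0 from rfl, zero_smul],
      map_zero]
  have mk : ∀ {A B : K} (f : ZMod 3 × ZMod 3 →+ ((hesseE A B)⁄k).Point),
      Function.Injective f → ((hesseE A B)⁄k).IsElliptic →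
      ∃ e : ZMod 3 × ZMod 3 ≃+ Submodule.torsionBy ℤ ((hesseE A B)⁄k).Point (3 : ℕ),
        ∀ z, (e z : ((hesseE A B)⁄k).Point) = f z := fun {A B} f hf hell => by
    have := hell
    have hc := EC.Torsion.natCard_torsionBy (hesseE A B) k (n := 3) (by norm_num)
    have : Finite (Submodule.torsionBy ℤ ((hesseE A B)⁄k).Point (3 : ℕ)) :=
      Nat.finite_of_card_ne_zero (by omega)
    let g : ZMod 3 × ZMod 3 →+ Submodule.torsionBy ℤ ((hesseE A B)⁄k).Point (3 : ℕ) :=
      f.codRestrict _ (memψ f)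
    have hb1 : Function.Bijective g := (Nat.bijective_iff_injective_and_card g).2
      ⟨fun u v huv => hf (congrArg Subtype.val huv), by rw [hc]; simp⟩
    exact ⟨AddEquiv.ofBijective g hb1, fun z => rfl⟩
  obtain ⟨e, he⟩ := mk ψ hψi inferInstance
  obtain ⟨e', he'⟩ := mk ψ' hψi' inferInstance
  have key : ∀ P, ((e.symm.trans e') P : ((hesseE _ _)⁄k).Point) = pencilMap l m a b P := by
    intro P
    obtain ⟨z, rfl⟩ := e.surjective P
    rw [AddEquiv.trans_apply, e.symm_apply_apply, he', he, hmap]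
  refine ⟨e.symm.trans e', fun σ P => Subtype.ext ?_⟩
  calc ((e.symm.trans e') (σ • P) : ((hesseE _ _)⁄k).Point)
      = pencilMap l m a b ((σ • P : Submodule.torsionBy ℤ ((hesseE a b)⁄k).Point (3 : ℕ)) :
          ((hesseE a b)⁄k).Point) := key _
    _ = σ • pencilMap l m a b (P : ((hesseE a b)⁄k).Point) := pencilMap_smul l m a b σ _
    _ = σ • ((e.symm.trans e') P : ((hesseE _ _)⁄k).Point) := by rw [key]

end Transport

end Fermat.Agent.SwitchThree
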