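import Mathlib
import Fermat.Prelude.Def_FLTPrelim_ModularRep
import Fermat.Agent.EC.Frobenius.Model
import Fermat.Agent.EC.Reduction.VariableChange
import Fermat.Agent.Gal.Frobenius
import Fermat.Agent.SwitchThree.Torsion

/-!
# Galois-equivariant isomorphisms of 3-torsion and their consequences

`Congr3` is such an isomorphism. The pencil gives one (`congr3_pencil`), and it transfers
traces of Frobenius mod `3`, irreducibility and residual modularity.
-/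

set_option autoImplicit false

open WeierstrassCurve WeierstrassCurve.Affine.Point
open scoped WeierstrassCurve.Affine

namespace Fermat.Agent.SwitchThree

local notation "ℚbar" => AlgebraicClosure ℚ
local notation "Γ" => AlgebraicClosure ℚ ≃ₐ[ℚ] AlgebraicClosure ℚ

/-- The 3-torsion modules of `E` and `E'` over `AlgebraicClosure ℚ` are isomorphic as Galois
modules. -/
def Congr3 (E E' : WeierstrassCurve ℚ) : Prop :=
  ∃ Φ : Submodule.torsionBy ℤ (E⁄ℚbar).Point (3 : ℕ) ≃+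
      Submodule.torsionBy ℤ (E'⁄ℚbar).Point (3 : ℕ),
    ∀ (σ : Γ) (P : Submodule.torsionBy ℤ (E⁄ℚbar).Point (3 : ℕ)), Φ (σ • P) = σ • Φ P

theorem Congr3.symm {E E' : WeierstrassCurve ℚ} (h : Congr3 E E') : Congr3 E' E := by
  obtain ⟨Φ, hΦ⟩ := h
  exact ⟨Φ.symm, fun σ P => Φ.injective (by rw [hΦ, Φ.apply_symm_apply, Φ.apply_symm_apply])⟩

theorem Congr3.trans {E E' E'' : WeierstrassCurve ℚ} (h : Congr3 E E') (h' : Congr3 E' E'') :
    Congr3 E E'' := by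
  obtain ⟨Φ, hΦ⟩ := h
  obtain ⟨Ψ, hΨ⟩ := h'
  exact ⟨Φ.trans Ψ, fun σ P => by
    rw [AddEquiv.trans_apply, AddEquiv.trans_apply, hΦ, hΨ]⟩

theorem congr3_of_variableChange {E E' : WeierstrassCurve ℚ} (D : VariableChange ℚ)
    (h : D • E = E') : Congr3 E' E := by
  obtain ⟨e, he⟩ := EC.Reduction.exists_equivariant_addEquiv (K := ℚbar) D h
  have hmem : ∀ {P}, P ∈ Submodule.torsionBy ℤ (E'⁄ℚbar).Point (3 : ℕ) →
      e P ∈ Submodule.torsionBy ℤ (E⁄ℚbar).Point (3 : ℕ) := fun {P} hP => by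
    rw [Submodule.mem_torsionBy_iff] at hP ⊢
    rw [← map_zsmul, hP, _root_.map_zero]
  have hmem' : ∀ {P}, P ∈ Submodule.torsionBy ℤ (E⁄ℚbar).Point (3 : ℕ) →
      e.symm P ∈ Submodule.torsionBy ℤ (E'⁄ℚbar).Point (3 : ℕ) := fun {P} hP => by
    rw [Submodule.mem_torsionBy_iff] at hP ⊢
    rw [← map_zsmul, hP, _root_.map_zero]
  exact ⟨{ toFun := fun P => ⟨e P.1, hmem P.2⟩
           invFun := fun P => ⟨e.symm P.1, hmem' P.2⟩
           left_inv := fun P => Subtype.ext (e.symm_apply_apply _)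
           right_inv := fun P => Subtype.ext (e.apply_symm_apply _)
           map_add' := fun P Q => Subtype.ext (map_add e P.1 Q.1) },
    fun σ P => Subtype.ext (he σ P.1)⟩

/-- `W` over `ℚ` in short form. -/
theorem congr3_hesseE (W : WeierstrassCurve ℤ) :
    Congr3 (hesseE (W.c₄ : ℚ) (W.c₆ : ℚ)) (W.map (Int.castRingHom ℚ)) := by
  refine congr3_of_variableChange ⟨Units.mk0 (1/6) (by norm_num), -(W.b₂ : ℚ) / 12,
    -(W.a₁ : ℚ) / 2, (W.a₁ : ℚ) * W.b₂ / 24 - (W.a₃ : ℚ) / 2⟩ ?_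
  ext <;>
    simp only [hesseE, variableChange_a₁, variableChange_a₂, variableChange_a₃,
      variableChange_a₄, variableChange_a₆, map_a₁, map_a₂, map_a₃, map_a₄, map_a₆,
      Units.val_inv_eq_inv_val, Units.val_mk0, eq_intCast, WeierstrassCurve.b₂,
      WeierstrassCurve.b₄, WeierstrassCurve.b₆, WeierstrassCurve.c₄, WeierstrassCurve.c₆] <;>
    push_cast <;> ring

theorem hesseE_scale {t a b : ℚ} (ht : t ≠ 0) :
    (⟨Units.mk0 t ht, 0, 0, 0⟩ : VariableChange ℚ) • (hesseE (a * t ^ 4) (b * t ^ 6))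
      = hesseE a b := by
  ext <;>
    simp only [hesseE, variableChange_a₁, variableChange_a₂, variableChange_a₃,
      variableChange_a₄, variableChange_a₆, Units.val_inv_eq_inv_val, Units.val_mk0] <;>
    field_simp <;> ring

/-- Members of one pencil have isomorphic 3-torsion. -/
theorem congr3_pencil {W W' : WeierstrassCurve ℤ} {l m : ℤ} {t : ℚ} (ht : t ≠ 0)
    (hΔ : W.Δ ≠ 0) (hd : dL l m W.c₄ W.c₆ ≠ 0)
    (h4 : (W'.c₄ : ℚ) * t ^ 4 = (c4L l m W.c₄ W.c₆ : ℤ))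
    (h6 : (W'.c₆ : ℚ) * t ^ 6 = (c6L l m W.c₄ W.c₆ : ℤ)) :
    Congr3 (W.map (Int.castRingHom ℚ)) (W'.map (Int.castRingHom ℚ)) := by
  have hab : (W.c₄ : ℚ) ^ 3 ≠ (W.c₆ : ℚ) ^ 2 := by
    intro h
    apply hΔ
    have h' : W.c₄ ^ 3 = W.c₆ ^ 2 := by exact_mod_cast h
    linarith [W.c_relation]
  have hdQ : dL (l : ℚ) m W.c₄ W.c₆ ≠ 0 := by
    simp only [← eq_intCast (Int.castRingHom ℚ), ← map_dL]
    simpa using hd
  have e4 : c4L (l : ℚ) m W.c₄ W.c₆ = (W'.c₄ : ℚ) * t ^ 4 := by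
    rw [h4]; simp only [← eq_intCast (Int.castRingHom ℚ), ← map_c4L]
  have e6 : c6L (l : ℚ) m W.c₄ W.c₆ = (W'.c₆ : ℚ) * t ^ 6 := by
    rw [h6]; simp only [← eq_intCast (Int.castRingHom ℚ), ← map_c6L]
  have hP : Congr3 (hesseE (W.c₄ : ℚ) (W.c₆ : ℚ))
      (hesseE ((W'.c₄ : ℚ) * t ^ 4) ((W'.c₆ : ℚ) * t ^ 6)) := by
    rw [← e4, ← e6]
    exact exists_equiv_pencil _ _ _ _ hab hdQ
  exact (congr3_hesseE W).symm.trans
    (hP.trans ((congr3_of_variableChange _ (hesseE_scale ht)).symm.trans (congr3_hesseE W')))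

/-- A Galois-equivariant isomorphism is linear over `ZMod 3` and conjugates the representations. -/
theorem Congr3.exists_linearEquiv {E E' : WeierstrassCurve ℚ} (h : Congr3 E E') :
    ∃ L : Submodule.torsionBy ℤ (E⁄ℚbar).Point (3 : ℕ) ≃ₗ[ZMod 3]
        Submodule.torsionBy ℤ (E'⁄ℚbar).Point (3 : ℕ), ∀ σ : Γ,
      L.conj (galoisRepModuleEnd (K := ℚbar) ℚ E.toAffine 3 σ) =
        galoisRepModuleEnd (K := ℚbar) ℚ E'.toAffine 3 σ := by
  obtain ⟨Φ, hΦ⟩ := h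
  refine ⟨Φ.toLinearEquiv (fun c x => ZMod.map_smul Φ.toAddMonoidHom c x), fun σ => ?_⟩
  refine LinearMap.ext fun x => ?_
  change Φ (σ • Φ.symm x) = σ • x
  rw [hΦ, Φ.apply_symm_apply]

/-- Congruent curves have the same trace on their 3-torsion. -/
theorem Congr3.galoisTrace_eq {E E' : WeierstrassCurve ℚ} (h : Congr3 E E') (σ : Γ) :
    galoisTrace (K := ℚbar) ℚ E.toAffine 3 σ = galoisTrace (K := ℚbar) ℚ E'.toAffine 3 σ := by
  obtain ⟨L, hL⟩ := h.exists_linearEquiv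
  rw [galoisTrace_def, galoisTrace_def, ← hL σ, LinearMap.trace_conj']

/-- Congruent models have the same `a_ℓ` modulo 3 at common good primes `ℓ ≠ 3`. -/
theorem Congr3.dvd_apOfModel_sub {W W' : WeierstrassCurve ℤ}
    (h : Congr3 (W.map (Int.castRingHom ℚ)) (W'.map (Int.castRingHom ℚ)))
    {ℓ : ℕ} (hℓ : ℓ.Prime) (hg : W.IsGoodPrimeFor ℓ) (hg' : W'.IsGoodPrimeFor ℓ) (h3 : ℓ ≠ 3) :
    (3 : ℤ) ∣ (W'.apOfModel ℓ - W.apOfModel ℓ) := by
  have : Fact (Nat.Prime 3) := ⟨Nat.prime_three⟩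
  have hΔ : W.Δ ≠ 0 := fun h0 => hg (h0 ▸ dvd_zero _)
  have hΔ' : W'.Δ ≠ 0 := fun h0 => hg' (h0 ▸ dvd_zero _)
  have := EC.Frobenius.isElliptic_map_rat hΔ
  have := EC.Frobenius.isElliptic_map_rat hΔ'
  obtain ⟨A, hA⟩ := Gal.exists_liesOverPrime (L := ℚbar) hℓ
  obtain ⟨σ, hσ⟩ := Gal.exists_isFrobeniusAt hℓ hA
  have t1 := EC.Frobenius.galoisTrace_eq_apOfModel (ℓ := 3)
    (EC.Frobenius.isIntegralModelOf_map W) hℓ hg (Ne.symm h3) hA hσ
  have t2 := EC.Frobenius.galoisTrace_eq_apOfModel (ℓ := 3)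
    (EC.Frobenius.isIntegralModelOf_map W') hℓ hg' (Ne.symm h3) hA hσ
  refine (ZMod.intCast_zmod_eq_zero_iff_dvd _ 3).1 ?_
  rw [Int.cast_sub, ← t1, ← t2, h.galoisTrace_eq σ, sub_self]

/-- Irreducibility of the mod 3 representation transfers. -/
theorem Congr3.modRepIsIrreducible {W W' : WeierstrassCurve ℤ}
    (h : Congr3 (W.map (Int.castRingHom ℚ)) (W'.map (Int.castRingHom ℚ)))
    (hirr : W.ModRepIsIrreducible 3) : W'.ModRepIsIrreducible 3 := by
  obtain ⟨L, hL⟩ := h.exists_linearEquiv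
  obtain ⟨hnt, hN⟩ := hirr
  refine ⟨L.toEquiv.symm.nontrivial, fun N hst => ?_⟩
  have hst' : IsGaloisStable ℚ (Submodule.comap L.toLinearMap N) := fun σ x hx => by
    have e : L (σ • x) = σ • L x := by
      have := LinearMap.congr_fun (hL σ) (L x)
      rw [LinearEquiv.conj_apply_apply, LinearEquiv.symm_apply_apply] at this
      exact this
    rw [Submodule.mem_comap, LinearEquiv.coe_coe, e]
    exact hst σ _ hx
  rcases hN _ hst' with h' | h' <;>
    [left; right] <;>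
    exact Submodule.comap_injective_of_surjective L.surjective (by simpa using h')

/-- Residual modularity mod 3 at level `N` transfers along a congruence, if `N` is divisible by
the bad primes of the new curve. -/
theorem Congr3.isResiduallyModularOfLevel {W W' : WeierstrassCurve ℤ}
    (h : Congr3 (W.map (Int.castRingHom ℚ)) (W'.map (Int.castRingHom ℚ))) {N : ℕ}
    (hN : ∀ ℓ : ℕ, ℓ.Prime → W.IsGoodPrimeFor ℓ → ¬ ℓ ∣ N → ℓ ≠ 3 → W'.IsGoodPrimeFor ℓ)
    (hW' : W'.IsResiduallyModularOfLevel 3 N) : W.IsResiduallyModularOfLevel 3 N := by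
  obtain ⟨f, 𝔪, hf, hm, h3, hc⟩ := hW'
  refine ⟨f, 𝔪, hf, hm, h3, fun ℓ hℓ hg hlN hl3 => ?_⟩
  obtain ⟨a, ha, hamem⟩ := hc ℓ hℓ (hN ℓ hℓ hg hlN hl3) hlN hl3
  refine ⟨a, ha, ?_⟩
  obtain ⟨z, hz⟩ := h.dvd_apOfModel_sub hℓ hg (hN ℓ hℓ hg hlN hl3) hl3
  have e : a - ((W.apOfModel ℓ : ℤ) : integralClosure ℤ ℂ)
      = (a - ((W'.apOfModel ℓ : ℤ) : integralClosure ℤ ℂ)) +
        ((3 : ℕ) : integralClosure ℤ ℂ) * z := by
    have := congrArg (Int.cast : ℤ → integralClosure ℤ ℂ) hz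
    push_cast at this ⊢
    linear_combination this
  rw [e]
  exact 𝔪.add_mem hamem (𝔪.mul_mem_right _ h3)

end Fermat.Agent.SwitchThree
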