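import Mathlib

/-!
# Integral models with prescribed invariants

Integral Weierstrass models with prescribed odd `c₄` and with `c₆ ≡ 3 (mod 4)`.

Main results: `exists_model_of_residue` (Kraus's conditions), `exists_model_two` (invariants
congruent modulo `243` to those of a given model) and `exists_model_mult` (`3 ∤ c₄`).
-/

set_option autoImplicit false

namespace Fermat.Agent.SwitchThree

/-- Kraus's conditions, in the case of an odd `c₄`: invariants with `c₄` odd, `c₆ ≡ 3` modulo `4`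
and `1728 ∣ c₄³ - c₆²` come from an integral model, given an admissible residue `β` of `b₂`
modulo `27`. -/
theorem exists_model_of_residue {a b β : ℤ} (hao : Odd a) (hb4 : 4 ∣ b - 3)
    (hab : 1728 ∣ a ^ 3 - b ^ 2) (h3β : 3 ∣ β ^ 2 - a)
    (h27β : 27 ∣ β ^ 3 - 3 * a * β - 2 * b) :
    ∃ W' : WeierstrassCurve ℤ, W'.c₄ = a ∧ W'.c₆ = b := by
  obtain ⟨u, hu⟩ := hao
  obtain ⟨v, hv⟩ := hb4
  obtain ⟨s, hs⟩ := hab
  obtain ⟨w, hw⟩ := Int.even_mul_succ_self u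
  -- `a ≡ 1 (mod 8)`
  obtain ⟨e, he⟩ : (8 : ℤ) ∣ a - 1 :=
    ⟨216 * s + (2 * v ^ 2 + 3 * v + 1) - (2 * u + 1) * w, by
      have hb' : b = 4 * v + 3 := by linarith
      subst hb' hu
      linear_combination hs - 4 * (2 * u + 1) * hw⟩
  set x : ℤ := 7 * (β - 1) with hx
  set a₂ : ℤ := x + 27 * (x + e) with ha₂
  set B : ℤ := 1 + 4 * a₂ with hB
  obtain ⟨c, hc⟩ : (27 : ℤ) ∣ B - β :=
    ⟨(β - 1) + 4 * (x + e), by rw [hB, ha₂, hx]; ring⟩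
  clear_value x a₂ B
  obtain ⟨α, hα⟩ := h3β
  obtain ⟨γ, hγ⟩ := h27β
  -- `48 ∣ B² - a`
  obtain ⟨a₄, ha₄⟩ : (48 : ℤ) ∣ B ^ 2 - a := by
    have h16 : (16 : ℤ) ∣ B ^ 2 - a :=
      ⟨a₂ ^ 2 + 14 * x + 13 * e, by
        subst hB ha₂; linear_combination -he⟩
    have h3 : (3 : ℤ) ∣ B ^ 2 - a :=
      ⟨9 * c * (B + β) + α, by linear_combination (B + β) * hc + hα⟩
    exact IsCoprime.mul_dvd (by norm_num : IsCoprime (16 : ℤ) 3) h16 h3
  obtain ⟨K, hK⟩ : ∃ K : ℤ, K = -B ^ 3 + 72 * B * a₄ := ⟨_, rfl⟩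
  have h2K : 2 * K = B ^ 3 - 3 * a * B := by
    linear_combination 2 * hK - 3 * B * ha₄
  have h27 : (27 : ℤ) ∣ K - b := by
    refine (IsCoprime.dvd_of_dvd_mul_left (by norm_num : IsCoprime (27 : ℤ) 2) ?_)
    exact ⟨c * (B ^ 2 + B * β + β ^ 2) - 3 * a * c + γ, by
      linear_combination h2K + (B ^ 2 + B * β + β ^ 2 - 3 * a) * hc + hγ⟩
  have h32 : (32 : ℤ) ∣ K - b := by
    obtain ⟨t, ht⟩ : (4 : ℤ) ∣ K + b - 2 :=
      ⟨-(16 * a₂ ^ 3 + 12 * a₂ ^ 2 + 3 * a₂) + 18 * B * a₄ + v, by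
        rw [hK, hB]; linear_combination hv⟩
    have hco : IsCoprime ((2 : ℤ) ^ 5) (2 * t + 1) :=
      IsCoprime.pow_left ⟨-t, 1, by ring⟩
    rw [show (32 : ℤ) = 2 ^ 5 by norm_num]
    refine hco.dvd_of_dvd_mul_right ?_
    refine ⟨9 * a₄ ^ 2 * (B ^ 2 - 4 * a) + 27 * s, ?_⟩
    have h4 : 4 * (K ^ 2 - a ^ 3) = (B ^ 2 - 4 * a) * (B ^ 2 - a) ^ 2 := by
      linear_combination (2 * K + B ^ 3 - 3 * a * B) * h2K
    have h4' : K ^ 2 - a ^ 3 = 576 * a₄ ^ 2 * (B ^ 2 - 4 * a) := by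
      rw [ha₄] at h4
      refine mul_left_cancel₀ (four_ne_zero : (4 : ℤ) ≠ 0) ?_
      linear_combination h4
    refine mul_left_cancel₀ (two_ne_zero : (2 : ℤ) ≠ 0) ?_
    linear_combination (-(K - b)) * ht + h4' + hs
  obtain ⟨a₆, ha₆⟩ : (864 : ℤ) ∣ K - b :=
    IsCoprime.mul_dvd (by norm_num : IsCoprime (32 : ℤ) 27) h32 h27
  refine ⟨⟨1, a₂, 0, a₄, a₆⟩, ?_, ?_⟩
  · simp only [WeierstrassCurve.c₄, WeierstrassCurve.b₂, WeierstrassCurve.b₄]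
    subst hB; linear_combination ha₄
  · simp only [WeierstrassCurve.c₆, WeierstrassCurve.b₂, WeierstrassCurve.b₄,
      WeierstrassCurve.b₆]
    subst hK hB; linear_combination ha₆

/-- Invariants congruent modulo `243` to those of an integral model. -/
theorem exists_model_two (W : WeierstrassCurve ℤ) {a b : ℤ} (ha : 243 ∣ a - W.c₄)
    (hb : 243 ∣ b - W.c₆) (hao : Odd a) (hb4 : 4 ∣ b - 3) (hab : 1728 ∣ a ^ 3 - b ^ 2) :
    ∃ W' : WeierstrassCurve ℤ, W'.c₄ = a ∧ W'.c₆ = b := by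
  obtain ⟨α, hα⟩ := ha
  obtain ⟨β, hβ⟩ := hb
  refine exists_model_of_residue (β := W.b₂) hao hb4 hab ⟨8 * W.b₄ - 81 * α, ?_⟩
    ⟨16 * W.b₆ - 27 * W.b₂ * α - 18 * β, ?_⟩
  · rw [eq_add_of_sub_eq hα]; simp only [WeierstrassCurve.c₄]; ring
  · rw [eq_add_of_sub_eq hα, eq_add_of_sub_eq hβ]
    simp only [WeierstrassCurve.c₄, WeierstrassCurve.c₆]; ring

/-- Invariants with `c₄` prime to `3`, the multiplicative case at `3`. -/
theorem exists_model_mult {a b : ℤ} (h3 : ¬ 3 ∣ a) (hao : Odd a) (hb4 : 4 ∣ b - 3)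
    (hab : 1728 ∣ a ^ 3 - b ^ 2) : ∃ W' : WeierstrassCurve ℤ, W'.c₄ = a ∧ W'.c₆ = b := by
  obtain ⟨s, hs⟩ := hab
  have h27a : IsCoprime (27 : ℤ) a := by
    rw [show (27 : ℤ) = 3 ^ 3 by norm_num]
    exact ((Int.prime_three.coprime_iff_not_dvd).2 h3).pow_left
  obtain ⟨u, v, huv⟩ := h27a
  refine exists_model_of_residue (β := -(b * v)) hao hb4 ⟨s, hs⟩
    (Dvd.dvd.trans (by norm_num : (3 : ℤ) ∣ 27) ?_) ?_
  · refine (IsCoprime.pow_right (n := 2) (⟨u, v, huv⟩ : IsCoprime (27 : ℤ) a)).dvd_of_dvd_mul_left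
      ?_
    refine ⟨-(64 * s) + b ^ 2 * u * (27 * u - 2), ?_⟩
    rw [show a ^ 2 * ((-(b * v)) ^ 2 - a) = (b * (v * a)) ^ 2 - a ^ 3 by ring,
      show v * a = 1 - 27 * u by linarith]
    linear_combination -hs
  · refine (IsCoprime.pow_right (n := 3) (⟨u, v, huv⟩ : IsCoprime (27 : ℤ) a)).dvd_of_dvd_mul_left
      ?_
    refine ⟨b * 64 * s - 3 * u * b * a ^ 3 - b ^ 3 * (-3 * u + 81 * u ^ 2 - 729 * u ^ 3), ?_⟩
    rw [show a ^ 3 * ((-(b * v)) ^ 3 - 3 * a * (-(b * v)) - 2 * b)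
        = -(b * (v * a)) ^ 3 + 3 * a ^ 3 * b * (v * a) - 2 * a ^ 3 * b by ring,
      show v * a = 1 - 27 * u by linarith]
    linear_combination b * hs

end Fermat.Agent.SwitchThree
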