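import Mathlib

/-!
# Primes at which given algebraic numbers reduce into the prime field

An elementary argument of Schur: a nonconstant integer polynomial has roots modulo arbitrarily
large primes.

Main result: `exists_prime_point`.
-/

set_option autoImplicit false

open Polynomial

namespace Fermat.Agent.SwitchThree

/-- Schur: roots modulo arbitrarily large primes. -/
theorem exists_prime_root (f : ℤ[X]) (hf : 0 < f.natDegree) (N : ℕ) :
    ∃ ℓ : ℕ, ℓ.Prime ∧ N < ℓ ∧ ∃ t : ℤ, (ℓ : ℤ) ∣ f.eval t := by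
  set c := f.coeff 0 with hc
  rcases eq_or_ne c 0 with h0 | h0
  · obtain ⟨ℓ, hℓ, hp⟩ := Nat.exists_infinite_primes (N + 1)
    exact ⟨ℓ, hp, by omega, 0, by simp [← coeff_zero_eq_eval_zero, ← hc, h0]⟩
  set M : ℤ := (Nat.factorial N : ℤ) with hM
  have hcM : c * M ≠ 0 := mul_ne_zero h0 (by simp [hM, Nat.factorial_ne_zero])
  set g : ℤ[X] := f.comp (C (c * M) * X) with hg
  have hgd : g.natDegree = f.natDegree := by
    rw [hg, natDegree_comp, natDegree_C_mul_X _ hcM, mul_one]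
  have hne : ∀ e : ℤ, g - C e ≠ 0 := fun e h => by
    have := congrArg natDegree h
    rw [natDegree_sub_C, hgd, natDegree_zero] at this
    omega
  obtain ⟨t, ht⟩ := (((finite_setOfPred_isRoot (hne c)).union
    (finite_setOfPred_isRoot (hne (-c))))).exists_notMem
  simp only [Set.mem_union, Set.mem_ofPred_eq, IsRoot.def, eval_sub, eval_C, not_or,
    sub_eq_zero] at ht
  have hev : g.eval t = c * (1 + M * t * f.divX.eval (c * M * t)) := by
    have := congrArg (eval (c * M * t)) f.X_mul_divX_add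
    simp only [eval_add, eval_mul, eval_X, eval_C] at this
    rw [hg, eval_comp]
    simp only [eval_mul, eval_C, eval_X]
    rw [← this, ← hc]; ring
  set w := 1 + M * t * f.divX.eval (c * M * t) with hw
  have hw1 : w.natAbs ≠ 1 := fun h => by
    rcases Int.natAbs_eq_iff.1 h with h | h
    · exact ht.1 (by rw [hev, h]; simp)
    · exact ht.2 (by rw [hev, h]; simp)
  obtain ⟨ℓ, hℓ, hdvd⟩ := Nat.exists_prime_and_dvd hw1
  have hdvd' : (ℓ : ℤ) ∣ w := Int.natCast_dvd.2 hdvd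
  refine ⟨ℓ, hℓ, lt_of_not_ge fun hle => ?_, c * M * t, ?_⟩
  · have hℓM : (ℓ : ℤ) ∣ M := by
      rw [hM]; exact_mod_cast Nat.dvd_factorial hℓ.pos hle
    have h1 : (ℓ : ℤ) ∣ 1 := by
      have := hdvd'.sub ((hℓM.mul_right t).mul_right (f.divX.eval (c * M * t)))
      rwa [hw, add_sub_cancel_right] at this
    exact hℓ.one_lt.ne' (by exact_mod_cast Int.eq_one_of_dvd_one (by positivity) h1)
  · have : f.eval (c * M * t) = g.eval t := by rw [hg, eval_comp]; simp
    rw [this, hev]; exact dvd_mul_of_dvd_right hdvd' _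

/-- `P(Px/dx, Py/dy)` with the denominators cleared. -/
noncomputable def clearDenom (P : MvPolynomial (Fin 2) ℤ) (n : ℕ) (Px Py : ℤ[X]) (dx dy : ℤ) :
    ℤ[X] :=
  ∑ d ∈ P.support, C (P.coeff d * (dx ^ (n - d 0) * dy ^ (n - d 1))) * (Px ^ d 0 * Py ^ d 1)

theorem aeval_clearDenom {A : Type*} [CommRing A] (P : MvPolynomial (Fin 2) ℤ) {n : ℕ}
    (hn : ∀ d ∈ P.support, d 0 ≤ n ∧ d 1 ≤ n) (Px Py : ℤ[X]) (dx dy : ℤ) (u X' Y' : A)
    (hX : aeval u Px = (dx : A) * X') (hY : aeval u Py = (dy : A) * Y') :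
    aeval u (clearDenom P n Px Py dx dy) =
      ((dx : A) ^ n * (dy : A) ^ n) * MvPolynomial.aeval ![X', Y'] P := by
  rw [MvPolynomial.aeval_def, MvPolynomial.eval₂_eq', clearDenom, map_sum, Finset.mul_sum]
  refine Finset.sum_congr rfl fun d hd => ?_
  obtain ⟨h0, h1⟩ := hn d hd
  simp only [map_mul, map_pow, hX, hY, algebraMap_int_eq, eq_intCast, Fin.prod_univ_two,
    Matrix.cons_val_zero, Matrix.cons_val_one, map_intCast, mul_pow]
  rw [show (dx : A) ^ n = (dx : A) ^ (n - d 0) * (dx : A) ^ d 0 by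
      rw [← pow_add, Nat.sub_add_cancel h0],
    show (dy : A) ^ n = (dy : A) ^ (n - d 1) * (dy : A) ^ d 1 by
      rw [← pow_add, Nat.sub_add_cancel h1]]
  ring

/-- An algebraic point of an affine scheme over `ℤ` cut out by polynomials in two variables reduces
to a rational point modulo arbitrarily large primes. -/
theorem exists_prime_point {k : Type*} [Field k] [CharZero k] [Algebra ℚ k]
    [Algebra.IsAlgebraic ℚ k] (x y : k) (S : Finset (MvPolynomial (Fin 2) ℤ))
    (hS : ∀ P ∈ S, MvPolynomial.aeval ![x, y] P = 0) (N : ℕ) :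
    ∃ ℓ : ℕ, ℓ.Prime ∧ N < ℓ ∧ ∃ x' y' : ZMod ℓ,
      ∀ P ∈ S, MvPolynomial.aeval ![x', y'] P = 0 := by
  classical
  -- an integral generator
  obtain ⟨α, hα⟩ := Field.primitive_element_inf_aux ℚ x y (E := k)
  have hαi : IsIntegral ℚ α := (Algebra.IsAlgebraic.isAlgebraic α).isIntegral
  obtain ⟨⟨s, hs⟩, hθ⟩ := IsIntegral.exists_multiple_integral_of_isLocalization
    (nonZeroDivisors ℤ) α hαi
  set θ : k := s • α with hθdef
  replace hθ : IsIntegral ℤ θ := hθ
  set L := IntermediateField.adjoin ℚ ({α} : Set k) with hL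
  have hgen : ∀ z : k, z ∈ L → ∃ P : ℚ[X], z = aeval θ P := fun z hmem => by
    rw [hL, ← IntermediateField.mem_toSubalgebra,
      IntermediateField.adjoin_simple_toSubalgebra_of_isAlgebraic hαi.isAlgebraic,
      Algebra.adjoin_singleton_eq_range_aeval] at hmem
    obtain ⟨P, rfl⟩ := hmem
    refine ⟨P.comp (C (s : ℚ)⁻¹ * X), ?_⟩
    rw [aeval_comp]
    simp only [map_mul, aeval_C, aeval_X, hθdef, zsmul_eq_mul, map_inv₀, map_intCast]
    rw [← mul_assoc, inv_mul_cancel₀ (Int.cast_ne_zero.2 (nonZeroDivisors.ne_zero hs)), one_mul]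
    rfl
  have hden : ∀ z : k, z ∈ L → ∃ (P : ℤ[X]) (d : ℤ), d ≠ 0 ∧ (d : k) * z = aeval θ P :=
    fun z hz => by
    obtain ⟨P, hP⟩ := hgen z hz
    obtain ⟨d, hd, hdP⟩ := IsLocalization.integerNormalization_spec (nonZeroDivisors ℤ) P
    refine ⟨IsLocalization.integerNormalization (nonZeroDivisors ℤ) P, d,
      nonZeroDivisors.ne_zero hd, ?_⟩
    rw [← aeval_map_algebraMap ℚ, hdP, hP]
    simp
  obtain ⟨Px, dx, hdx, hPx⟩ := hden x (hα ▸ IntermediateField.subset_adjoin _ _ (by simp))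
  obtain ⟨Py, dy, hdy, hPy⟩ := hden y (hα ▸ IntermediateField.subset_adjoin _ _ (by simp))
  obtain ⟨ℓ, hℓ, hlt, t, ht⟩ := exists_prime_root (minpoly ℤ θ)
    (minpoly.natDegree_pos hθ) (max N (dx * dy).natAbs)
  have := Fact.mk hℓ
  have hnd : ((dx : ZMod ℓ) ≠ 0 ∧ (dy : ZMod ℓ) ≠ 0) := by
    rw [← mul_ne_zero_iff, ← Int.cast_mul, Ne, ZMod.intCast_zmod_eq_zero_iff_dvd]
    intro hd
    have h1 := Int.natAbs_le_of_dvd_ne_zero hd (mul_ne_zero hdx hdy)
    simp only [Int.natAbs_natCast] at h1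
    omega
  refine ⟨ℓ, hℓ, by omega, (aeval (t : ZMod ℓ) Px) / dx, (aeval (t : ZMod ℓ) Py) / dy,
    fun P hP => ?_⟩
  -- clear denominators with the total degree
  obtain ⟨n, hn⟩ : ∃ n, ∀ d ∈ P.support, d 0 ≤ n ∧ d 1 ≤ n :=
    ⟨P.support.sup (fun d => d 0 + d 1), fun d hd => by
      have := Finset.le_sup (f := fun d => d 0 + d 1) hd
      omega⟩
  set Q : ℤ[X] := clearDenom P n Px Py dx dy with hQ
  have hQ0 : aeval θ Q = 0 := by
    rw [aeval_clearDenom P hn Px Py dx dy θ x y hPx.symm hPy.symm, hS P hP, mul_zero]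
  obtain ⟨R, hR⟩ := minpoly.isIntegrallyClosed_dvd hθ hQ0
  have ht' : aeval (t : ZMod ℓ) (minpoly ℤ θ) = 0 := by
    rw [show (t : ZMod ℓ) = algebraMap ℤ (ZMod ℓ) t from rfl, aeval_algebraMap_apply,
      algebraMap_int_eq, eq_intCast, ZMod.intCast_zmod_eq_zero_iff_dvd]
    simpa using ht
  have h := aeval_clearDenom P hn Px Py dx dy (t : ZMod ℓ) _ _ (mul_div_cancel₀ _ hnd.1).symm
    (mul_div_cancel₀ _ hnd.2).symm
  rw [← hQ, hR, map_mul, ht', zero_mul] at h
  exact (mul_eq_zero.1 h.symm).resolve_left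
    (mul_ne_zero (pow_ne_zero _ hnd.1) (pow_ne_zero _ hnd.2))

end Fermat.Agent.SwitchThree
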