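import Mathlib
import Fermat.Agent.SwitchThree.Hesse
import Fermat.Agent.SwitchThree.SplitPrime

/-!
# Choice of the parameter on the pencil

Congruence conditions, the sign of the discriminant, irreducibility of the 2-division cubic and a
new prime of odd discriminant valuation can be achieved simultaneously.

Main results: `exists_class` and `exists_param`.
-/

set_option autoImplicit false

namespace Fermat.Agent.SwitchThree

theorem dvd_map_iff {ℓ : ℕ} (z : ℤ) : (z : ZMod ℓ) = 0 ↔ (ℓ : ℤ) ∣ z :=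
  ZMod.intCast_zmod_eq_zero_iff_dvd z ℓ

theorem ofNat_ne_zero_zmod {ℓ : ℕ} {n : ℕ} (hn : n ≠ 0) (h : n < ℓ) :
    (n : ZMod ℓ) ≠ 0 := by
  rw [Ne, ZMod.natCast_eq_zero_iff]
  exact fun hd => absurd (Nat.le_of_dvd (Nat.pos_of_ne_zero hn) hd) (by omega)

/-- A root of `dL (·) 1` modulo a large prime can be moved to a root of exact valuation one. -/
theorem exists_val_one {a b : ℤ} {ℓ : ℕ} (hℓ : ℓ.Prime) (h3 : 3 < ℓ)
    (hab : ¬ (ℓ : ℤ) ∣ a ^ 3 - b ^ 2) {r : ℤ} (hr : (ℓ : ℤ) ∣ dL r 1 a b) :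
    ∃ r' : ℤ, (ℓ : ℤ) ∣ dL r' 1 a b ∧ ¬ (ℓ : ℤ) ^ 2 ∣ dL r' 1 a b := by
  by_cases hr2 : (ℓ : ℤ) ^ 2 ∣ dL r 1 a b
  swap
  · exact ⟨r, hr, hr2⟩
  have hexp : dL (r + ℓ) 1 a b =
      dL r 1 a b + ℓ * (4 * r ^ 3 - 12 * a * r - 8 * b)
        + (ℓ : ℤ) ^ 2 * (6 * r ^ 2 - 6 * a + 4 * r * ℓ + (ℓ : ℤ) ^ 2) := by
    simp only [dL]; ring
  refine ⟨r + ℓ, ?_, fun h => ?_⟩
  · rw [hexp]
    exact ((hr.add (dvd_mul_right _ _)).add ((dvd_pow_self _ two_ne_zero).mul_right _))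
  · rw [hexp] at h
    have h1 : (ℓ : ℤ) ^ 2 ∣ ℓ * (4 * r ^ 3 - 12 * a * r - 8 * b) := by
      rw [add_assoc, dvd_add_right hr2] at h
      exact (dvd_add_left (dvd_mul_right _ _)).1 h
    rw [sq] at h1
    have h2 := Int.dvd_of_mul_dvd_mul_left (by exact_mod_cast hℓ.ne_zero) h1
    have := Fact.mk hℓ
    apply hab
    rw [← dvd_map_iff] at h2 hr ⊢
    rw [← eq_intCast (Int.castRingHom (ZMod ℓ)), map_dL (Int.castRingHom (ZMod ℓ))] at hr
    simp only [eq_intCast, Int.cast_one, dL] at hr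
    push_cast at h2 ⊢
    have h4 : (4 : ZMod ℓ) ≠ 0 := by
      have : ((2 : ℕ) : ZMod ℓ) ≠ 0 := ofNat_ne_zero_zmod two_ne_zero (by omega)
      rw [show (4 : ZMod ℓ) = ((2 : ℕ) : ZMod ℓ) ^ 2 by norm_num]
      exact pow_ne_zero 2 this
    have h3' : (3 : ZMod ℓ) ≠ 0 := by
      exact_mod_cast ofNat_ne_zero_zmod (n := 3) (by norm_num) (by omega)
    have e1 : (r : ZMod ℓ) ^ 3 - 3 * a * r - 2 * b = 0 := by
      refine mul_left_cancel₀ h4 ?_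
      linear_combination h2
    have e2 : (r : ZMod ℓ) ^ 2 - a = 0 := by
      refine (pow_eq_zero_iff two_ne_zero).1 ?_
      refine mul_left_cancel₀ h3' ?_
      linear_combination 4 * r * e1 - hr
    have e3 : (a : ZMod ℓ) = r ^ 2 := by linear_combination -e2
    have h2' : (2 : ZMod ℓ) ≠ 0 := by
      exact_mod_cast ofNat_ne_zero_zmod two_ne_zero (by omega)
    have e4 : (b : ZMod ℓ) = -r ^ 3 := by
      refine mul_left_cancel₀ h2' ?_
      rw [e3] at e1; linear_combination -e1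
    rw [e3, e4]; ring

/-- Some residue of the parameter modulo a large prime has irreducible 2-division cubic. -/
theorem exists_irreducible_residue {a b : ℤ} (hab : a ^ 3 ≠ b ^ 2) (N : ℕ) :
    ∃ ℓ : ℕ, ℓ.Prime ∧ N < ℓ ∧ 3 < ℓ ∧ ¬ (ℓ : ℤ) ∣ a ^ 3 - b ^ 2 ∧ ∃ l₀ m₀ : ℤ,
      ¬ ((ℓ : ℤ) ∣ l₀ ∧ (ℓ : ℤ) ∣ m₀) ∧
        ∀ l m X₀ : ℤ, (ℓ : ℤ) ∣ l - l₀ → (ℓ : ℤ) ∣ m - m₀ →
          ¬ (ℓ : ℤ) ∣ X₀ ^ 3 - 27 * c4L l m a b * X₀ - 54 * c6L l m a b := by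
  have habQ : (a : AlgebraicClosure ℚ) ^ 3 ≠ (b : AlgebraicClosure ℚ) ^ 2 := by exact_mod_cast hab
  obtain ⟨x, y, hx, hy⟩ := exists_hesse_param (k := AlgebraicClosure ℚ)
    two_ne_zero three_ne_zero habQ
  have : Algebra.IsAlgebraic ℚ (AlgebraicClosure ℚ) := AlgebraicClosure.isAlgebraic ℚ
  classical
  let X₀ : MvPolynomial (Fin 2) ℤ := MvPolynomial.X 0
  let X₁ : MvPolynomial (Fin 2) ℤ := MvPolynomial.X 1
  obtain ⟨ℓ, hℓ, hlt, x', y', hS⟩ := exists_prime_point x y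
    {c4U X₀ X₁ - MvPolynomial.C a, c6U X₀ X₁ - MvPolynomial.C b} (fun P hP => by
      rcases Finset.mem_insert.1 hP with rfl | hP
      · simp only [X₀, X₁, c4U, map_sub, map_mul, map_add, map_pow, MvPolynomial.aeval_X,
          MvPolynomial.aeval_C, map_ofNat]
        simp only [c4U] at hx
        simp [hx]
      · rw [Finset.mem_singleton] at hP
        subst hP
        simp only [X₀, X₁, c6U, map_sub, map_mul, map_add, map_pow, map_neg, MvPolynomial.aeval_X,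
          MvPolynomial.aeval_C, map_ofNat]
        simp only [c6U] at hy
        simp [hy])
    (max N (max 3 (a ^ 3 - b ^ 2).natAbs))
  have := Fact.mk hℓ
  have h2 : (2 : ZMod ℓ) ≠ 0 := by
    exact_mod_cast ofNat_ne_zero_zmod two_ne_zero (by omega)
  have h3 : (3 : ZMod ℓ) ≠ 0 := by
    exact_mod_cast ofNat_ne_zero_zmod (n := 3) (by norm_num) (by omega)
  have hnd : ¬ (ℓ : ℤ) ∣ a ^ 3 - b ^ 2 := fun hd => by
    have := Int.natAbs_le_of_dvd_ne_zero hd (sub_ne_zero.2 hab)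
    simp only [Int.natAbs_natCast] at this
    omega
  have hxa : c4U x' y' = (a : ZMod ℓ) := by
    have := hS _ (Finset.mem_insert_self _ _)
    simp only [X₀, X₁, c4U, map_sub, map_mul, map_add, map_pow, MvPolynomial.aeval_X,
      MvPolynomial.aeval_C, map_ofNat, sub_eq_zero] at this
    simpa [c4U] using this
  have hyb : c6U x' y' = (b : ZMod ℓ) := by
    have := hS _ (Finset.mem_insert_of_mem (Finset.mem_singleton_self _))
    simp only [X₀, X₁, c6U, map_sub, map_mul, map_add, map_pow, map_neg, MvPolynomial.aeval_X,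
      MvPolynomial.aeval_C, map_ofNat, sub_eq_zero] at this
    simpa [c6U] using this
  have hu : dU x' y' ≠ 0 := by
    refine dU_ne_zero_of_invariants fun e => hnd ?_
    rw [hxa, hyb] at e
    rw [← dvd_map_iff]; push_cast; linear_combination e
  obtain ⟨e, -, -, hroot⟩ := exists_no_root_param (k := ZMod ℓ) h2 h3
  obtain ⟨l₀, m₀, hl₀, hm₀⟩ := exists_move_eq h2 hu 1 e
  refine ⟨ℓ, hℓ, by omega, by omega, hnd, (l₀.val : ℤ), (m₀.val : ℤ), fun ⟨hl, hm⟩ => ?_,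
    fun l m X₀ hl hm hX => hroot (X₀ : ZMod ℓ) ?_⟩
  · rw [← dvd_map_iff, Int.cast_natCast, ZMod.natCast_zmod_val] at hl hm
    rw [hl, hm] at hl₀
    simp [moveX] at hl₀
  · rw [← dvd_map_iff] at hl hm hX
    push_cast at hl hm
    rw [ZMod.natCast_zmod_val, sub_eq_zero] at hl hm
    rw [← hl₀, ← hm₀, ← c4L_hesse, ← c6L_hesse, hxa, hyb, ← hl, ← hm,
      ← eq_intCast (Int.castRingHom (ZMod ℓ)) l, ← eq_intCast (Int.castRingHom (ZMod ℓ)) m,
      ← eq_intCast (Int.castRingHom (ZMod ℓ)) a, ← eq_intCast (Int.castRingHom (ZMod ℓ)) b,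
      ← map_c4L, ← map_c6L]
    simpa using hX

theorem exists_crt {T S : ℤ} (h : IsCoprime T S) (A B : ℤ) :
    ∃ x, T ∣ x - A ∧ S ∣ x - B := by
  obtain ⟨u, v, huv⟩ := h
  exact ⟨B * u * T + A * v * S, ⟨(B - A) * u, by linear_combination A * huv⟩,
    ⟨(A - B) * v, by linear_combination B * huv⟩⟩

/-- In a residue class one can go arbitrarily far out keeping coprime to a fixed number. -/
theorem exists_coprime_lift {T A : ℤ} (hA : A ≠ 0) (B : ℤ)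
    (h : ∀ p : ℕ, p.Prime → (p : ℤ) ∣ T → ¬ ((p : ℤ) ∣ A ∧ (p : ℤ) ∣ B)) (N : ℕ) :
    ∃ j : ℤ, (N : ℤ) < j ∧ IsCoprime A (B + T * j) := by
  classical
  obtain ⟨q, hq, hqp⟩ := Nat.exists_infinite_primes (max (N + 1) (A.natAbs + 1))
  set S : ℕ := ∏ p ∈ A.natAbs.primeFactors.filter (fun p : ℕ => ¬ ((p : ℤ) ∣ B)), p with hS
  have hS0 : 0 < S := Finset.prod_pos fun p hp =>
    (Nat.prime_of_mem_primeFactors (Finset.mem_filter.1 hp).1).pos
  refine ⟨((S * q : ℕ) : ℤ), ?_, Int.isCoprime_iff_nat_coprime.2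
    (Nat.coprime_of_dvd fun p hp hpA hpB => ?_)⟩
  · have : N < q := by omega
    exact_mod_cast this.trans_le (Nat.le_mul_of_pos_left q hS0)
  · have hpA' : (p : ℤ) ∣ A := Int.natCast_dvd.2 hpA
    have hpB' : (p : ℤ) ∣ B + T * ((S * q : ℕ) : ℤ) := Int.natCast_dvd.2 hpB
    have hmem : p ∈ A.natAbs.primeFactors :=
      Nat.mem_primeFactors.2 ⟨hp, hpA, Int.natAbs_ne_zero.2 hA⟩
    have hpi : Prime (p : ℤ) := Nat.prime_iff_prime_int.1 hp
    by_cases hB : (p : ℤ) ∣ B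
    · have hT : (p : ℤ) ∣ T * ((S * q : ℕ) : ℤ) := (dvd_add_right hB).1 hpB'
      rcases hpi.dvd_or_dvd hT with hT | hSq
      · exact h p hp hT ⟨hpA', hB⟩
      · rcases hp.dvd_mul.1 (Int.natCast_dvd_natCast.1 hSq) with hpS | hpq
        · obtain ⟨p', hp', hdvd⟩ := (hp.prime.dvd_finsetProd_iff _).1 hpS
          obtain ⟨h1, h2⟩ := Finset.mem_filter.1 hp'
          rw [(Nat.prime_dvd_prime_iff_eq hp (Nat.prime_of_mem_primeFactors h1)).1 hdvd] at hB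
          exact h2 hB
        · rw [(Nat.prime_dvd_prime_iff_eq hp hqp).1 hpq] at hpA
          have := Nat.le_of_dvd (Nat.pos_of_ne_zero (Int.natAbs_ne_zero.2 hA)) hpA
          omega
    · refine hB ((dvd_add_left ?_).1 hpB')
      refine (Int.natCast_dvd_natCast.2 (dvd_mul_of_dvd_left ?_ q)).mul_left T
      exact Finset.dvd_prod_of_mem _ (Finset.mem_filter.2 ⟨hmem, hB⟩)

theorem dL_neg_of_large {a b l m : ℤ} (ha : a ≠ 0) (hl : 1 ≤ l)
    (hm : 5 * (1 + |a| + |b|) * l < m) : dL l m a b < 0 := by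
  set K := 1 + |a| + |b| with hK
  have hK1 : 1 ≤ K := by have := abs_nonneg a; have := abs_nonneg b; omega
  have haK : |a| ≤ K := by have := abs_nonneg b; omega
  have hbK : |b| ≤ K := by have := abs_nonneg a; omega
  have hlm : l ≤ m := by nlinarith
  have ha1 : 1 ≤ a ^ 2 := by
    have := sq_pos_of_ne_zero ha
    omega
  have h1 : l ^ 4 ≤ K * l * m ^ 3 := by
    calc l ^ 4 = 1 * l * l ^ 3 := by ring
      _ ≤ K * l * m ^ 3 := by gcongr
  have h2 : -(6 * a * l ^ 2 * m ^ 2) ≤ 6 * (K * l * m ^ 3) := by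
    calc -(6 * a * l ^ 2 * m ^ 2) ≤ 6 * |a| * l ^ 2 * m ^ 2 := by
          have := neg_abs_le a
          nlinarith [mul_nonneg (sq_nonneg l) (sq_nonneg m)]
      _ ≤ 6 * K * l ^ 2 * m ^ 2 := by gcongr
      _ = 6 * K * l * m ^ 2 * l := by ring
      _ ≤ 6 * K * l * m ^ 2 * m := by gcongr
      _ = 6 * (K * l * m ^ 3) := by ring
  have h3 : -(8 * b * l * m ^ 3) ≤ 8 * (K * l * m ^ 3) := by
    have h0 : 0 ≤ l * m ^ 3 := mul_nonneg (by omega) (pow_nonneg (by omega) 3)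
    nlinarith [neg_abs_le b]
  have hlt : K * l * m ^ 3 * 5 < m * m ^ 3 := by
    have : 0 < m ^ 3 := pow_pos (by omega) 3
    nlinarith
  have h4 : m * m ^ 3 ≤ a ^ 2 * m ^ 4 := by
    have : 0 ≤ m ^ 4 := by positivity
    nlinarith
  simp only [dL]
  linarith [h1, h2, h3, h4, hlt]

theorem dL_pos_of_large {a b l m : ℤ} (hm : m ≠ 0)
    (hl : 20 * (1 + |a| + |b|) ^ 2 * |m| < l) : 0 < dL l m a b := by
  set K := 1 + |a| + |b| with hK
  have hK1 : 1 ≤ K := by have := abs_nonneg a; have := abs_nonneg b; omega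
  have hm1 : 1 ≤ |m| := Int.one_le_abs hm
  have haK : |a| ≤ K := by have := abs_nonneg b; omega
  have hbK : |b| ≤ K := by have := abs_nonneg a; omega
  have hml : |m| ≤ l := by nlinarith [pow_le_pow_left₀ zero_le_one hK1 2]
  have hl0 : 0 < l := by omega
  set P := K ^ 2 * |m| * l ^ 3 with hP
  have hKK : K ≤ K ^ 2 := by nlinarith
  have hm2 : m ^ 2 = |m| ^ 2 := (sq_abs m).symm
  have h1 : 6 * a * l ^ 2 * m ^ 2 ≤ 6 * P := by
    calc 6 * a * l ^ 2 * m ^ 2 ≤ 6 * |a| * l ^ 2 * |m| ^ 2 := by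
          rw [hm2]; gcongr; exact le_abs_self a
      _ ≤ 6 * K ^ 2 * l ^ 2 * |m| ^ 2 := by gcongr; omega
      _ = 6 * K ^ 2 * l ^ 2 * |m| * |m| := by ring
      _ ≤ 6 * K ^ 2 * l ^ 2 * |m| * l := by gcongr
      _ = 6 * P := by rw [hP]; ring
  have h2 : 8 * b * l * m ^ 3 ≤ 8 * P := by
    calc 8 * b * l * m ^ 3 ≤ 8 * |b| * l * |m| ^ 3 := by
          refine (le_abs_self _).trans (le_of_eq ?_)
          rw [abs_mul, abs_mul, abs_mul, abs_pow, abs_of_pos hl0]; norm_num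
      _ ≤ 8 * K ^ 2 * l * |m| ^ 3 := by gcongr; omega
      _ = 8 * K ^ 2 * l * |m| * (|m| * |m|) := by ring
      _ ≤ 8 * K ^ 2 * l * |m| * (l * l) := by gcongr
      _ = 8 * P := by rw [hP]; ring
  have h3 : 3 * a ^ 2 * m ^ 4 ≤ 3 * P := by
    calc 3 * a ^ 2 * m ^ 4 = 3 * |a| ^ 2 * |m| * (|m| * |m| * |m|) := by
          rw [sq_abs, show m ^ 4 = |m| ^ 4 by rw [pow_abs, abs_of_nonneg (by positivity)]]; ring
      _ ≤ 3 * K ^ 2 * |m| * (l * l * l) := by gcongr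
      _ = 3 * P := by rw [hP]; ring
  have h4 : 20 * P < l ^ 4 := by
    have : 0 < l ^ 3 := by positivity
    calc 20 * P = (20 * K ^ 2 * |m|) * l ^ 3 := by rw [hP]; ring
      _ < l * l ^ 3 := by gcongr
      _ = l ^ 4 := by ring
  have : 0 ≤ P := by positivity
  simp only [dL]
  linarith

/-- At a parameter on a cusp modulo `q` the 2-division cubic has a root modulo `q`. -/
theorem exists_root_of_dvd_dL {a b l m : ℤ} {q : ℕ} (hq : q.Prime)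
    (h : (q : ℤ) ∣ dL l m a b) :
    ∃ X₀ : ℤ, (q : ℤ) ∣ X₀ ^ 3 - 27 * c4L l m a b * X₀ - 54 * c6L l m a b := by
  have := Fact.mk hq
  have hc : (q : ℤ) ∣ c4L l m a b ^ 3 - c6L l m a b ^ 2 := by
    rw [cube_sub_sq_pencil]; exact (dvd_pow h three_ne_zero).mul_left _
  by_cases h4 : (q : ℤ) ∣ c4L l m a b
  · have hpi : Prime (q : ℤ) := Nat.prime_iff_prime_int.1 hq
    have h6 : (q : ℤ) ∣ c6L l m a b :=
      hpi.dvd_of_dvd_pow ((dvd_sub_right (dvd_pow h4 three_ne_zero)).1 hc)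
    exact ⟨0, by simpa using (h6.mul_left (54 : ℤ)).neg_right⟩
  · obtain ⟨u, v, huv⟩ := ((Nat.prime_iff_prime_int.1 hq).coprime_iff_not_dvd).2 h4
    refine ⟨6 * c6L l m a b * v, ?_⟩
    obtain ⟨w, hw⟩ := hc
    refine ⟨-(216 * c6L l m a b * v ^ 3 * w) - 216 * c6L l m a b * u
      * ((v * c4L l m a b) ^ 2 + v * c4L l m a b + 1) + 162 * c6L l m a b * u, ?_⟩
    linear_combination -(216 * c6L l m a b * v ^ 3) * hw
      + (216 * c6L l m a b * ((v * c4L l m a b) ^ 2 + v * c4L l m a b + 1)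
        - 162 * c6L l m a b) * huv

/-- A residue class, refining a given one, on which everything but the sign holds. -/
theorem exists_class {a b : ℤ} (hab : a ^ 3 ≠ b ^ 2) {T : ℕ} (hT : T ≠ 0) (A B : ℤ)
    (h : ∀ p : ℕ, p.Prime → p ∣ T → ¬ ((p : ℤ) ∣ A ∧ (p : ℤ) ∣ B)) :
    ∃ (T' L M : ℤ) (ℓ : ℕ), 0 < T' ∧ (T : ℤ) ∣ T' ∧ ℓ.Prime ∧ T < ℓ ∧ 3 < ℓ ∧
      ¬ (ℓ : ℤ) ∣ a ^ 3 - b ^ 2 ∧
      (∀ p : ℕ, p.Prime → (p : ℤ) ∣ T' → ∀ l m : ℤ, T' ∣ l - L → T' ∣ m - M →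
        ¬ ((p : ℤ) ∣ l ∧ (p : ℤ) ∣ m)) ∧
      ∀ l m : ℤ, T' ∣ l - L → T' ∣ m - M →
        (T : ℤ) ∣ l - A ∧ (T : ℤ) ∣ m - B ∧
        (∀ X₀ : ℤ, X₀ ^ 3 - 27 * c4L l m a b * X₀ - 54 * c6L l m a b ≠ 0) ∧
        ((ℓ : ℤ) ∣ dL l m a b ∧ ¬ (ℓ : ℤ) ^ 2 ∣ dL l m a b) ∧
        ∀ p : ℕ, p.Prime → (p : ℤ) ∣ T' → ¬ p ∣ T → ¬ (p : ℤ) ^ 2 ∣ dL l m a b := by
  obtain ⟨ℓ₁, hℓ₁, hT₁, -, -, l₀, m₀, hnd₁, hirr⟩ := exists_irreducible_residue hab T
  set D : Polynomial ℤ := Polynomial.X ^ 4 + Polynomial.C (-6 * a) * Polynomial.X ^ 2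
    + Polynomial.C (-8 * b) * Polynomial.X + Polynomial.C (-3 * a ^ 2) with hD
  obtain ⟨ℓ, hℓ, hlt, r₀, hr₀⟩ := exists_prime_root D
    (by rw [show D.natDegree = 4 by rw [hD]; compute_degree!]; norm_num)
    (max ℓ₁ (max 3 (a ^ 3 - b ^ 2).natAbs))
  have hr₀' : (ℓ : ℤ) ∣ dL r₀ 1 a b := by
    convert hr₀ using 1
    simp only [hD, dL, Polynomial.eval_add, Polynomial.eval_mul, Polynomial.eval_pow,
      Polynomial.eval_X, Polynomial.eval_C]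
    ring
  have hndℓ : ¬ (ℓ : ℤ) ∣ a ^ 3 - b ^ 2 := fun hd => by
    have := Int.natAbs_le_of_dvd_ne_zero hd (sub_ne_zero.2 hab)
    simp only [Int.natAbs_natCast] at this
    omega
  obtain ⟨r, hr, hr2⟩ := exists_val_one hℓ (by omega) hndℓ hr₀'
  have hc1 : IsCoprime ((T : ℤ) * ℓ₁) ((ℓ : ℤ) ^ 2) := by
    refine IsCoprime.pow_right (IsCoprime.mul_left ?_ ?_) <;>
      rw [Int.isCoprime_iff_nat_coprime, Int.natAbs_natCast, Int.natAbs_natCast] <;>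
      refine ((hℓ.coprime_iff_not_dvd).2 fun hd => ?_).symm
    · have := Nat.le_of_dvd (Nat.pos_of_ne_zero hT) hd
      omega
    · have := Nat.le_of_dvd hℓ₁.pos hd
      omega
  have hc0 : IsCoprime (T : ℤ) (ℓ₁ : ℤ) := by
    rw [Int.isCoprime_iff_nat_coprime, Int.natAbs_natCast, Int.natAbs_natCast]
    refine ((hℓ₁.coprime_iff_not_dvd).2 fun hd => ?_).symm
    have := Nat.le_of_dvd (Nat.pos_of_ne_zero hT) hd
    omega
  obtain ⟨L₁, hL₁, hL₁'⟩ := exists_crt hc0 A l₀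
  obtain ⟨M₁, hM₁, hM₁'⟩ := exists_crt hc0 B m₀
  obtain ⟨L, hL, hL'⟩ := exists_crt hc1 L₁ r
  obtain ⟨M, hM, hM'⟩ := exists_crt hc1 M₁ 1
  set T' : ℤ := (T : ℤ) * ℓ₁ * (ℓ : ℤ) ^ 2 with hT'
  have hT'0 : 0 < T' := by
    have := Nat.pos_of_ne_zero hT; have := hℓ₁.pos; have := hℓ.pos
    positivity
  have good : ∀ p : ℕ, p.Prime → (p : ℤ) ∣ T' → ∀ l m : ℤ, T' ∣ l - L → T' ∣ m - M →
      ¬ ((p : ℤ) ∣ l ∧ (p : ℤ) ∣ m) := by
    intro p hp hpT l m hl hm ⟨hpl, hpm⟩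
    have hpi : Prime (p : ℤ) := Nat.prime_iff_prime_int.1 hp
    have hpL : (p : ℤ) ∣ L := by simpa using hpl.sub (hpT.trans hl)
    have hpM : (p : ℤ) ∣ M := by simpa using hpm.sub (hpT.trans hm)
    rcases hpi.dvd_or_dvd hpT with h12 | hℓ'
    · have hpL₁ : (p : ℤ) ∣ L₁ := by simpa using hpL.sub (h12.trans hL)
      have hpM₁ : (p : ℤ) ∣ M₁ := by simpa using hpM.sub (h12.trans hM)
      rcases hpi.dvd_or_dvd h12 with h1 | h2
      · exact h p hp (Int.natCast_dvd_natCast.1 h1)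
          ⟨by simpa using hpL₁.sub (h1.trans hL₁), by simpa using hpM₁.sub (h1.trans hM₁)⟩
      · obtain rfl := (Nat.prime_dvd_prime_iff_eq hp hℓ₁).1 (Int.natCast_dvd_natCast.1 h2)
        exact hnd₁ ⟨by simpa using hpL₁.sub hL₁', by simpa using hpM₁.sub hM₁'⟩
    · have := hpM.sub (hℓ'.trans hM')
      rw [sub_sub_cancel] at this
      exact hp.one_lt.ne' (by exact_mod_cast Int.eq_one_of_dvd_one (by positivity) this)
  refine ⟨T', L, M, ℓ, hT'0, (dvd_mul_right _ _).mul_right _, hℓ, by omega, by omega, hndℓ, good,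
    fun l m hl hm => ?_⟩
  have d12 : (T : ℤ) * ℓ₁ ∣ T' := dvd_mul_right _ _
  have d2 : (ℓ : ℤ) ^ 2 ∣ T' := dvd_mul_left _ _
  have hlT : (T : ℤ) * ℓ₁ ∣ l - L₁ := by simpa using (d12.trans hl).add hL
  have hmT : (T : ℤ) * ℓ₁ ∣ m - M₁ := by simpa using (d12.trans hm).add hM
  suffices hmain : (ℓ : ℤ) ∣ dL l m a b ∧ ¬ (ℓ : ℤ) ^ 2 ∣ dL l m a b by
    refine ⟨?_, ?_, fun X₀ hX => hirr l m X₀ ?_ ?_ (by rw [hX]; exact dvd_zero _), hmain,
      fun p hp hpT' hpT hp2 => ?_⟩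
    · simpa using ((dvd_mul_right (T : ℤ) _).trans hlT).add hL₁
    · simpa using ((dvd_mul_right (T : ℤ) _).trans hmT).add hM₁
    · simpa using ((dvd_mul_left (ℓ₁ : ℤ) _).trans hlT).add hL₁'
    · simpa using ((dvd_mul_left (ℓ₁ : ℤ) _).trans hmT).add hM₁'
    · have hpi : Prime (p : ℤ) := Nat.prime_iff_prime_int.1 hp
      rcases hpi.dvd_or_dvd hpT' with h12 | h
      · rcases hpi.dvd_or_dvd h12 with h1 | h2
        · exact hpT (Int.natCast_dvd_natCast.1 h1)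
        · obtain rfl := (Nat.prime_dvd_prime_iff_eq hp hℓ₁).1 (Int.natCast_dvd_natCast.1 h2)
          obtain ⟨X₀, hX₀⟩ := exists_root_of_dvd_dL hp (a := a) (b := b) (l := l) (m := m)
            ((dvd_pow_self _ two_ne_zero).trans hp2)
          exact hirr l m X₀ (by simpa using ((dvd_mul_left (p : ℤ) _).trans hlT).add hL₁')
            (by simpa using ((dvd_mul_left (p : ℤ) _).trans hmT).add hM₁') hX₀
      · obtain rfl := (Nat.prime_dvd_prime_iff_eq hp hℓ).1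
          (Int.natCast_dvd_natCast.1 (hpi.dvd_of_dvd_pow h))
        exact hmain.2 hp2
  have el : (ℓ : ℤ) ^ 2 ∣ l - r := by simpa using (d2.trans hl).add hL'
  have em : (ℓ : ℤ) ^ 2 ∣ m - 1 := by simpa using (d2.trans hm).add hM'
  obtain ⟨u, hu⟩ := el
  obtain ⟨v, hv⟩ := em
  have key : (ℓ : ℤ) ^ 2 ∣ dL l m a b - dL r 1 a b := by
    refine ⟨u * ((l + r) * (l ^ 2 + r ^ 2) - 6 * a * (l + r) * m ^ 2 - 8 * b * m ^ 3)
      + v * (-6 * a * r ^ 2 * (m + 1) - 8 * b * r * (m ^ 2 + m + 1)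
        - 3 * a ^ 2 * (m + 1) * (m ^ 2 + 1)), ?_⟩
    simp only [dL]
    linear_combination
      ((l + r) * (l ^ 2 + r ^ 2) - 6 * a * (l + r) * m ^ 2 - 8 * b * m ^ 3) * hu
      + (-6 * a * r ^ 2 * (m + 1) - 8 * b * r * (m ^ 2 + m + 1)
        - 3 * a ^ 2 * (m + 1) * (m ^ 2 + 1)) * hv
  constructor
  · simpa using (((dvd_pow_self _ two_ne_zero).trans key).add hr)
  · exact fun hd => hr2 (by simpa using hd.sub key)

/-- All conditions on the parameter at once. -/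
theorem exists_param {a b : ℤ} (hab : a ^ 3 ≠ b ^ 2) {T : ℕ} (hT : T ≠ 0) (A B : ℤ)
    (h : ∀ p : ℕ, p.Prime → p ∣ T → ¬ ((p : ℤ) ∣ A ∧ (p : ℤ) ∣ B)) :
    ∃ l m : ℤ, IsCoprime l m ∧ (T : ℤ) ∣ l - A ∧ (T : ℤ) ∣ m - B ∧
      (a ^ 3 - b ^ 2) * dL l m a b < 0 ∧
      (∀ X₀ : ℤ, X₀ ^ 3 - 27 * c4L l m a b * X₀ - 54 * c6L l m a b ≠ 0) ∧
      ∃ ℓ : ℕ, ℓ.Prime ∧ T < ℓ ∧ 3 < ℓ ∧ ¬ (ℓ : ℤ) ∣ a ^ 3 - b ^ 2 ∧
        (ℓ : ℤ) ∣ dL l m a b ∧ ¬ (ℓ : ℤ) ^ 2 ∣ dL l m a b := by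
  obtain ⟨T', L, M, ℓ, hT'0, -, hℓ, hTℓ, h3ℓ, hndℓ, good, hprop⟩ := exists_class hab hT A B h
  obtain ⟨l, m, hl, hm, hco, hsign⟩ : ∃ l m : ℤ, T' ∣ l - L ∧ T' ∣ m - M ∧ IsCoprime l m ∧
      (a ^ 3 - b ^ 2) * dL l m a b < 0 := by
    set K := 1 + |a| + |b| with hK
    rcases lt_trichotomy (a ^ 3 - b ^ 2) 0 with hneg | h0 | hpos
    · set m := M + T' * (|M| + 1) with hm
      have hm0 : 0 < m := by
        have := neg_abs_le M; have := abs_nonneg M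
        nlinarith
      obtain ⟨j, hj, hco⟩ := exists_coprime_lift hm0.ne' L
        (fun p hp hpT hd => good p hp hpT L m (by simp) ⟨|M| + 1, by rw [hm]; ring⟩ ⟨hd.2, hd.1⟩)
        (20 * K ^ 2 * m + |L|).natAbs
      refine ⟨L + T' * j, m, ⟨j, by ring⟩, ⟨|M| + 1, by rw [hm]; ring⟩, hco.symm,
        mul_neg_of_neg_of_pos hneg (dL_pos_of_large hm0.ne' ?_)⟩
      rw [abs_of_pos hm0]
      have h1 : (20 * K ^ 2 * m + |L|) < j :=
        lt_of_le_of_lt (Int.le_natAbs) hj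
      have hj0 : 0 ≤ j := le_trans (Int.natCast_nonneg _) hj.le
      have := neg_abs_le L
      nlinarith
    · exact absurd (sub_eq_zero.1 h0) hab
    · have ha : a ≠ 0 := fun ha => by rw [ha] at hpos; nlinarith
      set l := L + T' * (|L| + 1) with hl
      have hl0 : 0 < l := by
        have := neg_abs_le L; have := abs_nonneg L
        nlinarith
      obtain ⟨j, hj, hco⟩ := exists_coprime_lift hl0.ne' M
        (fun p hp hpT hd => good p hp hpT l M ⟨|L| + 1, by rw [hl]; ring⟩ (by simp) hd)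
        (5 * K * l + |M|).natAbs
      refine ⟨l, M + T' * j, ⟨|L| + 1, by rw [hl]; ring⟩, ⟨j, by ring⟩, hco,
        mul_neg_of_pos_of_neg hpos (dL_neg_of_large ha (by omega) ?_)⟩
      have h1 : (5 * K * l + |M|) < j := lt_of_le_of_lt (Int.le_natAbs) hj
      have := neg_abs_le M
      nlinarith
  obtain ⟨h1, h2, h3, h4, -⟩ := hprop l m hl hm
  exact ⟨l, m, hco, h1, h2, hsign, h3, ℓ, hℓ, hTℓ, h3ℓ, hndℓ, h4⟩

end Fermat.Agent.SwitchThree
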