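import Mathlib
import Fermat.Agent.SwitchThree.Param

/-!
# Squarefree values of the cusp form of the pencil

In a residue class prime to its modulus the quartic `dL · · a b` takes, at coprime parameters,
values divisible by no square of a prime outside the modulus. Elementary: small primes are counted
in a box, a large prime leaves at most one primitive point per root, and `π(x) = o(x)`.

Main result: `eventually_exists_squarefree`.
-/

set_option autoImplicit false

open Filter Topology Nat.Prime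

namespace Fermat.Agent.SwitchThree

/-- The derivative of `dL · 1`. -/
def dDer {R : Type*} [CommRing R] (r a b : R) : R := 4 * r ^ 3 - 12 * a * r - 8 * b

theorem dL_one_add (r h a b : ℤ) : dL (r + h) 1 a b =
    dL r 1 a b + h * (dDer r a b + h * (6 * r ^ 2 - 6 * a + 4 * r * h + h ^ 2)) := by
  simp only [dL, dDer]; ring

/-- Away from `6 (a³ - b²)` the roots of `dL · 1` are simple. -/
theorem dDer_ne_zero_of_root {k : Type*} [Field k] (h2 : (2 : k) ≠ 0) (h3 : (3 : k) ≠ 0)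
    {a b r : k} (hab : a ^ 3 ≠ b ^ 2) (hr : dL r 1 a b = 0) : dDer r a b ≠ 0 := by
  intro hd
  simp only [dL, dDer] at hr hd
  have h4 : (4 : k) ≠ 0 := by
    rw [show (4 : k) = 2 ^ 2 by norm_num]; exact pow_ne_zero 2 h2
  have e1 : r ^ 3 = 3 * a * r + 2 * b := by
    refine mul_left_cancel₀ h4 ?_
    linear_combination hd
  have e2 : a * r ^ 2 + 2 * b * r + a ^ 2 = 0 := by
    refine mul_left_cancel₀ h3 ?_
    linear_combination -hr + r * e1
  by_cases ha : a = 0
  · subst ha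
    have hb : b ≠ 0 := fun h => hab (by rw [h]; ring)
    have hr0 : r = 0 := (mul_eq_zero.1 (show (2 * b) * r = 0 by linear_combination e2)).resolve_left
      (mul_ne_zero h2 hb)
    subst hr0
    exact mul_ne_zero h2 hb (by linear_combination -e1)
  · have e3 : b * r ^ 2 + 2 * a ^ 2 * r + a * b = 0 := by
      refine mul_left_cancel₀ h2 ?_
      linear_combination r * e2 - a * e1
    have e4 : 2 * (a ^ 3 - b ^ 2) * r = 0 := by linear_combination a * e3 - b * e2
    have hr0 : r = 0 := (mul_eq_zero.1 e4).resolve_left (mul_ne_zero h2 (sub_ne_zero.2 hab))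
    subst hr0
    exact ha ((pow_eq_zero_iff two_ne_zero).1 (by linear_combination e2))

/-- At most four classes modulo `p²` contain the ratios `l/m` with `p² ∣ dL l m a b`. -/
theorem exists_roots_sq {a b : ℤ} {p : ℕ} (hp : p.Prime) (h3 : 3 < p)
    (hab : ¬ (p : ℤ) ∣ a ^ 3 - b ^ 2) :
    ∃ R : Finset ℤ, R.card ≤ 4 ∧ ∀ l m : ℤ, IsCoprime l m → ((p : ℤ) ^ 2) ∣ dL l m a b →
      ¬ (p : ℤ) ∣ m ∧ ∃ r ∈ R, ((p : ℤ) ^ 2) ∣ l - r * m := by
  classical
  have := Fact.mk hp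
  have hpi : Prime (p : ℤ) := Nat.prime_iff_prime_int.1 hp
  let f : Polynomial (ZMod p) := Polynomial.X ^ 4 + Polynomial.C (-6 * (a : ZMod p))
    * Polynomial.X ^ 2 + Polynomial.C (-8 * (b : ZMod p)) * Polynomial.X
    + Polynomial.C (-3 * (a : ZMod p) ^ 2)
  have hf : f.natDegree = 4 := by simp only [f]; compute_degree!
  have hf0 : f ≠ 0 := fun h => by rw [h] at hf; simp at hf
  let lift : ZMod p → ℤ := fun z =>
    if h : ∃ r : ℤ, (r : ZMod p) = z ∧ ((p : ℤ) ^ 2) ∣ dL r 1 a b then h.choose else 0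
  refine ⟨f.roots.toFinset.image lift, Finset.card_image_le.trans ?_, fun l m hlm hd => ?_⟩
  · exact (Multiset.toFinset_card_le _).trans ((Polynomial.card_roots' f).trans hf.le)
  have hm : ¬ (p : ℤ) ∣ m := by
    intro hm
    have hpd : (p : ℤ) ∣ dL l m a b := (dvd_pow_self _ two_ne_zero).trans hd
    have hl : (p : ℤ) ∣ l ^ 4 := by
      have e : l ^ 4 = dL l m a b + m * (6 * a * l ^ 2 * m + 8 * b * l * m ^ 2
          + 3 * a ^ 2 * m ^ 3) := by simp only [dL]; ring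
      rw [e]; exact hpd.add (hm.mul_right _)
    exact hpi.not_isUnit (hlm.isUnit_of_dvd' (hpi.dvd_of_dvd_pow hl) hm)
  refine ⟨hm, ?_⟩
  obtain ⟨u, v, huv⟩ : IsCoprime ((p : ℤ) ^ 2) m :=
    ((hpi.coprime_iff_not_dvd).2 hm).pow_left
  -- `l v` is the ratio modulo `p²`
  have hr : ((p : ℤ) ^ 2) ∣ dL (l * v) 1 a b := by
    have e : dL (l * v) 1 a b * m ^ 4 = dL (l * (v * m)) m a b := by simp only [dL]; ring
    have hlv : ((p : ℤ) ^ 2) ∣ dL (l * (v * m)) m a b := by
      have e1 : l * (v * m) = l + (p : ℤ) ^ 2 * (-(l * u)) := by linear_combination l * huv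
      have e2 : ∀ h : ℤ, ∃ g : ℤ, dL (l + h) m a b = dL l m a b + h * g := fun h =>
        ⟨4 * l ^ 3 + 6 * l ^ 2 * h + 4 * l * h ^ 2 + h ^ 3 - 6 * a * m ^ 2 * (2 * l + h)
          - 8 * b * m ^ 3, by simp only [dL]; ring⟩
      obtain ⟨g, hg⟩ := e2 ((p : ℤ) ^ 2 * (-(l * u)))
      rw [e1, hg]
      exact hd.add ((dvd_mul_right _ _).mul_right _)
    rw [← e] at hlv
    exact ((hpi.coprime_iff_not_dvd).2 hm).pow.dvd_of_dvd_mul_right hlv
  have hroot : ((l * v : ℤ) : ZMod p) ∈ f.roots.toFinset := by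
    rw [Multiset.mem_toFinset, Polynomial.mem_roots hf0, Polynomial.IsRoot.def]
    have h0 : ((dL (l * v) 1 a b : ℤ) : ZMod p) = 0 :=
      (ZMod.intCast_zmod_eq_zero_iff_dvd _ p).2 ((dvd_pow_self _ two_ne_zero).trans hr)
    simp only [dL] at h0
    push_cast at h0
    simp [f]
    linear_combination h0
  refine ⟨lift _, Finset.mem_image_of_mem lift hroot, ?_⟩
  have hex : ∃ r : ℤ, (r : ZMod p) = ((l * v : ℤ) : ZMod p) ∧ ((p : ℤ) ^ 2) ∣ dL r 1 a b :=
    ⟨l * v, rfl, hr⟩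
  simp only [lift, dif_pos hex]
  obtain ⟨hc1, hc2⟩ := hex.choose_spec
  set r := hex.choose
  -- the simple root lifts uniquely
  obtain ⟨h, hh⟩ : (p : ℤ) ∣ l * v - r := by
    rw [← ZMod.intCast_zmod_eq_zero_iff_dvd, Int.cast_sub, hc1, sub_self]
  have hph : (p : ℤ) ∣ h := by
    have e := dL_one_add r ((p : ℤ) * h) a b
    rw [← hh, add_sub_cancel] at e
    rw [hh] at e
    have h1 : (p : ℤ) ^ 2 ∣ (p : ℤ) * h * (dDer r a b
        + (p : ℤ) * h * (6 * r ^ 2 - 6 * a + 4 * r * ((p : ℤ) * h) + ((p : ℤ) * h) ^ 2)) := by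
      rw [e] at hr; exact (dvd_add_right hc2).1 hr
    rw [sq, mul_assoc] at h1
    rcases hpi.dvd_or_dvd (Int.dvd_of_mul_dvd_mul_left hpi.ne_zero h1) with h2 | h2
    · exact h2
    · exfalso
      rw [dvd_add_left ((dvd_mul_right _ _).mul_right _)] at h2
      have k2 : (2 : ZMod p) ≠ 0 := by
        exact_mod_cast ofNat_ne_zero_zmod two_ne_zero (by omega)
      have k3 : (3 : ZMod p) ≠ 0 := by
        exact_mod_cast ofNat_ne_zero_zmod (n := 3) (by norm_num) (by omega)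
      refine dDer_ne_zero_of_root k2 k3 (a := (a : ZMod p)) (b := b) (r := r) ?_ ?_ ?_
      · rw [← sub_ne_zero]
        intro h0
        exact hab ((ZMod.intCast_zmod_eq_zero_iff_dvd _ p).1 (by push_cast; exact h0))
      · have h0 := (ZMod.intCast_zmod_eq_zero_iff_dvd _ p).2
          ((dvd_pow_self _ two_ne_zero).trans hc2)
        rw [← eq_intCast (Int.castRingHom (ZMod p)), map_dL] at h0
        simpa using h0
      · have h0 := (ZMod.intCast_zmod_eq_zero_iff_dvd _ p).2 h2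
        simpa [dDer] using h0
  obtain ⟨h', rfl⟩ := hph
  refine ⟨h' * m + l * u, ?_⟩
  linear_combination m * hh - l * huv

/-- An interval of length `N` has at most `N / q + 1` solutions of `q ∣ T i + c`, `(q, T) = 1`. -/
theorem card_filter_dvd_le {q : ℕ} (hq : 0 < q) {T : ℤ} (hT : IsCoprime (q : ℤ) T) (c : ℤ)
    (N : ℕ) :
    ((Finset.range N).filter (fun i : ℕ => (q : ℤ) ∣ T * i + c)).card ≤ N / q + 1 := by
  refine le_of_le_of_eq (Finset.card_le_card_of_injOn (t := Finset.range (N / q + 1))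
    (fun i => i / q) (fun i hi => ?_) (fun i hi j hj hij => ?_)) (Finset.card_range _)
  · rw [Finset.mem_coe, Finset.mem_filter, Finset.mem_range] at hi
    rw [Finset.mem_coe, Finset.mem_range]
    exact Nat.lt_succ_of_le (Nat.div_le_div_right hi.1.le)
  · rw [Finset.mem_coe, Finset.mem_filter] at hi hj
    have h := hT.dvd_of_dvd_mul_left (show (q : ℤ) ∣ T * ((i : ℤ) - j) by
      have := hi.2.sub hj.2; rwa [show T * ((i : ℤ) - j) = T * i + c - (T * j + c) by ring])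
    obtain ⟨t, ht⟩ := h
    have hij' : i / q = j / q := hij
    have ei := Nat.div_add_mod i q
    have ej := Nat.div_add_mod j q
    have h1 := Nat.mod_lt i hq
    have h2 := Nat.mod_lt j hq
    have : (q : ℤ) * t = ((i % q : ℕ) : ℤ) - ((j % q : ℕ) : ℤ) := by
      rw [← ht]; conv_lhs => rw [← ei, ← ej, hij']
      push_cast; ring
    have ht1 : t < 1 := by
      by_contra! h0
      have : (q : ℤ) ≤ (q : ℤ) * t := le_mul_of_one_le_right (by positivity) h0
      omega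
    have ht2 : -1 < t := by
      by_contra! h0
      have : (q : ℤ) * t ≤ -(q : ℤ) := by
        have := mul_le_mul_of_nonneg_left h0 (show (0 : ℤ) ≤ q by positivity)
        linarith
      omega
    have ht0 : t = 0 := by omega
    rw [ht0, mul_zero] at ht
    omega

/-- Telescoping: the squares of the odd numbers `≥ 5` have reciprocal sum at most `1/8`. -/
theorem sum_inv_sq_le {s : Finset ℕ} (hs : ∀ p ∈ s, Odd p ∧ 5 ≤ p) :
    ∑ p ∈ s, (1 : ℝ) / (p : ℝ) ^ 2 ≤ 1 / 8 := by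
  classical
  obtain ⟨M, hM⟩ : ∃ M, ∀ p ∈ s, p ≤ 2 * M + 1 := ⟨s.sup id, fun p hp => by
    have := Finset.le_sup (f := id) hp; simp only [id_eq] at this; omega⟩
  have hsub : s ⊆ (Finset.Icc 2 (max M 2)).image (fun t => 2 * t + 1) := by
    intro p hp
    obtain ⟨⟨t, rfl⟩, h5⟩ := hs p hp
    exact Finset.mem_image.2 ⟨t, Finset.mem_Icc.2 ⟨by omega,
      le_max_of_le_left (by have := hM _ hp; omega)⟩, rfl⟩
  refine (Finset.sum_le_sum_of_subset_of_nonneg hsub (fun _ _ _ => by positivity)).trans ?_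
  rw [Finset.sum_image (fun x _ y _ h => by simpa using h)]
  have h : ∀ t ∈ Finset.Icc 2 (max M 2), (1 : ℝ) / ((2 * t + 1 : ℕ) : ℝ) ^ 2
      ≤ (1 / 4) * (1 / (t : ℝ) - 1 / ((t : ℝ) + 1)) := by
    intro t ht
    have ht' : (0 : ℝ) < t := by exact_mod_cast (Finset.mem_Icc.1 ht).1.trans_lt' two_pos
    rw [div_sub_div _ _ ht'.ne' (by positivity), div_mul_div_comm,
      div_le_div_iff₀ (by positivity) (by positivity)]
    push_cast
    nlinarith
  refine (Finset.sum_le_sum h).trans ?_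
  rw [← Finset.mul_sum]
  have e : ∀ n : ℕ, 2 ≤ n → ∑ t ∈ Finset.Icc 2 n, (1 / (t : ℝ) - 1 / ((t : ℝ) + 1))
      = 1 / 2 - 1 / ((n : ℝ) + 1) := by
    intro n hn
    induction n, hn using Nat.le_induction with
    | base => norm_num
    | succ n hn ih => rw [Finset.sum_Icc_succ_top (by omega), ih]; push_cast; ring
  rw [e _ (le_max_right _ _)]
  have : (0 : ℝ) ≤ 1 / ((max M 2 : ℕ) + 1 : ℝ) := by positivity
  linarith

/-- `π(C g) ≤ ε g` for large `g`. -/
theorem eventually_card_primesLE_le {g : ℕ → ℕ} (hg : Tendsto g atTop atTop) (C : ℕ) {ε : ℝ}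
    (hε : 0 < ε) : ∀ᶠ N in atTop, ((Nat.primesLE (C * g N)).card : ℝ) ≤ ε * (g N : ℝ) := by
  set D : ℕ := C + 1 with hD
  obtain ⟨x₀, hx₀⟩ := Filter.eventually_atTop.1
    ((Chebyshev.eventually_primeCounting_le one_pos).and
      (Real.tendsto_log_atTop.eventually_ge_atTop (((Real.log 4 + 1) * D) / ε)))
  filter_upwards [hg.eventually_ge_atTop (max 2 ⌈x₀⌉₊)] with N hN
  have hg2 : 2 ≤ g N := le_of_max_le_left hN
  set x : ℝ := ((D * g N : ℕ) : ℝ) with hx
  have hgx : (g N : ℝ) ≤ x := by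
    rw [hx]; exact_mod_cast Nat.le_mul_of_pos_left _ (by omega)
  have hxx₀ : x₀ ≤ x := (Nat.le_ceil x₀).trans
    ((by exact_mod_cast le_of_max_le_right hN : (⌈x₀⌉₊ : ℝ) ≤ g N).trans hgx)
  obtain ⟨h1, h2⟩ := hx₀ x hxx₀
  have hfl : ⌊x⌋₊ = D * g N := Nat.floor_natCast _
  rw [hfl, ← Nat.primesLE_card_eq_primeCounting] at h1
  have hlog : 0 < Real.log x := Real.log_pos (by
    have : (2 : ℝ) ≤ g N := by exact_mod_cast hg2
    linarith)
  have hcard : ((Nat.primesLE (C * g N)).card : ℝ) ≤ ((Nat.primesLE (D * g N)).card : ℝ) := by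
    refine Nat.cast_le.2 ?_
    rw [Nat.primesLE_card_eq_primeCounting, Nat.primesLE_card_eq_primeCounting]
    exact Nat.monotone_primeCounting (Nat.mul_le_mul_right _ (by omega))
  refine (hcard.trans h1).trans ?_
  rw [div_le_iff₀ hlog]
  rw [div_le_iff₀ hε] at h2
  have e : x = (D : ℝ) * g N := by rw [hx]; push_cast; ring
  have := mul_le_mul_of_nonneg_left h2 (Nat.cast_nonneg (g N) : (0 : ℝ) ≤ g N)
  calc (Real.log 4 + 1) * x = (g N : ℝ) * ((Real.log 4 + 1) * D) := by rw [e]; ring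
    _ ≤ (g N : ℝ) * (Real.log x * ε) := this
    _ = ε * g N * Real.log x := by ring

variable {a b : ℤ} {T : ℕ}

/-- The sieve: in every large box of a class prime to `T` some coprime parameter gives a value with
no square factor outside `T`. -/
theorem eventually_exists_squarefree (hT : T ≠ 0) (h6 : 6 ∣ T)
    (hdisc : ∀ p : ℕ, p.Prime → (p : ℤ) ∣ a ^ 3 - b ^ 2 → p ∣ T)
    (l₀ m₀ : ℕ) (hl₀ : l₀ < T) (hm₀ : m₀ < T)
    (hcop : ∀ p : ℕ, p.Prime → p ∣ T → ¬ (p ∣ l₀ ∧ p ∣ m₀))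
    (u v : ℕ) (hu : 1 ≤ u) (hv : 1 ≤ v)
    (hne : ∀ N i k : ℕ, 1 ≤ N → i < N → k < N →
      dL ((l₀ + T * (u * N + i) : ℕ) : ℤ) ((m₀ + T * (v * N + k) : ℕ) : ℤ) a b ≠ 0) :
    ∀ᶠ N : ℕ in atTop, ∃ i k : ℕ, i < N ∧ k < N ∧
      IsCoprime ((l₀ + T * (u * N + i) : ℕ) : ℤ) ((m₀ + T * (v * N + k) : ℕ) : ℤ) ∧
      ∀ p : ℕ, p.Prime → ¬ p ∣ T → ¬ ((p : ℤ) ^ 2) ∣
        dL ((l₀ + T * (u * N + i) : ℕ) : ℤ) ((m₀ + T * (v * N + k) : ℕ) : ℤ) a b := by
  classical
  have hT1 : 0 < T := Nat.pos_of_ne_zero hT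
  set C : ℕ := T * (u + v + 2) with hC
  set D : ℕ := (1 + 6 * a.natAbs + 8 * b.natAbs + 3 * a.natAbs ^ 2) * C ^ 4 with hD
  have h5 : ∀ p : ℕ, p.Prime → ¬ p ∣ T → 5 ≤ p ∧ Odd p := by
    intro p hp hpT
    have h2 : p ≠ 2 := fun h => hpT (h ▸ (Dvd.dvd.trans (by norm_num) h6))
    have h3 : p ≠ 3 := fun h => hpT (h ▸ (Dvd.dvd.trans (by norm_num) h6))
    have h4 : p ≠ 4 := fun h => by subst h; norm_num at hp
    exact ⟨by have := hp.two_le; omega, hp.odd_of_ne_two h2⟩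
  have g1 : Tendsto (fun N : ℕ => N) atTop atTop := tendsto_id
  have g2 : Tendsto (fun N : ℕ => N ^ 2) atTop atTop :=
    tendsto_pow_atTop two_ne_zero
  filter_upwards [eventually_ge_atTop 1,
    eventually_card_primesLE_le g1 C (by norm_num : (0 : ℝ) < 1 / 100),
    eventually_card_primesLE_le g1 (2 * C) (by norm_num : (0 : ℝ) < 1 / 100),
    eventually_card_primesLE_le g2 D (by norm_num : (0 : ℝ) < 1 / 100)] with N hN hπ1 hπ2 hπ3
  set L : ℕ → ℕ := fun i => l₀ + T * (u * N + i) with hL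
  set M : ℕ → ℕ := fun k => m₀ + T * (v * N + k) with hM
  have hLC : ∀ i < N, L i < C * N ∧ 0 < L i := by
    intro i hi
    refine ⟨?_, ?_⟩
    · calc L i < T + T * (u * N + i) := by rw [hL]; simp only; omega
        _ ≤ T * N + T * (u * N + N) := by
            gcongr; exact Nat.le_mul_of_pos_right _ hN
        _ ≤ C * N := by rw [hC]; ring_nf; omega
    · have : 1 ≤ u * N := Nat.one_le_iff_ne_zero.2 (Nat.mul_ne_zero (by omega) (by omega))
      have : 0 < T * (u * N + i) := Nat.mul_pos hT1 (by omega)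
      rw [hL]; simp only; omega
  have hMC : ∀ k < N, M k < C * N ∧ 0 < M k := by
    intro k hk
    refine ⟨?_, ?_⟩
    · calc M k < T + T * (v * N + k) := by rw [hM]; simp only; omega
        _ ≤ T * N + T * (v * N + N) := by
            gcongr; exact Nat.le_mul_of_pos_right _ hN
        _ ≤ C * N := by rw [hC]; ring_nf; omega
    · have : 1 ≤ v * N := Nat.one_le_iff_ne_zero.2 (Nat.mul_ne_zero (by omega) (by omega))
      have : 0 < T * (v * N + k) := Nat.mul_pos hT1 (by omega)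
      rw [hM]; simp only; omega
  set box := Finset.range N ×ˢ Finset.range N with hbox
  set P : ℕ → Finset ℕ := fun x => (Nat.primesLE x).filter (fun p => ¬ p ∣ T) with hP
  have hmemP : ∀ x p, p ∈ P x ↔ p ≤ x ∧ p.Prime ∧ ¬ p ∣ T := by
    intro x p
    simp only [hP, Finset.mem_filter, Nat.mem_primesLE, and_assoc]
  clear_value P C D
  set G : ℕ → Finset (ℕ × ℕ) := fun p => box.filter (fun x => p ∣ L x.1 ∧ p ∣ M x.2) with hG
  set Q : ℕ → Finset (ℕ × ℕ) := fun p => box.filter (fun x =>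
    IsCoprime (L x.1 : ℤ) (M x.2) ∧ ((p : ℤ) ^ 2) ∣ dL (L x.1 : ℤ) (M x.2) a b) with hQ
  have hcopT : ∀ p : ℕ, p.Prime → ¬ p ∣ T → ∀ n, IsCoprime ((p ^ n : ℕ) : ℤ) (T : ℤ) := by
    intro p hp hpT n
    exact (Int.isCoprime_iff_nat_coprime.2 (by
      simpa using (Nat.Coprime.pow_left n (hp.coprime_iff_not_dvd.2 hpT))))
  -- common divisors
  have hGcard : ∀ p ∈ P (C * N), ((G p).card : ℝ) ≤ (N : ℝ) ^ 2 / (p : ℝ) ^ 2 + 3 * N := by
    intro p hp
    obtain ⟨-, hpp, hpT⟩ := (hmemP _ _).1 hp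
    have hc : IsCoprime (p : ℤ) (T : ℤ) := by simpa using hcopT p hpp hpT 1
    have hsub : G p ⊆ (Finset.range N).filter (fun i : ℕ => (p : ℤ) ∣ (T : ℤ) * i
          + ((l₀ + T * (u * N) : ℕ) : ℤ)) ×ˢ (Finset.range N).filter (fun k : ℕ =>
          (p : ℤ) ∣ (T : ℤ) * k + ((m₀ + T * (v * N) : ℕ) : ℤ)) := by
      intro x hx
      simp only [hG, Finset.mem_filter, hbox, Finset.mem_product] at hx
      simp only [Finset.mem_product, Finset.mem_filter]
      obtain ⟨⟨hi, hk⟩, h1, h2⟩ := hx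
      refine ⟨⟨hi, ?_⟩, ⟨hk, ?_⟩⟩
      · have := Int.natCast_dvd_natCast.2 h1
        simp only [hL] at this
        push_cast at this ⊢
        convert this using 1; ring
      · have := Int.natCast_dvd_natCast.2 h2
        simp only [hM] at this
        push_cast at this ⊢
        convert this using 1; ring
    have h1 := (Finset.card_le_card hsub).trans_eq (Finset.card_product _ _)
    have h2 := h1.trans (Nat.mul_le_mul (card_filter_dvd_le hpp.pos hc _ N)
      (card_filter_dvd_le hpp.pos hc _ N))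
    have hpR : (1 : ℝ) ≤ p := by exact_mod_cast hpp.one_lt.le
    have hdiv : ((N / p : ℕ) : ℝ) ≤ (N : ℝ) / p := Nat.cast_div_le
    have hNp : (N : ℝ) / p ≤ N := div_le_self (Nat.cast_nonneg _) hpR
    have hN1 : (1 : ℝ) ≤ N := by exact_mod_cast hN
    calc ((G p).card : ℝ) ≤ (((N / p + 1) * (N / p + 1) : ℕ) : ℝ) := by exact_mod_cast h2
      _ ≤ ((N : ℝ) / p + 1) * ((N : ℝ) / p + 1) := by push_cast; gcongr
      _ = (N : ℝ) ^ 2 / (p : ℝ) ^ 2 + (2 * ((N : ℝ) / p) + 1) := by ring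
      _ ≤ _ := by gcongr; linarith
  -- square factors
  have hroots : ∀ p : ℕ, p.Prime → ¬ p ∣ T → ∃ R : Finset ℤ, R.card ≤ 4 ∧ ∀ l m : ℤ,
      IsCoprime l m → ((p : ℤ) ^ 2) ∣ dL l m a b →
      ¬ (p : ℤ) ∣ m ∧ ∃ r ∈ R, ((p : ℤ) ^ 2) ∣ l - r * m := fun p hp hpT =>
    exists_roots_sq hp (by have := (h5 p hp hpT).1; omega) (fun h => hpT (hdisc p hp h))
  have hQsmall : ∀ p ∈ P (2 * C * N), ((Q p).card : ℝ) ≤
      4 * ((N : ℝ) ^ 2 / (p : ℝ) ^ 2) + 4 * N := by
    intro p hp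
    obtain ⟨-, hpp, hpT⟩ := (hmemP _ _).1 hp
    obtain ⟨R, hR, hRlm⟩ := hroots p hpp hpT
    set S : ℤ → ℕ → Finset (ℕ × ℕ) := fun r k => ((Finset.range N).filter (fun i : ℕ =>
      ((p ^ 2 : ℕ) : ℤ) ∣ (T : ℤ) * i + ((l₀ + T * (u * N) : ℕ) - r * (M k : ℤ)))).image
        (fun i => (i, k)) with hS
    have hsub : Q p ⊆ R.biUnion (fun r => (Finset.range N).biUnion (S r)) := by
      intro x hx
      simp only [hQ, Finset.mem_filter, hbox, Finset.mem_product] at hx
      obtain ⟨⟨hi, hk⟩, hc, hd⟩ := hx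
      obtain ⟨-, r, hr, hrd⟩ := hRlm _ _ hc hd
      simp only [Finset.mem_biUnion, hS, Finset.mem_image, Finset.mem_filter]
      refine ⟨r, hr, x.2, hk, x.1, ⟨hi, ?_⟩, rfl⟩
      simp only [hL] at hrd
      push_cast at hrd ⊢
      convert hrd using 1; ring
    have hcount : ∀ r k, (S r k).card ≤ N / p ^ 2 + 1 := fun r k =>
      Finset.card_image_le.trans (card_filter_dvd_le (pow_pos hpp.pos 2) (hcopT p hpp hpT 2) _ N)
    have h1 : (Q p).card ≤ R.card * (N * (N / p ^ 2 + 1)) := by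
      refine (Finset.card_le_card hsub).trans (Finset.card_biUnion_le_card_mul _ _ _ fun r _ => ?_)
      refine (Finset.card_biUnion_le_card_mul _ _ _ fun k _ => hcount r k).trans ?_
      rw [Finset.card_range]
    have h2 : (Q p).card ≤ 4 * (N * (N / p ^ 2 + 1)) := h1.trans (Nat.mul_le_mul_right _ hR)
    have hdiv : ((N / p ^ 2 : ℕ) : ℝ) ≤ (N : ℝ) / ((p : ℝ) ^ 2) := by
      exact_mod_cast (Nat.cast_div_le (α := ℝ) (m := N) (n := p ^ 2))
    calc ((Q p).card : ℝ) ≤ ((4 * (N * (N / p ^ 2 + 1)) : ℕ) : ℝ) := Nat.cast_le.2 h2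
      _ ≤ 4 * (N * ((N : ℝ) / (p : ℝ) ^ 2 + 1)) := by push_cast; gcongr
      _ = _ := by ring
  have hQlarge : ∀ p : ℕ, p.Prime → ¬ p ∣ T → 2 * C * N < p → (Q p).card ≤ 4 := by
    intro p hp hpT hlarge
    obtain ⟨R, hR, hRlm⟩ := hroots p hp hpT
    have hsub : Q p ⊆ R.biUnion (fun r => box.filter (fun x =>
        IsCoprime (L x.1 : ℤ) (M x.2) ∧ ((p : ℤ) ^ 2) ∣ (L x.1 : ℤ) - r * M x.2)) := by
      intro x hx
      simp only [hQ, Finset.mem_filter] at hx
      obtain ⟨-, r, hr, hrd⟩ := hRlm _ _ hx.2.1 hx.2.2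
      simp only [Finset.mem_biUnion, Finset.mem_filter]
      exact ⟨r, hr, hx.1, hx.2.1, hrd⟩
    refine (Finset.card_le_card hsub).trans ((Finset.card_biUnion_le_card_mul _ _ 1
      fun r _ => ?_).trans (by omega))
    rw [Finset.card_le_one]
    intro x hx y hy
    simp only [Finset.mem_filter, hbox, Finset.mem_product, Finset.mem_range] at hx hy
    obtain ⟨⟨hxi, hxk⟩, hxc, hxr⟩ := hx
    obtain ⟨⟨hyi, hyk⟩, hyc, hyr⟩ := hy
    -- the determinant is a small multiple of `p²`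
    have hdet : (L x.1 : ℤ) * M y.2 = (L y.1 : ℤ) * M x.2 := by
      have hdvd : ((p : ℤ) ^ 2) ∣ (L x.1 : ℤ) * M y.2 - (L y.1 : ℤ) * M x.2 := by
        rw [show (L x.1 : ℤ) * M y.2 - (L y.1 : ℤ) * M x.2
          = ((L x.1 : ℤ) - r * M x.2) * M y.2 - ((L y.1 : ℤ) - r * M y.2) * M x.2 by ring]
        exact (hxr.mul_right _).sub (hyr.mul_right _)
      have b1 : (L x.1 : ℤ) * M y.2 < ((C * N : ℕ) : ℤ) ^ 2 := by
        rw [sq]; exact_mod_cast Nat.mul_lt_mul_of_lt_of_lt (hLC _ hxi).1 (hMC _ hyk).1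
      have b2 : (L y.1 : ℤ) * M x.2 < ((C * N : ℕ) : ℤ) ^ 2 := by
        rw [sq]; exact_mod_cast Nat.mul_lt_mul_of_lt_of_lt (hLC _ hyi).1 (hMC _ hxk).1
      have bp : ((C * N : ℕ) : ℤ) ^ 2 ≤ (p : ℤ) ^ 2 := by
        refine pow_le_pow_left₀ (by positivity) ?_ 2
        exact_mod_cast (by nlinarith : C * N ≤ p)
      have n1 : (0 : ℤ) ≤ (L x.1 : ℤ) * M y.2 := by positivity
      have n2 : (0 : ℤ) ≤ (L y.1 : ℤ) * M x.2 := by positivity
      have := Int.eq_zero_of_dvd_of_natAbs_lt_natAbs hdvd (by omega)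
      linarith
    have hL1 : L x.1 = L y.1 := by
      have h1 : (L x.1 : ℤ) ∣ L y.1 := hxc.dvd_of_dvd_mul_right ⟨M y.2, by rw [← hdet]⟩
      have h2 : (L y.1 : ℤ) ∣ L x.1 := hyc.dvd_of_dvd_mul_right ⟨M x.2, by rw [hdet]⟩
      exact Nat.dvd_antisymm (Int.natCast_dvd_natCast.1 h1) (Int.natCast_dvd_natCast.1 h2)
    have hM1 : M x.2 = M y.2 := by
      rw [hL1] at hdet
      exact_mod_cast (mul_left_cancel₀ (by exact_mod_cast (hLC _ hyi).2.ne') hdet).symm
    simp only [hL] at hL1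
    simp only [hM] at hM1
    have e1 : x.1 = y.1 := by
      have := Nat.eq_of_mul_eq_mul_left hT1 (Nat.add_left_cancel hL1); omega
    have e2 : x.2 = y.2 := by
      have := Nat.eq_of_mul_eq_mul_left hT1 (Nat.add_left_cancel hM1); omega
    exact Prod.ext e1 e2
  by_contra! hbad
  have hcover : box ⊆ (P (C * N)).biUnion G ∪ (P (D * N ^ 2)).biUnion Q := by
    intro x hx
    have hx' := hx
    simp only [hbox, Finset.mem_product, Finset.mem_range] at hx'
    rw [Finset.mem_union]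
    by_cases hc : IsCoprime (L x.1 : ℤ) (M x.2)
    · right
      obtain ⟨p, hp, hpT, hd⟩ := hbad x.1 x.2 hx'.1 hx'.2 hc
      refine Finset.mem_biUnion.2 ⟨p, (hmemP _ _).2 ⟨?_, hp, hpT⟩, ?_⟩
      · have h0 := hne N x.1 x.2 hN hx'.1 hx'.2
        have hle := Int.natAbs_le_of_dvd_ne_zero hd h0
        rw [Int.natAbs_pow, Int.natAbs_natCast] at hle
        have hb : (dL (L x.1 : ℤ) (M x.2) a b).natAbs ≤ D * N ^ 4 := by
          have l1 := (hLC _ hx'.1).1.le
          have m1 := (hMC _ hx'.2).1.le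
          simp only [dL]
          refine (Int.natAbs_sub_le _ _).trans ?_
          refine (Nat.add_le_add_right ((Int.natAbs_sub_le _ _).trans
            (Nat.add_le_add_right (Int.natAbs_sub_le _ _) _)) _).trans ?_
          simp only [Int.natAbs_mul, Int.natAbs_pow, Int.natAbs_natCast, Int.reduceAbs]
          calc L x.1 ^ 4 + 6 * a.natAbs * L x.1 ^ 2 * M x.2 ^ 2
                + 8 * b.natAbs * L x.1 * M x.2 ^ 3 + 3 * a.natAbs ^ 2 * M x.2 ^ 4
              ≤ (C * N) ^ 4 + 6 * a.natAbs * (C * N) ^ 2 * (C * N) ^ 2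
                + 8 * b.natAbs * (C * N) * (C * N) ^ 3 + 3 * a.natAbs ^ 2 * (C * N) ^ 4 := by
                gcongr
            _ = D * N ^ 4 := by rw [hD]; ring
        have hD1 : 1 ≤ D := by
          rw [hD, hC]; exact Nat.one_le_iff_ne_zero.2 (by positivity)
        have h' : p ^ 2 ≤ (D * N ^ 2) ^ 2 :=
          calc p ^ 2 ≤ _ := hle.trans hb
            _ ≤ (D * D) * N ^ 4 := by gcongr; exact Nat.le_mul_of_pos_left _ hD1
            _ = (D * N ^ 2) ^ 2 := by ring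
        exact (Nat.pow_le_pow_iff_left two_ne_zero).1 h'
      · simp only [hQ, Finset.mem_filter]
        exact ⟨hx, hc, hd⟩
    · left
      obtain ⟨p, hp, hp1, hp2⟩ := Nat.Prime.not_coprime_iff_dvd.1
        (fun h => hc (Int.isCoprime_iff_nat_coprime.2 (by simpa using h)))
      have hpT : ¬ p ∣ T := fun h => hcop p hp h
        ⟨(Nat.dvd_add_left (h.mul_right _)).1 hp1, (Nat.dvd_add_left (h.mul_right _)).1 hp2⟩
      refine Finset.mem_biUnion.2 ⟨p, (hmemP _ _).2 ⟨?_, hp, hpT⟩, ?_⟩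
      · exact (Nat.le_of_dvd (hLC _ hx'.1).2 hp1).trans (hLC _ hx'.1).1.le
      · simp only [hG, Finset.mem_filter]
        exact ⟨hx, hp1, hp2⟩
  have hcount : (N * N : ℕ) ≤ ∑ p ∈ P (C * N), (G p).card + ∑ p ∈ P (D * N ^ 2), (Q p).card := by
    have := Finset.card_le_card hcover
    rw [hbox, Finset.card_product, Finset.card_range] at this
    exact this.trans ((Finset.card_union_le _ _).trans
      (Nat.add_le_add Finset.card_biUnion_le Finset.card_biUnion_le))
  have hsum : ∀ x, ∑ p ∈ P x, (1 : ℝ) / (p : ℝ) ^ 2 ≤ 1 / 8 := fun x => sum_inv_sq_le fun p hp =>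
    let ⟨_, hpp, hpT⟩ := (hmemP _ _).1 hp
    ⟨(h5 p hpp hpT).2, (h5 p hpp hpT).1⟩
  have hPcard : ∀ x, ((P x).card : ℝ) ≤ ((Nat.primesLE x).card : ℝ) := fun x =>
    Nat.cast_le.2 (Finset.card_le_card fun p hp =>
      Nat.mem_primesLE.2 ⟨((hmemP x p).1 hp).1, ((hmemP x p).1 hp).2.1⟩)
  have hsG : ∑ p ∈ P (C * N), ((G p).card : ℝ) ≤ (N : ℝ) ^ 2 / 8 + 3 * N * (1 / 100 * N) := by
    refine (Finset.sum_le_sum hGcard).trans ?_
    rw [Finset.sum_add_distrib, Finset.sum_const, nsmul_eq_mul]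
    refine add_le_add ?_ ?_
    · have := mul_le_mul_of_nonneg_left (hsum (C * N)) (sq_nonneg (N : ℝ))
      rw [Finset.mul_sum] at this
      simp only [mul_one_div] at this
      exact this
    · have h := mul_le_mul_of_nonneg_right ((hPcard (C * N)).trans hπ1)
        (mul_nonneg (show (0 : ℝ) ≤ 3 by norm_num) (Nat.cast_nonneg N))
      linarith only [h]
  have hsQ : ∑ p ∈ P (D * N ^ 2), ((Q p).card : ℝ)
      ≤ (N : ℝ) ^ 2 / 2 + 4 * N * (1 / 100 * N) + 4 * (1 / 100 * (N : ℝ) ^ 2) := by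
    rw [← Finset.sum_filter_add_sum_filter_not (P (D * N ^ 2)) (fun p => p ≤ 2 * C * N)]
    refine add_le_add ?_ ?_
    · refine (Finset.sum_le_sum_of_subset_of_nonneg (t := P (2 * C * N))
        (fun p hp => ?_) (fun _ _ _ => Nat.cast_nonneg _)).trans ?_
      · simp only [Finset.mem_filter, hmemP] at hp ⊢
        exact ⟨hp.2, hp.1.2⟩
      refine (Finset.sum_le_sum hQsmall).trans ?_
      rw [Finset.sum_add_distrib, Finset.sum_const, nsmul_eq_mul]
      refine add_le_add ?_ ?_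
      · have := mul_le_mul_of_nonneg_left (hsum (2 * C * N))
          (mul_nonneg (by norm_num : (0 : ℝ) ≤ 4) (sq_nonneg (N : ℝ)))
        rw [Finset.mul_sum] at this
        simp only [mul_one_div] at this
        simp only [← mul_div_assoc]
        linarith
      · have h := mul_le_mul_of_nonneg_right ((hPcard (2 * C * N)).trans hπ2)
          (mul_nonneg (show (0 : ℝ) ≤ 4 by norm_num) (Nat.cast_nonneg N))
        linarith only [h]
    · refine (Finset.sum_le_sum (g := fun _ => (4 : ℝ)) fun p hp => ?_).trans ?_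
      · simp only [Finset.mem_filter, hmemP, not_le] at hp
        exact_mod_cast hQlarge p hp.1.2.1 hp.1.2.2 hp.2
      · rw [Finset.sum_const, nsmul_eq_mul, mul_comm]
        refine mul_le_mul_of_nonneg_left ?_ (by norm_num)
        refine le_trans (Nat.cast_le.2 (Finset.card_filter_le _ _)) ((hPcard _).trans ?_)
        exact hπ3.trans (by push_cast; exact le_rfl)
  have hcR : (N : ℝ) * N ≤
      ∑ p ∈ P (C * N), ((G p).card : ℝ) + ∑ p ∈ P (D * N ^ 2), ((Q p).card : ℝ) := by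
    exact_mod_cast hcount
  have hNpos : (1 : ℝ) ≤ N := by exact_mod_cast hN
  nlinarith

end Fermat.Agent.SwitchThree
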