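import Mathlib
import Fermat.Agent.SwitchThree.Sieve

/-!
# The pencil at an odd prime of multiplicative reduction

At an odd `q` with `q ∣ a³ - b²`, `q ∤ a` the cusp form has the simple root `3b/a`, where `c4L` is a
unit: parameters near it give multiplicative reduction at `q` with any jump of the valuation.

Main result: `exists_cusp_param`.
-/

set_option autoImplicit false

namespace Fermat.Agent.SwitchThree

/-- Hensel: from a simple root modulo `q`, roots of every exact valuation. -/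
theorem exists_dL_exact {a b r₀ : ℤ} {q : ℕ} (hq : q.Prime) (hr : (q : ℤ) ∣ dL r₀ 1 a b)
    (hd : ¬ (q : ℤ) ∣ dDer r₀ a b) (j : ℕ) :
    ∃ r : ℤ, (q : ℤ) ∣ r - r₀ ∧ (q : ℤ) ^ (j + 1) ∣ dL r 1 a b ∧
      ¬ (q : ℤ) ^ (j + 2) ∣ dL r 1 a b := by
  have hqi := Nat.prime_iff_prime_int.1 hq
  have hder : ∀ r, (q : ℤ) ∣ r - r₀ → ¬ (q : ℤ) ∣ dDer r a b := by
    intro r hr' h
    refine hd ?_
    rw [show dDer r₀ a b = dDer r a b - (r - r₀) * (4 * (r ^ 2 + r * r₀ + r₀ ^ 2) - 12 * a) by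
      simp only [dDer]; ring]
    exact h.sub (hr'.mul_right _)
  have step : ∀ n : ℕ, ∀ r, (q : ℤ) ∣ r - r₀ → (q : ℤ) ^ (n + 1) ∣ dL r 1 a b →
      ∃ r', (q : ℤ) ∣ r' - r₀ ∧ (q : ℤ) ^ (n + 1) ∣ dL r' 1 a b ∧
        ¬ (q : ℤ) ^ (n + 2) ∣ dL r' 1 a b := by
    intro n r hr' hn
    by_cases h2 : (q : ℤ) ^ (n + 2) ∣ dL r 1 a b
    · refine ⟨r + (q : ℤ) ^ (n + 1), ?_, ?_, ?_⟩
      · rw [add_sub_right_comm]; exact hr'.add (dvd_pow_self _ (by omega))
      · rw [dL_one_add]; exact hn.add (dvd_mul_right _ _)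
      · rw [dL_one_add]
        intro h
        have h' : (q : ℤ) ^ (n + 1) * q ∣ _ := (dvd_add_right h2).1 h
        have h'' := Int.dvd_of_mul_dvd_mul_left (pow_ne_zero _ hqi.ne_zero) h'
        exact hder r hr' ((dvd_add_left ((dvd_pow_self _ (by omega)).mul_right _)).1 h'')
    · exact ⟨r, hr', hn, h2⟩
  induction j with
  | zero => exact step 0 r₀ (by simp) (by simpa using hr)
  | succ n ih =>
    obtain ⟨r, hr', ⟨c, hc⟩, -⟩ := ih
    obtain ⟨u, v, huv⟩ := (hqi.coprime_iff_not_dvd).2 (hder r hr')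
    refine step (n + 1) (r + (q : ℤ) ^ (n + 1) * (-c * v)) ?_ ?_
    · rw [add_sub_right_comm]; exact hr'.add ((dvd_pow_self _ (by omega)).mul_right _)
    · rw [dL_one_add, hc, show (q : ℤ) ^ (n + 1 + 1) = (q : ℤ) ^ (n + 1) * q by ring,
        show (q : ℤ) ^ (n + 1) * c + (q : ℤ) ^ (n + 1) * (-c * v) * (dDer r a b
          + (q : ℤ) ^ (n + 1) * (-c * v) * (6 * r ^ 2 - 6 * a +
              4 * r * ((q : ℤ) ^ (n + 1) * (-c * v))
            + ((q : ℤ) ^ (n + 1) * (-c * v)) ^ 2))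
          = (q : ℤ) ^ (n + 1) * (c * (1 - v * dDer r a b) + (q : ℤ) ^ (n + 1) * ((c * v) ^ 2
            * (6 * r ^ 2 - 6 * a + 4 * r * ((q : ℤ) ^ (n + 1) * (-c * v))
              + ((q : ℤ) ^ (n + 1) * (-c * v)) ^ 2))) by ring,
        show 1 - v * dDer r a b = u * q by linarith]
      refine mul_dvd_mul_left _ ?_
      exact ((dvd_mul_left _ _).mul_left _).add ((dvd_pow_self _ (by omega)).mul_right _)

/-- At an odd multiplicative prime every jump of the valuation is available on the pencil. -/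
theorem exists_cusp_param {a b : ℤ} {q : ℕ} (hq : q.Prime) (h2 : q ≠ 2)
    (hab : (q : ℤ) ∣ a ^ 3 - b ^ 2) (ha : ¬ (q : ℤ) ∣ a) (j : ℕ) :
    ∃ r : ℤ, (q : ℤ) ^ (j + 1) ∣ dL r 1 a b ∧ ¬ (q : ℤ) ^ (j + 2) ∣ dL r 1 a b ∧
      ¬ (q : ℤ) ∣ c4L r 1 a b := by
  have := Fact.mk hq
  have hqi := Nat.prime_iff_prime_int.1 hq
  obtain ⟨u, v, huv⟩ := (hqi.coprime_iff_not_dvd).2 ha
  have hz : ∀ z : ℤ, (z : ZMod q) = 0 ↔ (q : ℤ) ∣ z := fun z =>
    ZMod.intCast_zmod_eq_zero_iff_dvd z q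
  have k2 : (2 : ZMod q) ≠ 0 := by
    have : ((2 : ℕ) : ZMod q) ≠ 0 := by
      rw [Ne, ZMod.natCast_eq_zero_iff, Nat.prime_dvd_prime_iff_eq hq Nat.prime_two]
      exact h2
    exact_mod_cast this
  set s : ZMod q := ((b * v : ℤ) : ZMod q) with hs
  have hva : (v : ZMod q) * a = 1 := by
    have := congrArg (Int.cast : ℤ → ZMod q) huv
    simpa using this
  have hab' : (a : ZMod q) ^ 3 = (b : ZMod q) ^ 2 := by
    have := (hz _).2 hab
    push_cast at this
    exact sub_eq_zero.1 this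
  have ea : (a : ZMod q) = s ^ 2 := by
    rw [hs]; push_cast
    linear_combination (v : ZMod q) ^ 2 * hab'
      - (a : ZMod q) * ((v : ZMod q) * a + 1) * hva
  have eb : (b : ZMod q) = s ^ 3 := by
    rw [hs]; push_cast
    linear_combination (b : ZMod q) * (v : ZMod q) ^ 3 * hab'
      - (b : ZMod q) * ((v : ZMod q) ^ 2 * (a : ZMod q) ^ 2 + (v : ZMod q) * a + 1) * hva
  have hs0 : s ≠ 0 := fun h => ha ((hz a).1 (by rw [ea, h]; ring))
  have hmap : ∀ r : ℤ, (r : ZMod q) = 3 * s →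
      ((dL r 1 a b : ℤ) : ZMod q) = 0 ∧ ((dDer r a b : ℤ) : ZMod q) = 64 * s ^ 3 ∧
      ((c4L r 1 a b : ℤ) : ZMod q) = 256 * s ^ 6 := by
    intro r hr
    refine ⟨?_, ?_, ?_⟩ <;>
    · simp only [dL, dDer, c4L]
      push_cast
      rw [hr, ea, eb]
      ring
  have hr₀ : ((3 * (b * v) : ℤ) : ZMod q) = 3 * s := by rw [hs]; push_cast; ring
  obtain ⟨h0, h1, -⟩ := hmap _ hr₀
  obtain ⟨r, hr, hd, hd'⟩ := exists_dL_exact hq ((hz _).1 h0) (fun h => by
    rw [← hz, h1, show (64 : ZMod q) = 2 ^ 6 by norm_num] at h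
    exact mul_ne_zero (pow_ne_zero 6 k2) (pow_ne_zero 3 hs0) h) j
  refine ⟨r, hd, hd', fun h => ?_⟩
  have hr' : (r : ZMod q) = 3 * s := by
    have := (hz _).2 hr
    rw [Int.cast_sub, sub_eq_zero] at this
    rw [this, hr₀]
  rw [← hz, (hmap r hr').2.2, show (256 : ZMod q) = 2 ^ 8 by norm_num] at h
  exact mul_ne_zero (pow_ne_zero 8 k2) (pow_ne_zero 6 hs0) h

/-- One integer in prescribed classes for finitely many pairwise coprime moduli. -/
theorem exists_simultaneous {ι : Type*} [DecidableEq ι] (s : Finset ι) (n : ι → ℤ)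
    (hn : (s : Set ι).Pairwise fun i k => IsCoprime (n i) (n k)) (c : ι → ℤ) :
    ∃ r : ℤ, ∀ i ∈ s, n i ∣ r - c i := by
  induction s using Finset.induction_on with
  | empty => exact ⟨0, fun i hi => absurd hi (Finset.notMem_empty i)⟩
  | insert i s hi ih =>
    obtain ⟨r, hr⟩ := ih (hn.mono (by simp))
    have hc : IsCoprime (∏ k ∈ s, n k) (n i) := IsCoprime.prod_left fun k hk =>
      hn (Finset.mem_coe.2 (Finset.mem_insert_of_mem hk))
        (Finset.mem_coe.2 (Finset.mem_insert_self i s)) (fun e => hi (e ▸ hk))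
    obtain ⟨x, hx1, hx2⟩ := exists_crt hc r (c i)
    refine ⟨x, fun k hk => ?_⟩
    rcases Finset.mem_insert.1 hk with rfl | hk
    · exact hx2
    · rw [← sub_add_sub_cancel x r (c k)]
      exact ((Finset.dvd_prod_of_mem n hk).trans hx1).add (hr k hk)

end Fermat.Agent.SwitchThree
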