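import Mathlib
import Fermat.Agent.SwitchThree.Hesse

/-!
# The pencil of an integral model

The pencil forms at a parameter only depend on its class modulo `T` (`congr_of_param`), and away
from `6Δ` the pencil of an integral model is semistable at every coprime parameter
(`not_dvd_dL_c4L`). Also some identities for `c₄`, `c₆` and `p`-adic valuations of `Δ d³`, used by
all the switches at `3`.
-/

set_option autoImplicit false

namespace Fermat.Agent.SwitchThree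

open WeierstrassCurve

/-- Values of the pencil forms only depend on the class of the parameter. -/
theorem congr_of_param {T : ℕ} {l m A B : ℤ} (hl : (T : ℤ) ∣ l - A) (hm : (T : ℤ) ∣ m - B)
    (a b : ℤ) : (T : ℤ) ∣ c4L l m a b - c4L A B a b ∧ (T : ℤ) ∣ c6L l m a b - c6L A B a b ∧
      (T : ℤ) ∣ dL l m a b - dL A B a b := by
  have el : (l : ZMod T) = A := by
    rw [← sub_eq_zero, ← Int.cast_sub, ZMod.intCast_zmod_eq_zero_iff_dvd]; exact hl
  have em : (m : ZMod T) = B := by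
    rw [← sub_eq_zero, ← Int.cast_sub, ZMod.intCast_zmod_eq_zero_iff_dvd]; exact hm
  refine ⟨?_, ?_, ?_⟩ <;>
    rw [← ZMod.intCast_zmod_eq_zero_iff_dvd, Int.cast_sub, sub_eq_zero] <;>
    simp only [← eq_intCast (Int.castRingHom (ZMod T)), map_c4L, map_c6L, map_dL] <;>
    simp only [eq_intCast, el, em]

theorem cube_sub_sq_eq (W : WeierstrassCurve ℤ) : W.c₄ ^ 3 - W.c₆ ^ 2 = 1728 * W.Δ :=
  W.c_relation.symm

theorem cube_ne_sq (W : WeierstrassCurve ℤ) (hΔ : W.Δ ≠ 0) : W.c₄ ^ 3 ≠ W.c₆ ^ 2 := by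
  rw [← sub_ne_zero, cube_sub_sq_eq]
  exact mul_ne_zero (by norm_num) hΔ

/-- Away from `6Δ` the pencil is semistable at every coprime parameter. -/
theorem not_dvd_dL_c4L {W : WeierstrassCurve ℤ} {q : ℕ} (hq : q.Prime) (h2 : q ≠ 2) (h3 : q ≠ 3)
    (hΔ : ¬ (q : ℤ) ∣ W.Δ) {l m : ℤ} (hlm : IsCoprime l m) :
    ¬ ((q : ℤ) ∣ dL l m W.c₄ W.c₆ ∧ (q : ℤ) ∣ c4L l m W.c₄ W.c₆) := by
  have : Fact q.Prime := ⟨hq⟩
  set k := AlgebraicClosure (ZMod q)
  have : CharP k q := charP_of_injective_algebraMap (algebraMap (ZMod q) k).injective q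
  have hz : ∀ z : ℤ, (z : k) = 0 ↔ (q : ℤ) ∣ z := CharP.intCast_eq_zero_iff k q
  have hp : ∀ p : ℕ, p.Prime → q ≠ p → ((p : ℤ) : k) ≠ 0 := fun p hpp hne h =>
    hne ((Nat.prime_dvd_prime_iff_eq hq hpp).1 (Int.natCast_dvd_natCast.1 ((hz _).1 h)))
  have k2 : (2 : k) ≠ 0 := by simpa using hp 2 Nat.prime_two h2
  have k3 : (3 : k) ≠ 0 := by simpa using hp 3 Nat.prime_three h3
  have hab : (W.c₄ : k) ^ 3 ≠ (W.c₆ : k) ^ 2 := by
    rw [← sub_ne_zero, ← Int.cast_pow, ← Int.cast_pow, ← Int.cast_sub, cube_sub_sq_eq,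
      Int.cast_mul]
    refine mul_ne_zero ?_ (mt (hz _).1 hΔ)
    have : ((1728 : ℤ) : k) = 2 ^ 6 * 3 ^ 3 := by norm_num
    rw [this]
    exact mul_ne_zero (pow_ne_zero 6 k2) (pow_ne_zero 3 k3)
  have hlm' : ¬ ((l : k) = 0 ∧ (m : k) = 0) := by
    rintro ⟨h1, h2⟩
    obtain ⟨u, v, huv⟩ := hlm
    have := congrArg (Int.cast : ℤ → k) huv
    simp [h1, h2] at this
  rintro ⟨hd, hc⟩
  refine not_dL_c4L_eq_zero k2 k3 hab hlm' ⟨?_, ?_⟩
  · rw [← hz, ← eq_intCast (Int.castRingHom k), map_dL] at hd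
    exact hd
  · rw [← hz, ← eq_intCast (Int.castRingHom k), map_c4L] at hc
    exact hc

theorem padicValInt_mul_cube {q : ℕ} (hq : q.Prime) {z d : ℤ} (hz : z ≠ 0) (hd : d ≠ 0) :
    padicValInt q (z * d ^ 3) = padicValInt q z + 3 * padicValInt q d := by
  have : Fact q.Prime := ⟨hq⟩
  rw [padicValInt.mul hz (pow_ne_zero 3 hd), pow_succ, pow_two,
    padicValInt.mul (mul_ne_zero hd hd) hd, padicValInt.mul hd hd]
  ring

theorem padicValInt_eq_one {ℓ : ℕ} (hℓ : ℓ.Prime) {d : ℤ} (h1 : (ℓ : ℤ) ∣ d)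
    (h2 : ¬ (ℓ : ℤ) ^ 2 ∣ d) : padicValInt ℓ d = 1 := by
  have : Fact ℓ.Prime := ⟨hℓ⟩
  obtain ⟨e, rfl⟩ := h1
  have he : ¬ (ℓ : ℤ) ∣ e := fun h => h2 (by rw [sq]; exact mul_dvd_mul_left _ h)
  have he0 : e ≠ 0 := fun h => he (h ▸ dvd_zero _)
  rw [padicValInt.mul (by exact_mod_cast hℓ.ne_zero) he0, padicValInt.self hℓ.one_lt,
    padicValInt.eq_zero_of_not_dvd he]

end Fermat.Agent.SwitchThree
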