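import Mathlib
import Fermat.Agent.SwitchThree.Hesse

/-!
# The pencil near a 3-torsion abscissa, 2-adically

At `(l, m) = (12 x + b₂, 1)` the cusp form of the pencil is `6912 ψ₃(x)`.

Main result: `exists_divThree_exact`.
-/

set_option autoImplicit false

namespace Fermat.Agent.SwitchThree

variable (W : WeierstrassCurve ℤ)

/-- The value of `ψ₂²` at `x`. -/
def divTwoSq (x : ℤ) : ℤ := 4 * x ^ 3 + W.b₂ * x ^ 2 + 2 * W.b₄ * x + W.b₆

/-- The value of `ψ₃` at `x`. -/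
def divThree (x : ℤ) : ℤ :=
  3 * x ^ 4 + W.b₂ * x ^ 3 + 3 * W.b₄ * x ^ 2 + 3 * W.b₆ * x + W.b₈

/-- The cofactor of `ψ₃` in `c₆` at the special parameter. -/
def sixCofactor (x : ℤ) : ℤ :=
  -7776 * x ^ 5 - 3240 * W.b₂ * x ^ 4 - (378 * W.b₂ ^ 2 + 3888 * W.b₄) * x ^ 3
    + (972 * W.b₆ - 1134 * W.b₂ * W.b₄) * x ^ 2 + (162 * W.b₂ * W.b₆ - 1296 * W.b₄ ^ 2) * x
    + (27 * W.b₂ ^ 2 * W.b₆ - 486 * W.b₄ * W.b₆ - 27 * W.b₂ * W.b₄ ^ 2)

theorem dL_special (x : ℤ) :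
    dL (12 * x + W.b₂) 1 W.c₄ W.c₆ = 256 * (27 * divThree W x) := by
  simp only [dL, divThree, WeierstrassCurve.c₄, WeierstrassCurve.c₆]
  linear_combination (-1728 : ℤ) * W.b_relation

theorem c4L_special (x : ℤ) :
    c4L (12 * x + W.b₂) 1 W.c₄ W.c₆ = 256 * (729 * divTwoSq W x ^ 2
      - 648 * divThree W x * (6 * x ^ 2 + W.b₂ * x + W.b₄)) := by
  simp only [c4L, divThree, divTwoSq, WeierstrassCurve.c₄, WeierstrassCurve.c₆]
  linear_combination (256 * 162 * (6 * x ^ 2 + W.b₂ * x + W.b₄)) * W.b_relation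

theorem c6L_special (x : ℤ) :
    c6L (12 * x + W.b₂) 1 W.c₄ W.c₆ = 4096 * (19683 * divTwoSq W x ^ 3
      + 54 * divThree W x * sixCofactor W x) := by
  simp only [c6L, divThree, divTwoSq, sixCofactor, WeierstrassCurve.c₄, WeierstrassCurve.c₆]
  linear_combination (-(1024 * 54) *
    (-7776 * x ^ 5 - 3240 * W.b₂ * x ^ 4 - (378 * W.b₂ ^ 2 + 3888 * W.b₄) * x ^ 3
    + (972 * W.b₆ - 1134 * W.b₂ * W.b₄) * x ^ 2 + (162 * W.b₂ * W.b₆ - 1296 * W.b₄ ^ 2) * x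
    + (27 * W.b₂ ^ 2 * W.b₆ - 486 * W.b₄ * W.b₆ - 27 * W.b₂ * W.b₄ ^ 2))) * W.b_relation

/-- An odd value of `ψ₂²` is `1` modulo `4`. -/
theorem four_dvd_divTwoSq_sub_one {x : ℤ} (h : Odd (divTwoSq W x)) :
    4 ∣ divTwoSq W x - 1 := by
  obtain ⟨u, hu⟩ : ∃ u, divTwoSq W x = (W.a₁ * x + W.a₃) ^ 2 + 4 * u :=
    ⟨x ^ 3 + W.a₂ * x ^ 2 + W.a₄ * x + W.a₆, by
      simp only [divTwoSq, WeierstrassCurve.b₂, WeierstrassCurve.b₄, WeierstrassCurve.b₆]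
      ring⟩
  have ho : Odd (W.a₁ * x + W.a₃) := by
    have : Odd ((W.a₁ * x + W.a₃) ^ 2) := by
      rw [hu] at h
      exact (Int.odd_add.1 h).2 ⟨2 * u, by ring⟩
    exact Int.Odd.of_mul_left (by rwa [sq] at this)
  obtain ⟨v, hv⟩ := ho
  exact ⟨u + v ^ 2 + v, by rw [hu, hv]; ring⟩

theorem divThree_add (x h : ℤ) :
    divThree W (x + h) = divThree W x + h * (3 * divTwoSq W x
      + h * (18 * x ^ 2 + 12 * x * h + 3 * h ^ 2 + 3 * W.b₂ * x + W.b₂ * h + 3 * W.b₄)) := by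
  simp only [divThree, divTwoSq]; ring

theorem odd_divTwoSq_add {x h : ℤ} (ho : Odd (divTwoSq W x)) (hh : Even h) :
    Odd (divTwoSq W (x + h)) := by
  have e : divTwoSq W (x + h) = divTwoSq W x + h * (12 * x ^ 2 + 12 * x * h + 4 * h ^ 2
      + 2 * W.b₂ * x + W.b₂ * h + 2 * W.b₄) := by
    simp only [divTwoSq]; ring
  rw [e]
  exact ho.add_even (hh.mul_right _)

/-- From an abscissa with `ψ₂²` odd and `ψ₃` even, Hensel gives one with `ψ₃` of any exact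
positive 2-adic valuation. -/
theorem exists_divThree_exact {x₀ : ℤ} (ho : Odd (divTwoSq W x₀)) (he : Even (divThree W x₀))
    (j : ℕ) :
    ∃ x u : ℤ, Odd (divTwoSq W x) ∧ Odd u ∧ divThree W x = 2 ^ (j + 1) * u := by
  have hev : ∀ n : ℕ, Even ((2 : ℤ) ^ (n + 1)) := fun n => ⟨2 ^ n, by ring⟩
  have step : ∀ n : ℕ, ∀ x u : ℤ, Odd (divTwoSq W x) → divThree W x = 2 ^ (n + 1) * u →
      ∃ x' u' : ℤ, Odd (divTwoSq W x') ∧ Odd u' ∧ divThree W x' = 2 ^ (n + 1) * u' := by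
    intro n x u hx hu
    rcases Int.even_or_odd u with hue | huo
    · refine ⟨x + 2 ^ (n + 1), _, odd_divTwoSq_add W hx (hev n), ?_,
        (?_ : _ = 2 ^ (n + 1) * (u + (3 * divTwoSq W x + 2 ^ (n + 1) * (18 * x ^ 2
          + 12 * x * 2 ^ (n + 1) + 3 * (2 ^ (n + 1)) ^ 2 + 3 * W.b₂ * x + W.b₂ * 2 ^ (n + 1)
          + 3 * W.b₄))))⟩
      · exact hue.add_odd (((by decide : Odd (3 : ℤ)).mul hx).add_even
          ((hev n).mul_right _))
      · rw [divThree_add, hu]; ring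
    · exact ⟨x, u, hx, huo, hu⟩
  induction j with
  | zero =>
    obtain ⟨u, hu⟩ := he
    exact step 0 x₀ u ho (by rw [hu]; ring)
  | succ n ih =>
    obtain ⟨x, u, hx, ⟨v, hv⟩, hu⟩ := ih
    -- move to the next level, then correct the parity
    have key : divThree W (x + 2 ^ (n + 1)) = 2 ^ (n + 1) * (u + (3 * divTwoSq W x
        + 2 ^ (n + 1) * (18 * x ^ 2 + 12 * x * 2 ^ (n + 1) + 3 * (2 ^ (n + 1)) ^ 2
          + 3 * W.b₂ * x + W.b₂ * 2 ^ (n + 1) + 3 * W.b₄))) := by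
      rw [divThree_add, hu]; ring
    obtain ⟨w, hw⟩ : Even (u + (3 * divTwoSq W x
        + 2 ^ (n + 1) * (18 * x ^ 2 + 12 * x * 2 ^ (n + 1) + 3 * (2 ^ (n + 1)) ^ 2
          + 3 * W.b₂ * x + W.b₂ * 2 ^ (n + 1) + 3 * W.b₄))) :=
      Odd.add_odd ⟨v, hv⟩ (((by decide : Odd (3 : ℤ)).mul hx).add_even
        ((hev n).mul_right _))
    exact step (n + 1) _ w (odd_divTwoSq_add W hx (hev n))
      (by rw [key, hw]; ring)

end Fermat.Agent.SwitchThree
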