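import Mathlib
import Fermat.Prelude.Def_FLTPrelim_ModularRep
import Fermat.Agent.EC.Torsion.Main
import Fermat.Agent.Gal.Places

/-!
# No rational 2-torsion means an irreducible mod 2 representation

Main result: `modRepIsIrreducible_two_of_no_root`.
-/

set_option autoImplicit false

open WeierstrassCurve WeierstrassCurve.Affine.Point
open scoped WeierstrassCurve.Affine

namespace Fermat.Agent.SwitchThree

local notation "ℚbar" => AlgebraicClosure ℚ
local notation "Γ" => AlgebraicClosure ℚ ≃ₐ[ℚ] AlgebraicClosure ℚ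

/-- If `X³ - 27 c₄ X - 54 c₆` has no integral root, the mod 2 representation is irreducible. -/
theorem modRepIsIrreducible_two_of_no_root (W : WeierstrassCurve ℤ) (hΔ : W.Δ ≠ 0)
    (h : ∀ X₀ : ℤ, X₀ ^ 3 - 27 * W.c₄ * X₀ - 54 * W.c₆ ≠ 0) :
    W.ModRepIsIrreducible 2 := by
  have : Fact (Nat.Prime 2) := ⟨Nat.prime_two⟩
  have := EC.Torsion.isElliptic_baseChange_map W hΔ ℚbar
  have hnt := EC.Torsion.nontrivial_torsionBy (W.map (Int.castRingHom ℚ)).toAffine ℚbar
    (n := 2) two_ne_zero one_lt_two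
  refine ⟨hnt, fun N hN => ?_⟩
  by_contra hcon
  push Not at hcon
  obtain ⟨hbot, htop⟩ := hcon
  have hfin := EC.Torsion.moduleFinite_torsionBy (W.map (Int.castRingHom ℚ)).toAffine ℚbar
    (p := 2) two_ne_zero
  have h2 := EC.Torsion.finrank_torsionBy (W.map (Int.castRingHom ℚ)).toAffine ℚbar
    (p := 2) two_ne_zero
  obtain ⟨P, hP, hP0⟩ := Submodule.exists_mem_ne_zero_of_ne_bot hbot
  have hspan : Submodule.span (ZMod 2) {P} = N := by
    refine Submodule.eq_of_le_of_finrank_le ((Submodule.span_singleton_le_iff_mem _ _).2 hP) ?_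
    rw [finrank_span_singleton hP0]
    have h3 := (Submodule.finrank_lt htop).trans_eq h2
    exact Nat.lt_succ_iff.1 h3
  -- the nonzero element of the line is fixed by Galois
  have hfix : ∀ σ : Γ, σ • P = P := fun σ => by
    obtain ⟨c, hc⟩ := Submodule.mem_span_singleton.1 (hspan.ge (hN σ P hP))
    have hc01 : c = 0 ∨ c = 1 := by
      fin_cases c <;> [left; right] <;> rfl
    rcases hc01 with rfl | rfl
    · rw [zero_smul] at hc
      exact absurd ((smul_eq_zero_iff_eq σ).1 hc.symm) hP0
    · rw [one_smul] at hc; exact hc.symm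
  obtain ⟨P, hPt⟩ := P
  rcases P with _ | ⟨x, y, hxy⟩
  · exact hP0 (Subtype.ext rfl)
  -- its abscissa is rational
  have : IsGalois ℚ ℚbar := Gal.isGalois_rat_qbar
  obtain ⟨r, hr⟩ : x ∈ Set.range (algebraMap ℚ ℚbar) := by
    refine IntermediateField.mem_bot.1 ((InfiniteGalois.mem_bot_iff_fixed x).2 fun σ => ?_)
    have := congrArg Subtype.val (hfix σ)
    change σ • (Affine.Point.some x y hxy) = Affine.Point.some x y hxy at this
    rw [algEquiv_smul_def, Affine.Point.map_some, Affine.Point.some.injEq] at this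
    exact this.1
  -- and it is a root of the 2-division cubic
  have hy : y = (((W.map (Int.castRingHom ℚ))⁄ℚbar).toAffine).negY x y := by
    have h2P := (EC.Torsion.mem_torsionBy_iff_nsmul (W.map (Int.castRingHom ℚ)).toAffine ℚbar _).1
      hPt
    rw [two_nsmul, add_eq_zero_iff_eq_neg, Affine.Point.neg_some, Affine.Point.some.injEq] at h2P
    exact h2P.2
  have heq := (Affine.equation_iff x y).1 hxy.1
  have hroot : 4 * x ^ 3 + (W.b₂ : ℚbar) * x ^ 2 + 2 * (W.b₄ : ℚbar) * x + (W.b₆ : ℚbar) = 0 := by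
    simp only [Affine.negY] at hy
    simp only [WeierstrassCurve.baseChange, map_a₁, map_a₂, map_a₃, map_a₄, map_a₆,
      eq_intCast, map_intCast] at heq hy
    simp only [WeierstrassCurve.b₂, WeierstrassCurve.b₄, WeierstrassCurve.b₆]
    push_cast
    linear_combination (2 * y + (W.a₁ : ℚbar) * x + (W.a₃ : ℚbar)) * hy - 4 * heq
  set X : ℚ := 36 * r + 3 * W.b₂ with hX
  have hXroot : X ^ 3 - 27 * (W.c₄ : ℚ) * X - 54 * (W.c₆ : ℚ) = 0 := by
    refine (algebraMap ℚ ℚbar).injective ?_
    simp only [hX, map_add, map_sub, map_mul, map_pow, map_ofNat, map_intCast, _root_.map_zero, hr,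
      WeierstrassCurve.c₄, WeierstrassCurve.c₆]
    push_cast
    linear_combination (11664 : ℚbar) * hroot
  have hint : IsIntegral ℤ X := by
    refine ⟨Polynomial.X ^ 3 + (Polynomial.C (-27 * W.c₄) * Polynomial.X
      + Polynomial.C (-54 * W.c₆)), Polynomial.monic_X_pow_add ?_, ?_⟩
    · exact Polynomial.degree_linear_le.trans_lt (by norm_num)
    · simp only [Polynomial.eval₂_add, Polynomial.eval₂_mul, Polynomial.eval₂_pow,
        Polynomial.eval₂_X, Polynomial.eval₂_C]
      simp
      linear_combination hXroot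
  obtain ⟨X₀, hX₀⟩ := IsIntegrallyClosed.isIntegral_iff.mp hint
  rw [eq_intCast] at hX₀
  rw [← hX₀] at hXroot
  exact h X₀ (by exact_mod_cast hXroot)

end Fermat.Agent.SwitchThree
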