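import Mathlib
import Fermat.Agent.SwitchThree.Main
import Fermat.Agent.SwitchThree.Param
import Fermat.Agent.SwitchThree.Model
import Fermat.Agent.SwitchThree.TwoAdic
import Fermat.Agent.SwitchThree.Congr
import Fermat.Agent.SwitchThree.TwoTorsion

/-!
# The 3-switch to a curve multiplicative at 2 with prescribed `v₂(Δ')`

If some abscissa has `ψ₂²` odd and `ψ₃` even (in particular if `W` is multiplicative at 2), the
pencil reaches curves multiplicative at 2 with `v₂(Δ') = v₂(Δ) + 3j` for every `j ≥ 1`.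

Main result: `exists_switch_two`.
-/

set_option autoImplicit false

namespace Fermat.Agent.SwitchThree

open WeierstrassCurve

/-- Multiplicative reduction at 2 gives the hypothesis of `exists_switch_two`. -/
theorem exists_abscissa_of_multiplicative (W : WeierstrassCurve ℤ) (h2 : 2 ∣ W.Δ)
    (h4 : ¬ 2 ∣ W.c₄) : ∃ x : ℤ, Odd (divTwoSq W x) ∧ Even (divThree W x) := by
  refine ⟨1 + W.a₃, ?_⟩
  rw [Int.odd_iff, Int.even_iff]
  have key : ∀ a₁ a₂ a₃ a₄ a₆ : ZMod 2,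
      (⟨a₁, a₂, a₃, a₄, a₆⟩ : WeierstrassCurve (ZMod 2)).Δ = 0 →
      (⟨a₁, a₂, a₃, a₄, a₆⟩ : WeierstrassCurve (ZMod 2)).c₄ ≠ 0 →
      let V : WeierstrassCurve (ZMod 2) := ⟨a₁, a₂, a₃, a₄, a₆⟩
      4 * (1 + a₃) ^ 3 + V.b₂ * (1 + a₃) ^ 2 + 2 * V.b₄ * (1 + a₃) + V.b₆ = 1 ∧
        3 * (1 + a₃) ^ 4 + V.b₂ * (1 + a₃) ^ 3 + 3 * V.b₄ * (1 + a₃) ^ 2
          + 3 * V.b₆ * (1 + a₃) + V.b₈ = 0 := by
    unfold WeierstrassCurve.Δ WeierstrassCurve.c₄ WeierstrassCurve.b₂ WeierstrassCurve.b₄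
      WeierstrassCurve.b₆ WeierstrassCurve.b₈
    decide
  set f := Int.castRingHom (ZMod 2)
  have hz : ∀ z : ℤ, f z = 0 ↔ (2 : ℤ) ∣ z := fun z =>
    (ZMod.intCast_zmod_eq_zero_iff_dvd z 2)
  obtain ⟨e1, e2⟩ := key (f W.a₁) (f W.a₂) (f W.a₃) (f W.a₄) (f W.a₆)
    (((W.map_Δ f)).trans ((hz _).2 h2)) (fun h => h4 ((hz _).1 ((W.map_c₄ f).symm.trans h)))
  have h1 : f (divTwoSq W (1 + W.a₃)) = 1 := by
    rw [← e1]; simp [divTwoSq, WeierstrassCurve.b₂, WeierstrassCurve.b₄, WeierstrassCurve.b₆]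
  have h0 : f (divThree W (1 + W.a₃)) = 0 := by
    rw [← e2]; simp [divThree, WeierstrassCurve.b₂, WeierstrassCurve.b₄, WeierstrassCurve.b₆,
      WeierstrassCurve.b₈]
  refine ⟨?_, Int.emod_eq_zero_of_dvd ((hz _).1 h0)⟩
  rcases Int.emod_two_eq_zero_or_one (divTwoSq W (1 + W.a₃)) with h | h
  · rw [(hz _).2 (Int.dvd_of_emod_eq_zero h)] at h1
    exact absurd h1 zero_ne_one
  · exact h

/-- Good reduction at 2 with `a₁` and `b₈` even (trace of Frobenius zero) gives the hypothesis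
of `exists_switch_two`. -/
theorem exists_abscissa_of_good (W : WeierstrassCurve ℤ) (h2 : ¬ 2 ∣ W.Δ) (h1 : 2 ∣ W.a₁)
    (h8 : 2 ∣ W.b₈) : ∃ x : ℤ, Odd (divTwoSq W x) ∧ Even (divThree W x) := by
  obtain ⟨u, hu⟩ := h1
  have e0 : divTwoSq W 0 = W.b₆ := by simp [divTwoSq]
  have e3 : divThree W 0 = W.b₈ := by simp [divThree]
  refine ⟨0, ?_, e3 ▸ even_iff_two_dvd.2 h8⟩
  rw [e0, Int.odd_iff]
  by_contra h
  obtain ⟨w, hw⟩ : (2 : ℤ) ∣ W.b₆ := by omega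
  refine h2 ⟨-(u ^ 2 * 2 + 2 * W.a₂) * W.b₂ * W.b₈ - 4 * W.b₄ ^ 3 - 27 * w * W.b₆
    + 9 * W.b₂ * W.b₄ * w, ?_⟩
  simp only [WeierstrassCurve.Δ]
  have hb : W.b₂ = 2 * (u ^ 2 * 2 + 2 * W.a₂) := by
    simp only [WeierstrassCurve.b₂, hu]; ring
  linear_combination (-W.b₂ * W.b₈) * hb + (-27 * W.b₆ + 9 * W.b₂ * W.b₄) * hw

/-- **The switch, multiplicative at 2.** For semistable `W` with some abscissa having `ψ₂²` odd and
`ψ₃` even, every `j ≥ 1` and odd `M`: a semistable `W'` with isomorphic 3-torsion,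
`(c₄', c₆') ≡ (c₄, c₆)` mod `M`, `Δ' = Δ d³` with `d` prime to `3MΔ` away from 2,
multiplicative at 2 with `v₂(Δ') = v₂(Δ) + 3j`, `Δ' < 0`, irreducible mod 2 representation and a
prime `ℓ > M`, `ℓ ∤ Δ`, with `v_ℓ(Δ') = 3`. -/
theorem exists_switch_two (W : WeierstrassCurve ℤ) (hΔ : W.Δ ≠ 0) (hW : W.IsSemistableModel)
    {x₀ : ℤ} (hx₀ : Odd (divTwoSq W x₀)) (hx₀' : Even (divThree W x₀))
    (M : ℕ) (hM : Odd M) (j : ℕ) (hj : 1 ≤ j) :
    ∃ W' : WeierstrassCurve ℤ,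
      Congr3 (W.map (Int.castRingHom ℚ)) (W'.map (Int.castRingHom ℚ)) ∧
      W'.IsSemistableModel ∧
      ((M : ℤ) ∣ W'.c₄ - W.c₄ ∧ (M : ℤ) ∣ W'.c₆ - W.c₆) ∧
      (∃ d : ℤ, (∀ q : ℕ, q.Prime → q ≠ 2 → (q : ℤ) ∣ 3 * M * W.Δ → ¬ (q : ℤ) ∣ d) ∧
        W'.Δ = W.Δ * d ^ 3) ∧
      (∀ q : ℕ, q.Prime → q ≠ 2 → (q : ℤ) ∣ 3 * M * W.Δ →
        padicValInt q W'.Δ = padicValInt q W.Δ) ∧
      ((2 : ℤ) ∣ W'.Δ ∧ ¬ (2 : ℤ) ∣ W'.c₄ ∧
        padicValInt 2 W'.Δ = padicValInt 2 W.Δ + 3 * j) ∧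
      W'.Δ < 0 ∧ W'.ModRepIsIrreducible 2 ∧
      ∃ ℓ : ℕ, ℓ.Prime ∧ M < ℓ ∧ 3 < ℓ ∧ ¬ (ℓ : ℤ) ∣ W.Δ ∧ padicValInt ℓ W'.Δ = 3 := by
  have hab := cube_ne_sq W hΔ
  obtain ⟨j', rfl⟩ : ∃ j', j = j' + 1 := ⟨j - 1, by omega⟩
  obtain ⟨x, u, hxo, huo, hu⟩ := exists_divThree_exact W hx₀ hx₀' j'
  obtain ⟨v, δ, hδ, hΔδ⟩ := Nat.exists_eq_two_pow_mul_odd (Int.natAbs_ne_zero.2 hΔ)
  set S : ℕ := 729 * (M * δ) with hS
  have hSo : Odd S := (by decide : Odd 729).mul (hM.mul hδ)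
  have hScop : IsCoprime ((2 : ℤ) ^ (j' + 25)) (S : ℤ) := by
    obtain ⟨s, hs⟩ := hSo
    refine IsCoprime.pow_left ⟨-(s : ℤ), 1, ?_⟩
    rw [hs]; push_cast; ring
  obtain ⟨A, hA2, hAS⟩ := exists_crt hScop (12 * x + W.b₂) 4
  obtain ⟨B, hB2, hBS⟩ := exists_crt hScop 1 0
  set T : ℕ := 2 ^ (j' + 25) * S with hT
  have hT0 : T ≠ 0 := Nat.mul_ne_zero (pow_ne_zero _ two_ne_zero) hSo.pos.ne'
  obtain ⟨l, m, hlm, hl, hm, hneg, hroot, ℓ, hℓ, hTℓ, h3ℓ, hnd, hd1, hd2⟩ :=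
    exists_param hab hT0 A B (by
      intro p hp hpT ⟨hpA, hpB⟩
      rcases hp.dvd_mul.1 hpT with h | h
      · obtain rfl := (Nat.prime_dvd_prime_iff_eq hp Nat.prime_two).1 (hp.dvd_of_dvd_pow h)
        have : (2 : ℤ) ∣ B - 1 := (dvd_pow_self _ (by omega)).trans hB2
        omega
      · have h4 : (p : ℤ) ∣ 4 :=
          (dvd_sub_right hpA).1 ((Int.natCast_dvd_natCast.2 h).trans hAS)
        obtain rfl := (Nat.prime_dvd_prime_iff_eq hp Nat.prime_two).1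
          (hp.dvd_of_dvd_pow (show p ∣ 2 ^ 2 from Int.natCast_dvd_natCast.1 h4))
        exact (Nat.not_even_iff_odd.2 hSo) (even_iff_two_dvd.2 h))
  have hTS : (S : ℤ) ∣ (T : ℤ) := ⟨2 ^ (j' + 25), by rw [hT]; push_cast; ring⟩
  have hT2 : (2 : ℤ) ^ (j' + 25) ∣ (T : ℤ) := ⟨S, by rw [hT]; push_cast; ring⟩
  clear_value T S
  have lS : (S : ℤ) ∣ l - 4 := by
    rw [← sub_add_sub_cancel l A 4]; exact dvd_add (hTS.trans hl) hAS
  have mS : (S : ℤ) ∣ m - 0 := by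
    rw [← sub_add_sub_cancel m B 0]; exact dvd_add (hTS.trans hm) hBS
  have l2 : ((2 ^ (j' + 25) : ℕ) : ℤ) ∣ l - (12 * x + W.b₂) := by
    rw [Nat.cast_pow, Nat.cast_ofNat, ← sub_add_sub_cancel l A (12 * x + W.b₂)]
    exact dvd_add (hT2.trans hl) hA2
  have m2 : ((2 ^ (j' + 25) : ℕ) : ℤ) ∣ m - 1 := by
    rw [Nat.cast_pow, Nat.cast_ofNat, ← sub_add_sub_cancel m B 1]
    exact dvd_add (hT2.trans hm) hB2
  obtain ⟨c4S, c6S, dS⟩ := congr_of_param lS mS W.c₄ W.c₆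
  obtain ⟨c4two, c6two, dtwo⟩ := congr_of_param l2 m2 W.c₄ W.c₆
  rw [c4L_special] at c4two
  rw [c6L_special] at c6two
  rw [dL_special] at dtwo
  rw [Nat.cast_pow, Nat.cast_ofNat] at c4two c6two dtwo
  -- divide by the powers of two
  set U := 729 * divTwoSq W x ^ 2 - 648 * divThree W x * (6 * x ^ 2 + W.b₂ * x + W.b₄) with hU
  set V := 19683 * divTwoSq W x ^ 3 + 54 * divThree W x * sixCofactor W x with hV
  obtain ⟨α, hα⟩ := c4two
  obtain ⟨β, hβ⟩ := c6two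
  obtain ⟨γ, hγ⟩ := dtwo
  set a := U + 2 ^ (j' + 17) * α with ha
  set b := V + 2 ^ (j' + 13) * β with hb
  set d := 27 * divThree W x + 2 ^ (j' + 17) * γ with hddef
  have ea : c4L l m W.c₄ W.c₆ = 256 * a := by
    rw [ha]; linear_combination (norm := (simp only [pow_add]; ring1)) hα
  have eb : c6L l m W.c₄ W.c₆ = 4096 * b := by
    rw [hb]; linear_combination (norm := (simp only [pow_add]; ring1)) hβ
  have ed : dL l m W.c₄ W.c₆ = 256 * d := by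
    rw [hddef]; linear_combination (norm := (simp only [pow_add]; ring1)) hγ
  clear_value a b d
  have hao : Odd a := by
    rw [ha, hU]
    exact (((by decide : Odd (729 : ℤ)).mul hxo.pow).sub_even
      (((by decide : Even (648 : ℤ)).mul_right _).mul_right _)).add_even
      ((even_two.pow_of_ne_zero (by omega)).mul_right _)
  have hb4 : 4 ∣ b - 3 := by
    obtain ⟨w, hw⟩ := four_dvd_divTwoSq_sub_one W hxo
    refine ⟨4920 + 19683 * (3 * w + 12 * w ^ 2 + 16 * w ^ 3)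
      + 27 * 2 ^ j' * u * sixCofactor W x + 2 ^ (j' + 11) * β, ?_⟩
    rw [hb, hV, hu, show divTwoSq W x = 1 + 4 * w by linarith]
    ring
  have hd : d = 2 ^ (j' + 1) * (27 * u + 2 ^ 16 * γ) := by rw [hddef, hu]; ring
  have hcube : a ^ 3 - b ^ 2 = 1728 * (W.Δ * d ^ 3) := by
    refine mul_left_cancel₀ (by norm_num : (16777216 : ℤ) ≠ 0) ?_
    have := cube_sub_sq_pencil l m W.c₄ W.c₆
    rw [ea, eb, ed, cube_sub_sq_eq] at this
    linear_combination this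
  have hsplit : ∀ c : ℤ, ∀ {z y : ℤ}, IsCoprime (S : ℤ) c → (S : ℤ) ∣ c * z - c * y →
      (S : ℤ) ∣ z - y := fun c z y hc h =>
    hc.dvd_of_dvd_mul_left (by rwa [mul_sub])
  have hco : ∀ k : ℕ, IsCoprime (S : ℤ) (2 ^ k) := fun k => by
    obtain ⟨s, hs⟩ := hSo
    refine IsCoprime.pow_right ⟨1, -(s : ℤ), ?_⟩
    rw [hs]; push_cast; ring
  have haS : (S : ℤ) ∣ a - W.c₄ := by
    refine hsplit 256 (by simpa using hco 8) ?_
    rw [← ea]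
    convert c4S using 2
    simp only [c4L]; ring
  have hbS : (S : ℤ) ∣ b - W.c₆ := by
    refine hsplit 4096 (by simpa using hco 12) ?_
    rw [← eb]
    convert c6S using 2
    simp only [c6L]; ring
  have hdS : (S : ℤ) ∣ d - 1 := by
    refine hsplit 256 (by simpa using hco 8) ?_
    rw [← ed]
    convert dS using 2
    simp only [dL]; ring
  have h243 : (243 : ℤ) ∣ (S : ℤ) := ⟨3 * (M * δ), by rw [hS]; push_cast; ring⟩
  obtain ⟨W', h4, h6⟩ := exists_model_two W (h243.trans haS) (h243.trans hbS) hao hb4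
    ⟨_, hcube⟩
  have hΔ' : W'.Δ = W.Δ * d ^ 3 := by
    refine mul_left_cancel₀ (by norm_num : (1728 : ℤ) ≠ 0) ?_
    rw [← hcube, ← cube_sub_sq_eq, h4, h6]
  have hd0 : d ≠ 0 := fun h => hd2 (by rw [ed, h, mul_zero]; exact dvd_zero _)
  have hΔ'0 : W'.Δ ≠ 0 := hΔ' ▸ mul_ne_zero hΔ (pow_ne_zero 3 hd0)
  have hqS : ∀ q : ℕ, q.Prime → q ≠ 2 → (q : ℤ) ∣ 3 * M * W.Δ → (q : ℤ) ∣ (S : ℤ) := by
    intro q hq hq2 h
    have h' : q ∣ 3 * M * (2 ^ v * δ) := by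
      rw [← hΔδ]
      simpa [Int.natAbs_mul] using Int.natCast_dvd.1 h
    rw [Int.natCast_dvd_natCast, hS]
    rcases hq.dvd_mul.1 h' with h' | h'
    · rcases hq.dvd_mul.1 h' with h' | h'
      · exact (h'.trans (by norm_num : 3 ∣ 729)).mul_right _
      · exact (h'.mul_right δ).mul_left _
    · rcases hq.dvd_mul.1 h' with h' | h'
      · exact absurd ((Nat.prime_dvd_prime_iff_eq hq Nat.prime_two).1 (hq.dvd_of_dvd_pow h')) hq2
      · exact (h'.mul_left M).mul_left _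
  have hndvd : ∀ q : ℕ, q.Prime → q ≠ 2 → (q : ℤ) ∣ 3 * M * W.Δ → ¬ (q : ℤ) ∣ d :=
    fun q hq hq2 h h' => hq.not_dvd_one
      (Int.natCast_dvd_natCast.1 ((dvd_sub_right h').1 ((hqS q hq hq2 h).trans hdS)))
  have hroot' : ∀ X₀ : ℤ, X₀ ^ 3 - 27 * W'.c₄ * X₀ - 54 * W'.c₆ ≠ 0 := fun X₀ h =>
    hroot (16 * X₀) (by rw [ea, eb, ← h4, ← h6]; linear_combination (4096 : ℤ) * h)
  have hMℓ : M < ℓ := by
    have h1 : M ≤ S := by
      rw [hS]
      exact (Nat.le_mul_of_pos_right M hδ.pos).trans (Nat.le_mul_of_pos_left _ (by norm_num))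
    have h2 : S ≤ T := by rw [hT]; exact Nat.le_mul_of_pos_left _ (Nat.two_pow_pos _)
    omega
  have hℓΔ : ¬ (ℓ : ℤ) ∣ W.Δ := fun h => hnd (by rw [cube_sub_sq_eq]; exact h.mul_left _)
  have hc4odd : ¬ (2 : ℤ) ∣ W'.c₄ := by
    rw [h4, ← even_iff_two_dvd]; exact Int.not_even_iff_odd.2 hao
  refine ⟨W', ?_, ?_, ⟨?_, ?_⟩, ⟨d, hndvd, hΔ'⟩, ?_, ⟨?_, hc4odd, ?_⟩, ?_,
    modRepIsIrreducible_two_of_no_root W' hΔ'0 hroot', ℓ, hℓ, hMℓ, h3ℓ, hℓΔ, ?_⟩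
  · refine congr3_pencil (l := l) (m := m) (t := 4) (by norm_num) hΔ
      (by rw [ed]; exact mul_ne_zero (by norm_num) hd0) ?_ ?_
    · rw [h4, ea]; push_cast; ring
    · rw [h6, eb]; push_cast; ring
  · intro q hq hqΔ hqc
    by_cases hq2 : q = 2
    · subst hq2; exact hc4odd hqc
    rw [hΔ'] at hqΔ
    rw [h4] at hqc
    have hqi := Nat.prime_iff_prime_int.1 hq
    by_cases hqS' : (q : ℤ) ∣ 3 * M * W.Δ
    · have hqW := (hqi.dvd_or_dvd hqΔ).resolve_right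
        fun h => hndvd q hq hq2 hqS' (hqi.dvd_of_dvd_pow h)
      exact hW q hq hqW ((dvd_sub_right hqc).1 ((hqS q hq hq2 hqS').trans haS))
    · have hqW : ¬ (q : ℤ) ∣ W.Δ := fun h => hqS' (h.mul_left _)
      have hq3 : q ≠ 3 := fun h => hqS' (h ▸ ((dvd_refl _).mul_right _).mul_right _)
      refine not_dvd_dL_c4L hq hq2 hq3 hqW hlm ⟨?_, ?_⟩
      · rw [ed]
        exact (hqi.dvd_of_dvd_pow ((hqi.dvd_or_dvd hqΔ).resolve_left hqW)).mul_left _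
      · rw [ea]; exact hqc.mul_left _
  · have : (M : ℤ) ∣ (S : ℤ) := ⟨729 * δ, by rw [hS]; push_cast; ring⟩
    rw [h4]; exact this.trans haS
  · have : (M : ℤ) ∣ (S : ℤ) := ⟨729 * δ, by rw [hS]; push_cast; ring⟩
    rw [h6]; exact this.trans hbS
  · intro q hq hq2 h
    rw [hΔ', padicValInt_mul_cube hq hΔ hd0,
      padicValInt.eq_zero_of_not_dvd (hndvd q hq hq2 h), mul_zero, add_zero]
  · rw [hΔ']
    exact ((dvd_pow_self (2 : ℤ) (by omega)).trans ⟨_, hd⟩ |>.trans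
      (dvd_pow_self d three_ne_zero)).mul_left _
  · have : Fact (Nat.Prime 2) := ⟨Nat.prime_two⟩
    have ho : Odd (27 * u + 2 ^ 16 * γ) :=
      ((by decide : Odd (27 : ℤ)).mul huo).add_even ((by decide : Even ((2 : ℤ) ^ 16)).mul_right _)
    have hvd : padicValInt 2 d = j' + 1 := by
      rw [hd, padicValInt.mul (pow_ne_zero _ two_ne_zero)
        (fun h => by rw [h] at ho; exact absurd ho (by decide)),
        padicValInt.eq_zero_of_not_dvd (z := 27 * u + 2 ^ 16 * γ)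
          (fun h => Int.not_even_iff_odd.2 ho (even_iff_two_dvd.2 h)),
        add_zero]
      simp [padicValInt, Int.natAbs_pow]
    rw [hΔ', padicValInt_mul_cube Nat.prime_two hΔ hd0, hvd]
  · have h1 : (1728 * 256) * (W.Δ * d) < 0 := by
      rw [ed, cube_sub_sq_eq] at hneg; linarith
    have h2 : 0 < d ^ 2 := by positivity
    rw [hΔ', show W.Δ * d ^ 3 = W.Δ * d * d ^ 2 by ring]
    exact mul_neg_of_neg_of_pos (by linarith) h2
  · have hℓ256 : ¬ (ℓ : ℤ) ∣ 256 := fun h => by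
      have := (Nat.prime_dvd_prime_iff_eq hℓ Nat.prime_two).1
        (hℓ.dvd_of_dvd_pow (show ℓ ∣ 2 ^ 8 from Int.natCast_dvd_natCast.1 h))
      omega
    rw [ed] at hd1 hd2
    rw [hΔ', padicValInt_mul_cube hℓ hΔ hd0, padicValInt.eq_zero_of_not_dvd hℓΔ,
      padicValInt_eq_one hℓ (((Nat.prime_iff_prime_int.1 hℓ).dvd_or_dvd hd1).resolve_left hℓ256)
        (fun h => hd2 (h.mul_left _))]

end Fermat.Agent.SwitchThree
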