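import Mathlib
import Fermat.Agent.SwitchThree.MainTwo
import Fermat.Agent.SwitchThree.Cusp

/-!
# The 3-switch to a curve with odd valuation at every bad prime

For a semistable `W` multiplicative at 2 there is a semistable `W'` with isomorphic 3-torsion,
multiplicative at 2, negative discriminant, irreducible mod 2 representation, such that `v_q(Δ')` is
odd at every bad prime `q` and equals `3` at the new ones.

Main result: `exists_switch_genus`.
-/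

set_option autoImplicit false

open Filter

namespace Fermat.Agent.SwitchThree

open WeierstrassCurve

/-- All conditions on the parameter, with squarefree values of the cusp form outside `T`. -/
theorem exists_param_squarefree {a b : ℤ} (hab : a ^ 3 ≠ b ^ 2) {T : ℕ} (hT : T ≠ 0) (h6 : 6 ∣ T)
    (hdisc : ∀ p : ℕ, p.Prime → (p : ℤ) ∣ a ^ 3 - b ^ 2 → p ∣ T) (A B : ℤ)
    (h : ∀ p : ℕ, p.Prime → p ∣ T → ¬ ((p : ℤ) ∣ A ∧ (p : ℤ) ∣ B)) :
    ∃ l m : ℤ, IsCoprime l m ∧ (T : ℤ) ∣ l - A ∧ (T : ℤ) ∣ m - B ∧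
      (a ^ 3 - b ^ 2) * dL l m a b < 0 ∧
      (∀ X₀ : ℤ, X₀ ^ 3 - 27 * c4L l m a b * X₀ - 54 * c6L l m a b ≠ 0) ∧
      (∀ p : ℕ, p.Prime → ¬ p ∣ T → ¬ (p : ℤ) ^ 2 ∣ dL l m a b) ∧
      ∃ ℓ : ℕ, ℓ.Prime ∧ T < ℓ ∧ ¬ (ℓ : ℤ) ∣ a ^ 3 - b ^ 2 ∧ (ℓ : ℤ) ∣ dL l m a b := by
  obtain ⟨T', L, M, ℓ, hT'0, hTT', hℓ, hTℓ, -, hndℓ, good, hprop⟩ := exists_class hab hT A B h
  obtain ⟨t, rfl⟩ := Int.eq_ofNat_of_zero_le hT'0.le
  have ht : 0 < t := by exact_mod_cast hT'0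
  have hTt : T ∣ t := Int.natCast_dvd_natCast.1 hTT'
  obtain ⟨l₀, hl₀⟩ := Int.eq_ofNat_of_zero_le (Int.emod_nonneg L hT'0.ne')
  obtain ⟨m₀, hm₀⟩ := Int.eq_ofNat_of_zero_le (Int.emod_nonneg M hT'0.ne')
  have hl₀lt : l₀ < t := by
    have := Int.emod_lt_of_pos L hT'0; rw [hl₀] at this; exact_mod_cast this
  have hm₀lt : m₀ < t := by
    have := Int.emod_lt_of_pos M hT'0; rw [hm₀] at this; exact_mod_cast this
  have hdl : ∀ n : ℕ, (t : ℤ) ∣ ((l₀ + t * n : ℕ) : ℤ) - L := fun n =>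
    ⟨(n : ℤ) - L / t, by
      have := Int.emod_add_mul_ediv L t; rw [hl₀] at this; push_cast; linear_combination this⟩
  have hdm : ∀ n : ℕ, (t : ℤ) ∣ ((m₀ + t * n : ℕ) : ℤ) - M := fun n =>
    ⟨(n : ℤ) - M / t, by
      have := Int.emod_add_mul_ediv M t; rw [hm₀] at this; push_cast; linear_combination this⟩
  have hcop : ∀ p : ℕ, p.Prime → p ∣ t → ¬ (p ∣ l₀ ∧ p ∣ m₀) := fun p hp hpt hh =>
    good p hp (Int.natCast_dvd_natCast.2 hpt) l₀ m₀ (by simpa using hdl 0) (by simpa using hdm 0)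
      ⟨Int.natCast_dvd_natCast.2 hh.1, Int.natCast_dvd_natCast.2 hh.2⟩
  set K : ℕ := 1 + a.natAbs + b.natAbs with hKdef
  have hK : (K : ℤ) = 1 + |a| + |b| := by rw [hKdef]; push_cast; rfl
  -- a box with the right sign
  obtain ⟨u, v, hu, hv, hsign⟩ : ∃ u v : ℕ, 1 ≤ u ∧ 1 ≤ v ∧ ∀ N i k : ℕ, 1 ≤ N → i < N → k < N →
      (a ^ 3 - b ^ 2) * dL ((l₀ + t * (u * N + i) : ℕ) : ℤ) ((m₀ + t * (v * N + k) : ℕ) : ℤ) a b
        < 0 := by
    have hN : ∀ N n : ℕ, 1 ≤ N → n < N → ∀ r < t, r + t * (1 * N + n) < 3 * (t * N) := by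
      intro N n hN hn r hr
      calc r + t * (1 * N + n) < t + t * (1 * N + n) := by omega
        _ ≤ t * N + t * (N + N) := by
          gcongr
          · exact Nat.le_mul_of_pos_right _ hN
          · omega
        _ = 3 * (t * N) := by ring
    have hbig : ∀ w N n r : ℕ, w * (t * N) ≤ r + t * (w * N + n) := fun w N n r => by
      calc w * (t * N) = t * (w * N) := by ring
        _ ≤ r + t * (w * N + n) := le_add_left (Nat.mul_le_mul_left t (Nat.le_add_right _ _))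
    rcases lt_trichotomy (a ^ 3 - b ^ 2) 0 with hneg | h0 | hpos
    · refine ⟨60 * K ^ 2 + 1, 1, by omega, le_rfl, fun N i k hN1 _ hk => ?_⟩
      have h1 := hbig (60 * K ^ 2 + 1) N i l₀
      have h2 := hN N k hN1 hk m₀ hm₀lt
      have hm1 : 0 < m₀ + t * (1 * N + k) := by
        have : 0 < t * (1 * N + k) := Nat.mul_pos ht (by omega)
        omega
      refine mul_neg_of_neg_of_pos hneg (dL_pos_of_large (by exact_mod_cast hm1.ne') ?_)
      rw [← hK, Nat.abs_cast]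
      have : 20 * K ^ 2 * (m₀ + t * (1 * N + k)) < l₀ + t * ((60 * K ^ 2 + 1) * N + i) := by
        nlinarith
      exact_mod_cast this
    · exact absurd (sub_eq_zero.1 h0) hab
    · have ha : a ≠ 0 := fun ha => by rw [ha] at hpos; nlinarith
      refine ⟨1, 15 * K + 1, le_rfl, by omega, fun N i k hN1 hi _ => ?_⟩
      have h1 := hbig (15 * K + 1) N k m₀
      have h2 := hN N i hN1 hi l₀ hl₀lt
      have hl1 : 0 < l₀ + t * (1 * N + i) := by
        have : 0 < t * (1 * N + i) := Nat.mul_pos ht (by omega)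
        omega
      refine mul_neg_of_pos_of_neg hpos (dL_neg_of_large ha (by exact_mod_cast hl1) ?_)
      rw [← hK]
      have : 5 * K * (l₀ + t * (1 * N + i)) < m₀ + t * ((15 * K + 1) * N + k) := by
        nlinarith
      exact_mod_cast this
  obtain ⟨N, ⟨i, k, hi, hk, hco, hsq⟩, hN⟩ := ((eventually_exists_squarefree (a := a) (b := b)
    ht.ne' (h6.trans hTt) (fun p hp hd => (hdisc p hp hd).trans hTt) l₀ m₀ hl₀lt hm₀lt hcop u v hu
    hv (fun N i k hN hi hk h0 => by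
      have := hsign N i k hN hi hk; rw [h0, mul_zero] at this; exact lt_irrefl _ this)).and
    (eventually_ge_atTop 1)).exists
  obtain ⟨h1, h2, h3, h4, h5⟩ := hprop _ _ (hdl (u * N + i)) (hdm (v * N + k))
  refine ⟨_, _, hco, h1, h2, hsign N i k hN hi hk, h3, fun p hp hpT => ?_,
    ℓ, hℓ, hTℓ, hndℓ, h4.1⟩
  by_cases hpt : p ∣ t
  · exact h5 p hp (Int.natCast_dvd_natCast.2 hpt) hpT
  · exact hsq p hp hpt

theorem dvd_of_padicValInt_ne_zero {q : ℕ} {d : ℤ} (h : padicValInt q d ≠ 0) : (q : ℤ) ∣ d := by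
  by_contra hd
  exact h (padicValInt.eq_zero_of_not_dvd hd)

theorem padicValInt_eq_of_dvd {q n : ℕ} (hq : q.Prime) {d : ℤ} (h1 : (q : ℤ) ^ n ∣ d)
    (h2 : ¬ (q : ℤ) ^ (n + 1) ∣ d) : padicValInt q d = n := by
  have := Fact.mk hq
  have hd : d ≠ 0 := fun h => h2 (h ▸ dvd_zero _)
  have e1 := ((padicValInt_dvd_iff n d).1 h1).resolve_left hd
  have e2 : ¬ n + 1 ≤ padicValInt q d := fun h => h2 ((padicValInt_dvd_iff _ d).2 (Or.inr h))
  omega

/-- Large primes `≡ 1 (mod 12)` at which the cusp form has a root of exact valuation one where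
`c4L` is a unit. -/
theorem exists_split_prime (W : WeierstrassCurve ℤ) (hΔ : W.Δ ≠ 0) (N : ℕ) :
    ∃ q : ℕ, q.Prime ∧ N < q ∧ 3 < q ∧ q % 12 = 1 ∧ ¬ (q : ℤ) ∣ W.Δ ∧
      ∃ r : ℤ, (q : ℤ) ∣ dL r 1 W.c₄ W.c₆ ∧ ¬ (q : ℤ) ^ 2 ∣ dL r 1 W.c₄ W.c₆ ∧
        ¬ (q : ℤ) ∣ c4L r 1 W.c₄ W.c₆ := by
  have : Algebra.IsAlgebraic ℚ (AlgebraicClosure ℚ) := AlgebraicClosure.isAlgebraic ℚ
  let k := AlgebraicClosure ℚ
  obtain ⟨x, hx⟩ := IsAlgClosed.exists_root (Polynomial.X ^ 4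
    + Polynomial.C (-6 * (W.c₄ : k)) * Polynomial.X ^ 2
    + Polynomial.C (-8 * (W.c₆ : k)) * Polynomial.X
    + Polynomial.C (-3 * (W.c₄ : k) ^ 2))
    (by
      have h : (Polynomial.X ^ 4 + Polynomial.C (-6 * (W.c₄ : k)) * Polynomial.X ^ 2
        + Polynomial.C (-8 * (W.c₆ : k)) * Polynomial.X
        + Polynomial.C (-3 * (W.c₄ : k) ^ 2)).degree = 4 := by compute_degree!
      rw [h]; norm_num)
  obtain ⟨y, hy⟩ := IsAlgClosed.exists_root
    (Polynomial.X ^ 4 - Polynomial.X ^ 2 + 1 : Polynomial k)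
    (by
      have h : (Polynomial.X ^ 4 - Polynomial.X ^ 2 + 1 : Polynomial k).degree = 4 := by
        compute_degree!
      rw [h]; norm_num)
  classical
  let X₀ : MvPolynomial (Fin 2) ℤ := MvPolynomial.X 0
  let X₁ : MvPolynomial (Fin 2) ℤ := MvPolynomial.X 1
  let P : MvPolynomial (Fin 2) ℤ := dL X₀ 1 (MvPolynomial.C W.c₄) (MvPolynomial.C W.c₆)
  let Q : MvPolynomial (Fin 2) ℤ := X₁ ^ 4 - X₁ ^ 2 + 1
  obtain ⟨q, hq, hlt, x', y', hS⟩ := exists_prime_point x y {P, Q} (fun R hR => by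
      rcases Finset.mem_insert.1 hR with rfl | hR
      · simp only [Polynomial.IsRoot.def, Polynomial.eval_add, Polynomial.eval_mul,
          Polynomial.eval_pow, Polynomial.eval_X, Polynomial.eval_C] at hx
        simp only [P, X₀, dL, map_sub, map_mul, map_pow, map_ofNat, map_one, map_intCast,
          MvPolynomial.aeval_X, eq_intCast,
          Matrix.cons_val_zero]
        linear_combination hx
      · rw [Finset.mem_singleton] at hR
        subst hR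
        simp only [Polynomial.IsRoot.def, Polynomial.eval_add, Polynomial.eval_sub,
          Polynomial.eval_pow, Polynomial.eval_X, Polynomial.eval_one] at hy
        simp only [Q, X₁, map_sub, map_add, map_pow, map_one, MvPolynomial.aeval_X,
          Matrix.cons_val_one, Matrix.cons_val_zero]
        linear_combination hy)
    (max N (max 3 W.Δ.natAbs))
  have := Fact.mk hq
  have hqΔ : ¬ (q : ℤ) ∣ W.Δ := fun hd => by
    have := Int.natAbs_le_of_dvd_ne_zero hd hΔ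
    simp only [Int.natAbs_natCast] at this
    omega
  have hPq : (q : ℤ) ∣ dL (x'.val : ℤ) 1 W.c₄ W.c₆ := by
    rw [← dvd_map_iff, ← eq_intCast (Int.castRingHom (ZMod q)), map_dL]
    have := hS P (Finset.mem_insert_self _ _)
    simp only [P, X₀, dL, map_sub, map_mul, map_pow, map_ofNat, map_one, map_intCast,
      MvPolynomial.aeval_X, eq_intCast, Matrix.cons_val_zero] at this
    simp only [dL, eq_intCast, Int.cast_one, Int.cast_natCast, ZMod.natCast_zmod_val]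
    linear_combination this
  have hy' : y' ^ 4 - y' ^ 2 + 1 = 0 := by
    have := hS Q (Finset.mem_insert_of_mem (Finset.mem_singleton_self _))
    simpa [Q, X₁] using this
  have h3q : (3 : ZMod q) ≠ 0 := by
    exact_mod_cast ofNat_ne_zero_zmod (n := 3) (by norm_num) (by omega)
  have h2q : (2 : ZMod q) ≠ 0 := by
    exact_mod_cast ofNat_ne_zero_zmod (n := 2) (by norm_num) (by omega)
  have hy0 : y' ≠ 0 := fun h => by simp [h] at hy'
  have hord : orderOf y' = 12 := by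
    refine orderOf_eq_of_pow_and_pow_div_prime (by norm_num) ?_ fun p hp hd => ?_
    · linear_combination (y' ^ 8 + y' ^ 6 - y' ^ 2 - 1) * hy'
    · have hple : p ≤ 12 := Nat.le_of_dvd (by norm_num) hd
      intro h
      have hp' : p = 2 ∨ p = 3 := by
        interval_cases p <;> first | omega | (norm_num at hp)
      rcases hp' with rfl | rfl <;> norm_num at h
      · exact h2q (by linear_combination (y' ^ 2 + 1) * hy' - h)
      · exact h3q (by linear_combination (y' ^ 2 + 2) * hy' - (y' ^ 2 + 1) * h)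
  have h12 : q % 12 = 1 := by
    have := ZMod.orderOf_dvd_card_sub_one hy0
    rw [hord] at this
    omega
  have hdq : ¬ (q : ℤ) ∣ W.c₄ ^ 3 - W.c₆ ^ 2 := by
    rw [cube_sub_sq_eq]
    intro h
    rcases (Nat.prime_iff_prime_int.1 hq).dvd_or_dvd h with h | h
    · have h' : q ∣ 2 ^ 6 * 3 ^ 3 := by
        exact_mod_cast (show (q : ℤ) ∣ 2 ^ 6 * 3 ^ 3 by norm_num; exact h)
      rcases hq.dvd_mul.1 h' with h | h <;>
      · have := Nat.le_of_dvd (by norm_num) (hq.dvd_of_dvd_pow h)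
        omega
    · exact hqΔ h
  obtain ⟨r, hr1, hr2⟩ := exists_val_one hq (by omega) hdq hPq
  refine ⟨q, hq, by omega, by omega, h12, hqΔ, r, hr1, hr2, fun h => ?_⟩
  exact not_dvd_dL_c4L hq (by omega) (by omega) hqΔ (isCoprime_one_right) ⟨hr1, h⟩

/-- **The switch for the genus theory lifting.** For a semistable `W` multiplicative at 2 and `M`
prime to `Δ`: a semistable `W'` with isomorphic 3-torsion, multiplicative at 2, `(c₄', c₆') ≡
(c₄, c₆)` modulo `M` (and modulo `729` if `3 ∤ Δ`), bad at every bad prime of `W`, whose other bad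
primes do not divide `3M` and have `v_q(Δ') = 3`, with `v_q(Δ')` odd at every bad prime, `Δ' < 0`,
irreducible mod 2 representation and two bad primes `≡ 1 (mod 12)` not dividing `Δ`. -/
theorem exists_switch_genus (W : WeierstrassCurve ℤ) (hΔ : W.Δ ≠ 0) (hW : W.IsSemistableModel)
    (h2 : (2 : ℤ) ∣ W.Δ) (M : ℕ) (hMc : IsCoprime (M : ℤ) W.Δ) :
    ∃ W' : WeierstrassCurve ℤ,
      Congr3 (W.map (Int.castRingHom ℚ)) (W'.map (Int.castRingHom ℚ)) ∧
      W'.IsSemistableModel ∧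
      ((2 : ℤ) ∣ W'.Δ ∧ ¬ (2 : ℤ) ∣ W'.c₄) ∧
      ((M : ℤ) ∣ W'.c₄ - W.c₄ ∧ (M : ℤ) ∣ W'.c₆ - W.c₆) ∧
      (¬ (3 : ℤ) ∣ W.Δ → (729 : ℤ) ∣ W'.c₄ - W.c₄ ∧ (729 : ℤ) ∣ W'.c₆ - W.c₆) ∧
      (∀ q : ℕ, q.Prime → (q : ℤ) ∣ W.Δ → (q : ℤ) ∣ W'.Δ) ∧
      (∀ q : ℕ, q.Prime → (q : ℤ) ∣ W'.Δ → Odd (padicValInt q W'.Δ)) ∧
      (∀ q : ℕ, q.Prime → (q : ℤ) ∣ W'.Δ →
        (q : ℤ) ∣ W.Δ ∨ (¬ q ∣ 3 * M ∧ padicValInt q W'.Δ = 3)) ∧
      W'.Δ < 0 ∧ W'.ModRepIsIrreducible 2 ∧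
      ∃ q r : ℕ, q.Prime ∧ r.Prime ∧ q ≠ r ∧ q % 12 = 1 ∧ r % 12 = 1 ∧
        ¬ (q : ℤ) ∣ W.Δ ∧ ¬ (r : ℤ) ∣ W.Δ ∧ (q : ℤ) ∣ W'.Δ ∧ (r : ℤ) ∣ W'.Δ := by
  classical
  have hab := cube_ne_sq W hΔ
  have h24 : ¬ (2 : ℤ) ∣ W.c₄ := hW 2 Nat.prime_two (by exact_mod_cast h2)
  obtain ⟨x₀, hx₀, hx₀'⟩ := exists_abscissa_of_multiplicative W h2 h24
  obtain ⟨x, w, hxo, hwo, hw⟩ := exists_divThree_exact W hx₀ hx₀' (padicValInt 2 W.Δ % 2)
  set j₂ := padicValInt 2 W.Δ % 2 with hj₂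
  -- the split primes and the odd bad primes
  have hM0 : M ≠ 0 := fun h => by
    subst h
    rw [Nat.cast_zero, isCoprime_zero_left, Int.isUnit_iff] at hMc
    rcases hMc with h | h <;> rw [h] at h2 <;> norm_num at h2
  obtain ⟨q₁, hq₁, hMq₁, h3q₁, h12q₁, hΔq₁, r₁, hr₁⟩ := exists_split_prime W hΔ (729 * M)
  obtain ⟨q₂, hq₂, hMq₂, h3q₂, h12q₂, hΔq₂, r₂, hr₂⟩ :=
    exists_split_prime W hΔ (max (729 * M) q₁)
  set s := W.Δ.natAbs.primeFactors.erase 2 ∪ {q₁, q₂} with hs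
  have hsmem : ∀ q, q ∈ s ↔ q.Prime ∧ q ≠ 2 ∧ ((q : ℤ) ∣ W.Δ ∨ q = q₁ ∨ q = q₂) := fun q => by
    rw [hs, Finset.mem_union, Finset.mem_erase, Finset.mem_insert, Finset.mem_singleton,
      Nat.mem_primeFactors_of_ne_zero (Int.natAbs_ne_zero.2 hΔ), Int.natCast_dvd]
    constructor
    · rintro (⟨h1, h2, h3⟩ | rfl | rfl)
      · exact ⟨h2, h1, Or.inl h3⟩
      · exact ⟨hq₁, by omega, Or.inr (Or.inl rfl)⟩
      · exact ⟨hq₂, by omega, Or.inr (Or.inr rfl)⟩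
    · rintro ⟨h1, h2, h3 | h3⟩
      · exact Or.inl ⟨h2, h1, h3⟩
      · exact Or.inr h3
  have hcusp : ∀ q : ℕ, ∃ r : ℤ, q ∈ s →
      (q : ℤ) ^ (padicValInt q W.Δ % 2 + 1) ∣ dL r 1 W.c₄ W.c₆ ∧
      ¬ (q : ℤ) ^ (padicValInt q W.Δ % 2 + 2) ∣ dL r 1 W.c₄ W.c₆ ∧
      ¬ (q : ℤ) ∣ c4L r 1 W.c₄ W.c₆ := by
    intro q
    by_cases hq : q ∈ s
    · obtain ⟨hqp, hq2, hqΔ | rfl | rfl⟩ := (hsmem q).1 hq
      · obtain ⟨r, hr⟩ := exists_cusp_param hqp hq2 (a := W.c₄) (b := W.c₆)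
          (by rw [cube_sub_sq_eq]; exact hqΔ.mul_left _) (hW q hqp hqΔ) (padicValInt q W.Δ % 2)
        exact ⟨r, fun _ => hr⟩
      · refine ⟨r₁, fun _ => ?_⟩
        rw [padicValInt.eq_zero_of_not_dvd hΔq₁]
        simpa using hr₁
      · refine ⟨r₂, fun _ => ?_⟩
        rw [padicValInt.eq_zero_of_not_dvd hΔq₂]
        simpa using hr₂
    · exact ⟨0, fun h => absurd h hq⟩
  choose c hc using hcusp
  obtain ⟨r, hr⟩ := exists_simultaneous s (fun q => (q : ℤ) ^ 3) (fun p hp q hq hne =>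
    IsCoprime.pow (Int.isCoprime_iff_nat_coprime.2 (by
      simpa using (Nat.coprime_primes ((hsmem p).1 hp).1 ((hsmem q).1 hq).1).2 hne))) c
  set P : ℕ := ∏ q ∈ s, q ^ 3 with hP
  have hP0 : P ≠ 0 := Finset.prod_ne_zero_iff.2 fun q hq => pow_ne_zero _ ((hsmem q).1 hq).1.ne_zero
  have hqP : ∀ q ∈ s, (q : ℤ) ^ 3 ∣ (P : ℤ) := fun q hq => by
    rw [← Nat.cast_pow, Int.natCast_dvd_natCast, hP]
    exact Finset.dvd_prod_of_mem (fun q => q ^ 3) hq
  -- the modulus at the good primes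
  obtain ⟨G, hMG, hGΔ, h3G, hGM⟩ : ∃ G : ℕ, M ∣ G ∧ IsCoprime (G : ℤ) W.Δ ∧
      ((3 : ℤ) ∣ W.Δ ∨ 729 ∣ G) ∧ G ∣ 729 * M := by
    by_cases h3 : (3 : ℤ) ∣ W.Δ
    · exact ⟨M, dvd_rfl, hMc, Or.inl h3, dvd_mul_left _ _⟩
    · refine ⟨729 * M, dvd_mul_left _ _, ?_, Or.inr (dvd_mul_right _ _), dvd_rfl⟩
      push_cast
      refine IsCoprime.mul_left ?_ hMc
      rw [show (729 : ℤ) = 3 ^ 6 by norm_num]
      exact ((Int.prime_three.coprime_iff_not_dvd).2 h3).pow_left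
  have hG2 : IsCoprime (G : ℤ) 2 := hGΔ.of_isCoprime_of_dvd_right h2
  have hGP : IsCoprime (G : ℤ) (P : ℤ) := by
    rw [hP]; push_cast
    refine IsCoprime.prod_right fun q hq => IsCoprime.pow_right ?_
    obtain ⟨hqp, -, hqΔ | hq'⟩ := (hsmem q).1 hq
    · exact hGΔ.of_isCoprime_of_dvd_right hqΔ
    · refine (((Nat.prime_iff_prime_int.1 hqp).coprime_iff_not_dvd).2 fun h => ?_).symm
      have := Nat.le_of_dvd (by omega) ((Int.natCast_dvd_natCast.1 h).trans hGM)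
      rcases hq' with rfl | rfl <;> omega
  have hP2 : IsCoprime ((2 : ℤ) ^ 25) (P : ℤ) := by
    refine IsCoprime.pow_left ?_
    rw [hP, Nat.cast_prod]
    refine IsCoprime.prod_right fun q hq => ?_
    rw [Nat.cast_pow]
    refine IsCoprime.pow_right ((Int.prime_two.coprime_iff_not_dvd).2 fun h => ?_)
    exact ((hsmem q).1 hq).2.1 ((Nat.prime_dvd_prime_iff_eq Nat.prime_two ((hsmem q).1 hq).1).1
      (Int.natCast_dvd_natCast.1 h)).symm
  have hG0 : G ≠ 0 := fun h => by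
    rw [h] at hG2; simp [isCoprime_zero_left, Int.isUnit_iff] at hG2
  have hbad : IsCoprime ((2 : ℤ) ^ 25 * P) (G : ℤ) := hG2.symm.pow_left.mul_left hGP.symm
  obtain ⟨r', hr'2, hr'P⟩ := exists_crt hP2 (12 * x + W.b₂) r
  obtain ⟨A, hA, hAG⟩ := exists_crt hbad r' 4
  obtain ⟨B, hB, hBG⟩ := exists_crt hbad 1 0
  set T : ℕ := 2 ^ 25 * P * G with hT
  have hT0 : T ≠ 0 := Nat.mul_ne_zero (Nat.mul_ne_zero (by norm_num) hP0) hG0
  have d2T : (2 : ℤ) ^ 25 ∣ (T : ℤ) := ⟨P * G, by rw [hT]; push_cast; ring⟩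
  have dPT : (P : ℤ) ∣ (T : ℤ) := ⟨2 ^ 25 * G, by rw [hT]; push_cast; ring⟩
  have dGT : (G : ℤ) ∣ (T : ℤ) := ⟨2 ^ 25 * P, by rw [hT]; push_cast; ring⟩
  clear_value T P
  have h6 : 6 ∣ T := by
    refine (show Nat.Coprime 2 3 by norm_num).mul_dvd_of_dvd_of_dvd ?_ ?_ <;>
      rw [← Int.natCast_dvd_natCast] <;> push_cast
    · exact (dvd_pow_self (2 : ℤ) (by norm_num)).trans d2T
    · rcases h3G with h3 | h3
      · exact ((dvd_pow_self _ (by norm_num)).trans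
          (hqP 3 ((hsmem 3).2 ⟨Nat.prime_three, by norm_num, Or.inl h3⟩))).trans dPT
      · exact ((dvd_trans (by norm_num : (3 : ℤ) ∣ 729)
          (by exact_mod_cast h3 : (729 : ℤ) ∣ (G : ℤ)))).trans dGT
  have hdisc : ∀ p : ℕ, p.Prime → (p : ℤ) ∣ W.c₄ ^ 3 - W.c₆ ^ 2 → p ∣ T := by
    intro p hp hd
    rw [cube_sub_sq_eq] at hd
    by_cases hp2 : p = 2
    · subst hp2; exact Dvd.dvd.trans (by norm_num) h6
    by_cases hp3 : p = 3
    · subst hp3; exact Dvd.dvd.trans (by norm_num) h6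
    rcases (Nat.prime_iff_prime_int.1 hp).dvd_or_dvd hd with h | h
    · exfalso
      have h' : p ∣ 2 ^ 6 * 3 ^ 3 := by
        exact_mod_cast (show (p : ℤ) ∣ 2 ^ 6 * 3 ^ 3 by norm_num; exact h)
      rcases hp.dvd_mul.1 h' with h | h
      · exact hp2 ((Nat.prime_dvd_prime_iff_eq hp Nat.prime_two).1 (hp.dvd_of_dvd_pow h))
      · exact hp3 ((Nat.prime_dvd_prime_iff_eq hp Nat.prime_three).1 (hp.dvd_of_dvd_pow h))
    · exact Int.natCast_dvd_natCast.1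
        (((dvd_pow_self _ (by norm_num)).trans (hqP p ((hsmem p).2 ⟨hp, hp2, Or.inl h⟩))).trans dPT)
  obtain ⟨l, m, hlm, hl, hm, hneg, hroot, hsq, ℓ, hℓ, hTℓ, hndℓ, hℓd⟩ :=
    exists_param_squarefree hab hT0 h6 hdisc A B (by
      intro p hp hpT ⟨hpA, hpB⟩
      have hpi := Nat.prime_iff_prime_int.1 hp
      have h' : (p : ℤ) ∣ (2 : ℤ) ^ 25 * P * G := by
        rw [show (2 : ℤ) ^ 25 * P * G = (T : ℤ) by rw [hT]; push_cast; rfl]
        exact Int.natCast_dvd_natCast.2 hpT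
      rcases hpi.dvd_or_dvd h' with h | h
      · have h1 := (dvd_sub_right hpB).1 (h.trans hB)
        exact hp.one_lt.ne' (by exact_mod_cast Int.eq_one_of_dvd_one (by positivity) h1)
      · have h4 : (p : ℤ) ∣ 4 := (dvd_sub_right hpA).1 (h.trans hAG)
        obtain rfl := (Nat.prime_dvd_prime_iff_eq hp Nat.prime_two).1
          (hp.dvd_of_dvd_pow (show p ∣ 2 ^ 2 from Int.natCast_dvd_natCast.1 h4))
        exact hpi.not_isUnit (hG2.isUnit_of_dvd' h (by norm_num)))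
  -- the values in the three kinds of classes
  have lG : (G : ℤ) ∣ l - 4 := by
    rw [← sub_add_sub_cancel l A 4]; exact dvd_add (dGT.trans hl) hAG
  have mG : (G : ℤ) ∣ m - 0 := by
    rw [← sub_add_sub_cancel m B 0]; exact dvd_add (dGT.trans hm) hBG
  have l2 : ((2 ^ 25 : ℕ) : ℤ) ∣ l - (12 * x + W.b₂) := by
    rw [Nat.cast_pow, Nat.cast_ofNat, ← sub_add_sub_cancel l A (12 * x + W.b₂)]
    refine dvd_add (d2T.trans hl) ?_
    rw [← sub_add_sub_cancel A r' (12 * x + W.b₂)]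
    exact dvd_add ((dvd_mul_right _ _).trans hA) hr'2
  have m2 : ((2 ^ 25 : ℕ) : ℤ) ∣ m - 1 := by
    rw [Nat.cast_pow, Nat.cast_ofNat, ← sub_add_sub_cancel m B 1]
    exact dvd_add (d2T.trans hm) ((dvd_mul_right _ _).trans hB)
  obtain ⟨c4G, c6G, dG⟩ := congr_of_param lG mG W.c₄ W.c₆
  obtain ⟨c4two, c6two, dtwo⟩ := congr_of_param l2 m2 W.c₄ W.c₆
  rw [c4L_special] at c4two
  rw [c6L_special] at c6two
  rw [dL_special] at dtwo
  rw [Nat.cast_pow, Nat.cast_ofNat] at c4two c6two dtwo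
  set U := 729 * divTwoSq W x ^ 2 - 648 * divThree W x * (6 * x ^ 2 + W.b₂ * x + W.b₄) with hU
  set V := 19683 * divTwoSq W x ^ 3 + 54 * divThree W x * sixCofactor W x with hV
  obtain ⟨α, hα⟩ := c4two
  obtain ⟨β, hβ⟩ := c6two
  obtain ⟨γ, hγ⟩ := dtwo
  set a := U + 2 ^ 17 * α with ha
  set b := V + 2 ^ 13 * β with hb
  set d := 27 * divThree W x + 2 ^ 17 * γ with hddef
  have ea : c4L l m W.c₄ W.c₆ = 256 * a := by rw [ha]; linear_combination hα
  have eb : c6L l m W.c₄ W.c₆ = 4096 * b := by rw [hb]; linear_combination hβ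
  have ed : dL l m W.c₄ W.c₆ = 256 * d := by rw [hddef]; linear_combination hγ
  clear_value a b d
  have hao : Odd a := by
    rw [ha, hU]
    exact (((by decide : Odd (729 : ℤ)).mul hxo.pow).sub_even
      (((by decide : Even (648 : ℤ)).mul_right _).mul_right _)).add_even
      ((even_two.pow_of_ne_zero (by norm_num)).mul_right _)
  have hb4 : 4 ∣ b - 3 := by
    obtain ⟨z, hz⟩ := four_dvd_divTwoSq_sub_one W hxo
    refine ⟨4920 + 19683 * (3 * z + 12 * z ^ 2 + 16 * z ^ 3)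
      + 27 * 2 ^ j₂ * w * sixCofactor W x + 2 ^ 11 * β, ?_⟩
    rw [hb, hV, hw, show divTwoSq W x = 1 + 4 * z by linarith]
    ring
  have hcube : a ^ 3 - b ^ 2 = 1728 * (W.Δ * d ^ 3) := by
    refine mul_left_cancel₀ (by norm_num : (16777216 : ℤ) ≠ 0) ?_
    have := cube_sub_sq_pencil l m W.c₄ W.c₆
    rw [ea, eb, ed, cube_sub_sq_eq] at this
    linear_combination this
  have hGcop : ∀ k : ℕ, IsCoprime (G : ℤ) (2 ^ k) := fun k => hG2.pow_right
  have hsplit : ∀ c : ℤ, ∀ {z y : ℤ}, IsCoprime (G : ℤ) c → (G : ℤ) ∣ c * z - c * y →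
      (G : ℤ) ∣ z - y := fun c z y hc h => hc.dvd_of_dvd_mul_left (by rwa [mul_sub])
  have haG : (G : ℤ) ∣ a - W.c₄ := by
    refine hsplit 256 (by simpa using hGcop 8) ?_
    rw [← ea]
    convert c4G using 2
    simp only [c4L]; ring
  have hbG : (G : ℤ) ∣ b - W.c₆ := by
    refine hsplit 4096 (by simpa using hGcop 12) ?_
    rw [← eb]
    convert c6G using 2
    simp only [c6L]; ring
  have hdG : (G : ℤ) ∣ d - 1 := by
    refine hsplit 256 (by simpa using hGcop 8) ?_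
    rw [← ed]
    convert dG using 2
    simp only [dL]; ring
  -- at the odd bad primes
  have hodd : ∀ q ∈ s, ¬ (q : ℤ) ∣ a ∧ padicValInt q d = padicValInt q W.Δ % 2 + 1 := by
    intro q hq
    obtain ⟨hqp, hq2, hqΔ⟩ := (hsmem q).1 hq
    obtain ⟨hc1, hc2, hc3⟩ := hc q hq
    have hlq : ((q ^ 3 : ℕ) : ℤ) ∣ l - c q := by
      rw [Nat.cast_pow, ← sub_add_sub_cancel l A (c q)]
      refine dvd_add (((hqP q hq).trans dPT).trans hl) ?_
      rw [← sub_add_sub_cancel A r' (c q)]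
      refine dvd_add (((hqP q hq).trans (dvd_mul_left _ _)).trans hA) ?_
      rw [← sub_add_sub_cancel r' r (c q)]
      exact dvd_add ((hqP q hq).trans hr'P) (hr q hq)
    have hmq : ((q ^ 3 : ℕ) : ℤ) ∣ m - 1 := by
      rw [Nat.cast_pow, ← sub_add_sub_cancel m B 1]
      exact dvd_add (((hqP q hq).trans dPT).trans hm)
        (((hqP q hq).trans (dvd_mul_left _ _)).trans hB)
    obtain ⟨k4, -, kd⟩ := congr_of_param hlq hmq W.c₄ W.c₆
    rw [Nat.cast_pow] at k4 kd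
    rw [ed] at kd
    rw [ea] at k4
    refine ⟨fun h => hc3 ((dvd_sub_right (h.mul_left 256)).1
      ((dvd_pow_self _ (by norm_num)).trans k4)), ?_⟩
    have hco : ∀ n, IsCoprime ((q : ℤ) ^ n) 256 := fun n => by
      rw [show (256 : ℤ) = 2 ^ 8 by norm_num]
      exact (Int.isCoprime_iff_nat_coprime.2 (by
        simpa using (Nat.coprime_primes hqp Nat.prime_two).2 hq2)).pow
    refine padicValInt_eq_of_dvd hqp ((hco _).dvd_of_dvd_mul_left ?_) fun h => hc2 ?_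
    · have h' := ((pow_dvd_pow (q : ℤ) (by omega : padicValInt q W.Δ % 2 + 1 ≤ 3)).trans kd)
      exact (dvd_sub_left hc1).1 h'
    · have h' := ((pow_dvd_pow (q : ℤ) (by omega : padicValInt q W.Δ % 2 + 2 ≤ 3)).trans kd)
      exact (dvd_sub_right (h.mul_left 256)).1 h'
  obtain ⟨W', h4, h6'⟩ : ∃ W' : WeierstrassCurve ℤ, W'.c₄ = a ∧ W'.c₆ = b := by
    rcases h3G with h3 | h3
    · exact exists_model_mult (hodd 3 ((hsmem 3).2 ⟨Nat.prime_three, by norm_num, Or.inl h3⟩)).1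
        hao hb4
        ⟨_, hcube⟩
    · have h243 : (243 : ℤ) ∣ (G : ℤ) := by exact_mod_cast Dvd.dvd.trans (by norm_num) h3
      exact exists_model_two W (h243.trans haG) (h243.trans hbG) hao hb4 ⟨_, hcube⟩
  have hΔ' : W'.Δ = W.Δ * d ^ 3 := by
    refine mul_left_cancel₀ (by norm_num : (1728 : ℤ) ≠ 0) ?_
    rw [← hcube, ← cube_sub_sq_eq, h4, h6']
  have hd0 : d ≠ 0 := fun h => by rw [ed, h, mul_zero, mul_zero] at hneg; exact lt_irrefl _ hneg
  have hΔ'0 : W'.Δ ≠ 0 := hΔ' ▸ mul_ne_zero hΔ (pow_ne_zero 3 hd0)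
  have hc4odd : ¬ (2 : ℤ) ∣ W'.c₄ := by
    rw [h4, ← even_iff_two_dvd]; exact Int.not_even_iff_odd.2 hao
  have hv2 : padicValInt 2 d = j₂ + 1 := by
    have hd : d = 2 ^ (j₂ + 1) * (27 * w) + 2 ^ 17 * γ := by rw [hddef, hw]; ring
    refine padicValInt_eq_of_dvd Nat.prime_two ?_ fun h => ?_
    · rw [hd, Nat.cast_ofNat]
      exact (dvd_mul_right _ _).add ((pow_dvd_pow 2 (by omega)).mul_right _)
    · rw [hd, Nat.cast_ofNat] at h
      have h1 := (dvd_add_left ((pow_dvd_pow 2 (by omega : j₂ + 1 + 1 ≤ 17)).mul_right γ)).1 h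
      rw [pow_succ] at h1
      exact Int.not_even_iff_odd.2 ((by decide : Odd (27 : ℤ)).mul hwo)
        (even_iff_two_dvd.2 (Int.dvd_of_mul_dvd_mul_left (pow_ne_zero _ two_ne_zero) h1))
  -- the primes outside `2 Δ`
  have hnew : ∀ q : ℕ, q.Prime → (q : ℤ) ∣ W'.Δ → ¬ (q : ℤ) ∣ W.Δ →
      ¬ q ∣ 3 * M ∧ padicValInt q W'.Δ = 3 ∧ ¬ (q : ℤ) ∣ W'.c₄ := by
    intro q hq hqΔ' hqΔ
    have hqi := Nat.prime_iff_prime_int.1 hq
    have hqd : (q : ℤ) ∣ d := by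
      rw [hΔ'] at hqΔ'
      exact hqi.dvd_of_dvd_pow ((hqi.dvd_or_dvd hqΔ').resolve_left hqΔ)
    have hq2 : q ≠ 2 := fun h => hqΔ (h ▸ h2)
    have hqG : ¬ q ∣ G := fun h => hq.not_dvd_one (Int.natCast_dvd_natCast.1
      ((dvd_sub_right hqd).1 ((Int.natCast_dvd_natCast.2 h).trans hdG)))
    have hq3 : q ≠ 3 := by
      rintro rfl
      rcases h3G with h3 | h3
      · exact hqΔ h3
      · exact hqG (Dvd.dvd.trans (by norm_num) h3)
    by_cases hqs : q ∈ s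
    · obtain ⟨hqa, hqv⟩ := hodd q hqs
      rw [padicValInt.eq_zero_of_not_dvd hqΔ] at hqv
      refine ⟨fun h => ?_, ?_, h4 ▸ hqa⟩
      · rcases hq.dvd_mul.1 h with h | h
        · exact hq3 ((Nat.prime_dvd_prime_iff_eq hq Nat.prime_three).1 h)
        · exact hqG (h.trans hMG)
      · rw [hΔ', padicValInt_mul_cube hq hΔ hd0, padicValInt.eq_zero_of_not_dvd hqΔ, hqv]
    have hqT : ¬ q ∣ T := by
      intro h
      have h' : (q : ℤ) ∣ (2 : ℤ) ^ 25 * P * G := by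
        rw [show (2 : ℤ) ^ 25 * P * G = (T : ℤ) by rw [hT]; push_cast; rfl]
        exact Int.natCast_dvd_natCast.2 h
      rcases hqi.dvd_or_dvd h' with h' | h'
      · rcases hqi.dvd_or_dvd h' with h' | h'
        · exact hq2 ((Nat.prime_dvd_prime_iff_eq hq Nat.prime_two).1
            (hq.dvd_of_dvd_pow (show q ∣ 2 ^ 25 by exact_mod_cast h')))
        · rw [hP, Int.natCast_dvd_natCast, hq.prime.dvd_finsetProd_iff] at h'
          obtain ⟨p, hp, hqp⟩ := h'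
          obtain rfl := (Nat.prime_dvd_prime_iff_eq hq ((hsmem p).1 hp).1).1 (hq.dvd_of_dvd_pow hqp)
          exact hqs hp
      · exact hqG (Int.natCast_dvd_natCast.1 h')
    have hd1 : ¬ (q : ℤ) ^ 2 ∣ d := fun h => hsq q hq hqT (by rw [ed]; exact h.mul_left _)
    refine ⟨fun h => ?_, ?_, fun h => ?_⟩
    · rcases hq.dvd_mul.1 h with h | h
      · exact hq3 ((Nat.prime_dvd_prime_iff_eq hq Nat.prime_three).1 h)
      · exact hqG (h.trans hMG)
    · rw [hΔ', padicValInt_mul_cube hq hΔ hd0, padicValInt.eq_zero_of_not_dvd hqΔ,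
        padicValInt_eq_one hq hqd hd1]
    · refine not_dvd_dL_c4L hq hq2 hq3 hqΔ hlm ⟨?_, ?_⟩
      · rw [ed]; exact hqd.mul_left _
      · rw [ea, ← h4]; exact h.mul_left _
  refine ⟨W', ?_, ?_, ⟨?_, hc4odd⟩, ⟨?_, ?_⟩, ?_, ?_, ?_, ?_, ?_, ?_, q₁, q₂, hq₁, hq₂,
    ?_, ?_, ?_, ?_, ?_, ?_, ?_⟩
  · refine congr3_pencil (l := l) (m := m) (t := 4) (by norm_num) hΔ
      (by rw [ed]; exact mul_ne_zero (by norm_num) hd0) ?_ ?_
    · rw [h4, ea]; push_cast; ring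
    · rw [h6', eb]; push_cast; ring
  · intro q hq hqΔ' hqc
    by_cases hqΔ : (q : ℤ) ∣ W.Δ
    · by_cases hq2 : q = 2
      · subst hq2; exact hc4odd (by exact_mod_cast hqc)
      · exact (hodd q ((hsmem q).2 ⟨hq, hq2, Or.inl hqΔ⟩)).1 (h4 ▸ hqc)
    · exact (hnew q hq hqΔ' hqΔ).2.2 hqc
  · rw [hΔ']; exact h2.mul_right _
  · rw [h4]; exact (Int.natCast_dvd_natCast.2 hMG).trans haG
  · rw [h6']; exact (Int.natCast_dvd_natCast.2 hMG).trans hbG
  · intro h3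
    have h729 : (729 : ℤ) ∣ (G : ℤ) := by exact_mod_cast h3G.resolve_left h3
    exact ⟨h4 ▸ h729.trans haG, h6' ▸ h729.trans hbG⟩
  · intro q _ hqΔ
    rw [hΔ']; exact hqΔ.mul_right _
  · intro q hq hqΔ'
    by_cases hqΔ : (q : ℤ) ∣ W.Δ
    · rw [hΔ', padicValInt_mul_cube hq hΔ hd0, Nat.odd_iff]
      by_cases hq2 : q = 2
      · subst hq2; rw [hv2, hj₂]; omega
      · rw [(hodd q ((hsmem q).2 ⟨hq, hq2, Or.inl hqΔ⟩)).2]; omega
    · rw [(hnew q hq hqΔ' hqΔ).2.1]; decide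
  · intro q hq hqΔ'
    by_cases hqΔ : (q : ℤ) ∣ W.Δ
    · exact Or.inl hqΔ
    · exact Or.inr ⟨(hnew q hq hqΔ' hqΔ).1, (hnew q hq hqΔ' hqΔ).2.1⟩
  · have h1 : (1728 * 256) * (W.Δ * d) < 0 := by
      rw [ed, cube_sub_sq_eq] at hneg; linarith
    have h2' : 0 < d ^ 2 := by positivity
    rw [hΔ', show W.Δ * d ^ 3 = W.Δ * d * d ^ 2 by ring]
    exact mul_neg_of_neg_of_pos (by linarith) h2'
  · refine modRepIsIrreducible_two_of_no_root W' hΔ'0 fun X₀ h => hroot (16 * X₀) ?_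
    rw [ea, eb, ← h4, ← h6']; linear_combination (4096 : ℤ) * h
  · exact (by have := le_max_right (729 * M) q₁; omega : q₁ ≠ q₂)
  · exact h12q₁
  · exact h12q₂
  · exact hΔq₁
  · exact hΔq₂
  · rw [hΔ']
    refine (Dvd.dvd.trans ?_ (dvd_pow_self d three_ne_zero)).mul_left _
    have h := (hodd q₁ ((hsmem q₁).2 ⟨hq₁, by omega, Or.inr (Or.inl rfl)⟩)).2
    exact dvd_of_padicValInt_ne_zero (by omega)
  · rw [hΔ']
    refine (Dvd.dvd.trans ?_ (dvd_pow_self d three_ne_zero)).mul_left _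
    have h := (hodd q₂ ((hsmem q₂).2 ⟨hq₂, by omega, Or.inr (Or.inr rfl)⟩)).2
    exact dvd_of_padicValInt_ne_zero (by omega)

end Fermat.Agent.SwitchThree
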