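import Fermat.Agent.Root.Defs
import Fermat.Agent.SwitchThree.Genus

/-!
# The switch at 3 in the form used by the root program

Main result: `exists_genusCurve`.
-/

set_option autoImplicit false

namespace Fermat.Agent.SwitchThree

open Root in
/-- The switch at 3 to a curve to which genus theory applies. -/
theorem exists_genusCurve (W : WeierstrassCurve ℤ) (hW : Semistable W) (h2 : (2 : ℤ) ∣ W.Δ) :
    ∃ W' : WeierstrassCurve ℤ, GenusCurve W' ∧ CongrMod 3 W W' ∧
      ((3 : ℤ) ∣ W.Δ ↔ (3 : ℤ) ∣ W'.Δ) := by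
  obtain ⟨W', hC, hss, ⟨h2', -⟩, -, -, hold, hodd, hnew, hneg, hirr,
    q, r, hq, hr, hqr, hq12, hr12, -, -, hqΔ, hrΔ⟩ :=
    exists_switch_genus W hW.ne hW.ss h2 1 (by simpa using isCoprime_one_left (R := ℤ))
  refine ⟨W', ⟨hss, hneg, h2', hodd, ⟨q, r, hq, hr, hqr, hq12, hr12, hqΔ, hrΔ⟩, hirr⟩,
    fun ℓ hℓ hg hg' h3 => hC.dvd_apOfModel_sub hℓ hg hg' h3, fun h => ?_, fun h => ?_⟩
  · exact_mod_cast hold 3 Nat.prime_three (by exact_mod_cast h)
  · rcases hnew 3 Nat.prime_three (by exact_mod_cast h) with h' | h'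
    · exact_mod_cast h'
    · exact absurd (dvd_mul_right 3 1) h'.1

end Fermat.Agent.SwitchThree
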